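import Fermat.Agent.Mazur.Immersion.Germ
import Fermat.Agent.RED.PlaceReductionModular
import Fermat.Agent.MF.Coeff.FieldK
import Fermat.Prelude.Def_GaloisRep_CompletionBridge

/-!
# Places of `X₀(N)` given by evaluation at a point of the open disc

`IsEvalPlace N q P s` says that the valuation ring of `P` consists of the functions whose
`q`-expansion, with coefficients moved into `ℂ_[q]`, is regular at `s`.
-/

set_option autoImplicit false

noncomputable section

namespace Fermat.Agent.Mazur.Immersion

open AlgebraicCurve ModularCurve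

variable (q : ℕ) [Fact q.Prime]

/-- `ℚ̄` inside the completed algebraic closure of `ℚ_q`. -/
def cEmb : AlgebraicClosure ℚ →+* ℂ_[q] :=
  (algebraMap (PadicAlgCl q) ℂ_[q]).comp (padicEmbedding q).toRingHom

/-- An expansion with coefficients moved into `ℂ_[q]`. -/
def germ : LaurentSeries (AlgebraicClosure ℚ) →+* LaurentSeries ℂ_[q] :=
  coeffMap (cEmb q)

variable (N : ℕ)

/-- `P` is the point with parameter `s`. -/
def IsEvalPlace (P : Place (AlgebraicClosure ℚ) (modularFunctionFieldBar N)) (s : ℂ_[q]) : Prop :=
  ‖s‖ < 1 ∧ ∀ f : modularFunctionFieldBar N,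
    f ∈ P.toValuationSubring ↔ RegularAt s (germ q (f : LaurentSeries (AlgebraicClosure ℚ)))

/-- A coefficientwise reduction of `X₀(N)` at `A`, with the two charts of `j`. -/
def HasReductionData [NeZero N] (A : ValuationSubring (AlgebraicClosure ℚ)) : Prop :=
  ∃ D : RED.ReductionDatum A (IsLocalRing.residue A) (modularFunctionFieldBar N)
      (modularFunctionFieldFullC (IsLocalRing.ResidueField A) N),
    RED.IsCoefficientwise D ∧
      ∃ (xb : modularFunctionFieldFullC (IsLocalRing.ResidueField A) N) (n : ℕ),
        RED.TwoCharts D (MF.Coeff.jElem (AlgebraicClosure ℚ) N) xb n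

end Fermat.Agent.Mazur.Immersion
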