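import Fermat.Agent.Mazur.Immersion.LatticeCone
import Fermat.Agent.MF.IntStruct.Hecke
import Fermat.Agent.MF.CuspSlash
import Fermat.Prelude.Def_CuspForm_HeckeLocal

/-!
# Positivity: every `-a_d` is a nonnegative combination of the `a_m`

No nonzero cusp form of weight `2` has all coefficients real and nonnegative, as it tends to zero
along the imaginary axis at the cusp `0`.
-/

set_option autoImplicit false

noncomputable section

namespace Fermat.Agent.Mazur.Immersion

open UpperHalfPlane CongruenceSubgroup ModularFormClass Filter Asymptotics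
open scoped Topology MatrixGroups ModularForm

variable {N : ℕ} [NeZero N]

/-- The point `i y`. -/
def iPt (y : ℝ) (hy : 0 < y) : ℍ := ⟨Complex.I * y, by simpa using hy⟩

theorem im_iPt (y : ℝ) (hy : 0 < y) : (iPt y hy).im = y := by
  show (Complex.I * (y : ℂ)).im = y
  simp

theorem coe_iPt (y : ℝ) (hy : 0 < y) : (iPt y hy : ℂ) = Complex.I * y := rfl

theorem hasSum_iPt (F : CuspForm (Gamma0 N) 2) (y : ℝ) (hy : 0 < y) :
    HasSum (fun n => qCoeff F n * ((Real.exp (-2 * Real.pi * y) ^ n : ℝ) : ℂ)) (F (iPt y hy)) := by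
  have : Fact (IsCusp OnePoint.infty (Gamma0 N : Subgroup (GL (Fin 2) ℝ))) :=
    ⟨Subgroup.isCusp_of_mem_strictPeriods one_pos
      (CongruenceSubgroup.one_mem_strictPeriods_Gamma0 N)⟩
  have h := ModularForm.hasSum_qExpansion F one_pos
    (CongruenceSubgroup.one_mem_strictPeriods_Gamma0 N) (iPt y hy)
  have hq : Function.Periodic.qParam 1 (iPt y hy : ℂ) = ((Real.exp (-2 * Real.pi * y) : ℝ) : ℂ) := by
    rw [Function.Periodic.qParam, coe_iPt, Complex.ofReal_exp]
    congr 1
    push_cast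
    linear_combination (2 * (Real.pi : ℂ) * y) * Complex.I_mul_I
  rw [hq] at h
  simpa [qCoeff] using h

/-- The value at `i y` of a form with nonnegative coefficients dominates each term. -/
theorem le_re_of_nonneg (F : CuspForm (Gamma0 N) 2)
    (hF : ∀ n, (qCoeff F n).im = 0 ∧ 0 ≤ (qCoeff F n).re) (n : ℕ) (y : ℝ) (hy : 0 < y) :
    (qCoeff F n).re * Real.exp (-2 * Real.pi * y) ^ n ≤ (F (iPt y hy)).re := by
  have h := Complex.hasSum_re (hasSum_iPt F y hy)
  simp only [Complex.re_mul_ofReal] at h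
  exact le_hasSum h n fun m _ => mul_nonneg (hF m).2 (pow_nonneg (Real.exp_pos _).le m)

/-- A form tends to zero along the imaginary axis towards `0`. -/
theorem tendsto_iPt_inv (F : CuspForm (Gamma0 N) 2) :
    Tendsto (fun Y : ℝ => if h : 0 < Y then F (iPt Y⁻¹ (inv_pos.mpr h)) else 0) atTop (𝓝 0) := by
  have hN : (0 : ℝ) < N := MF.natCast_pos_real
  have h0 := CuspFormClass.zero_at_infty_slash F ModularGroup.S
  have hO := h0.exp_decay_atImInfty hN (MF.periodic_slash_gamma0 F ModularGroup.S)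
    ((CuspFormClass.holo F).slash 2 _) (ZeroAtFilter.boundedAtFilter h0)
  obtain ⟨C, hC⟩ := hO.bound
  obtain ⟨A, hA⟩ := (atImInfty_mem _).mp hC
  have hlim : Tendsto (fun Y : ℝ => C * (Y ^ (2 : ℝ) * Real.exp (-(2 * Real.pi / N) * Y))) atTop
      (𝓝 0) := by
    simpa using (tendsto_rpow_mul_exp_neg_mul_atTop_nhds_zero (2 : ℝ) (2 * Real.pi / N)
      (by positivity)).const_mul C
  refine squeeze_zero_norm' ?_ hlim
  filter_upwards [eventually_ge_atTop A, eventually_gt_atTop 0] with Y hYA hY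
  rw [dif_pos hY]
  have hG := hA (iPt Y hY) (by rw [im_iPt]; exact hYA)
  have hS : ModularGroup.S • iPt Y hY = iPt Y⁻¹ (inv_pos.mpr hY) := by
    rw [modular_S_smul]
    refine UpperHalfPlane.ext ?_
    show (-(Complex.I * (Y : ℂ)))⁻¹ = Complex.I * ((Y⁻¹ : ℝ) : ℂ)
    rw [inv_neg, mul_inv, Complex.inv_I, Complex.ofReal_inv]
    ring
  have hden : ‖denom ModularGroup.S (iPt Y hY)‖ = Y := by
    rw [ModularGroup.denom_S, coe_iPt, norm_mul, Complex.norm_I, one_mul, Complex.norm_real,
      Real.norm_eq_abs, abs_of_pos hY]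
  simp only [Set.mem_ofPred_eq, ModularForm.SL_slash_apply, hS, norm_mul, norm_zpow, hden,
    im_iPt, Real.norm_eq_abs, abs_of_pos (Real.exp_pos _)] at hG
  have hY2 : (0 : ℝ) < Y ^ (2 : ℝ) := Real.rpow_pos_of_pos hY 2
  rw [show Y ^ (-(2 : ℤ)) = (Y ^ (2 : ℝ))⁻¹ by rw [zpow_neg, Real.rpow_two]; rfl,
    ← div_eq_mul_inv, div_le_iff₀ hY2] at hG
  refine hG.trans (le_of_eq ?_)
  rw [show -2 * Real.pi * Y / N = -(2 * Real.pi / N) * Y by ring]
  ring

/-- A cusp form with nonnegative real coefficients vanishes. -/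
theorem eq_zero_of_qCoeff_nonneg (F : CuspForm (Gamma0 N) 2)
    (hF : ∀ n, (qCoeff F n).im = 0 ∧ 0 ≤ (qCoeff F n).re) : F = 0 := by
  refine Eigen.cuspForm_ext_qCoeff fun n => ?_
  rw [Eigen.qCoeff_zero_form]
  refine Complex.ext (le_antisymm ?_ (hF n).2) (hF n).1
  have h1 : Tendsto (fun Y : ℝ => (qCoeff F n).re * Real.exp (-2 * Real.pi * Y⁻¹) ^ n) atTop
      (𝓝 (qCoeff F n).re) := by
    have : Tendsto (fun Y : ℝ => (qCoeff F n).re * Real.exp (-2 * Real.pi * Y⁻¹) ^ n) atTop
        (𝓝 ((qCoeff F n).re * Real.exp (-2 * Real.pi * 0) ^ n)) :=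
      (((Real.continuous_exp.tendsto _).comp
        (tendsto_inv_atTop_zero.const_mul (-2 * Real.pi))).pow n).const_mul _
    simpa using this
  have h2 := (Complex.continuous_re.tendsto 0).comp (tendsto_iPt_inv F)
  refine le_of_tendsto_of_tendsto h1 h2 ?_
  filter_upwards [eventually_gt_atTop 0] with Y hY
  simp only [Function.comp_apply, dif_pos hY]
  exact le_re_of_nonneg F hF n Y⁻¹ (inv_pos.mpr hY)

/-- Every `-a_d` is a nonnegative integral combination of coefficients. -/
theorem exists_neg_qCoeff_eq (d : ℕ) :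
    ∃ r : ℕ →₀ ℕ, ∀ F : CuspForm (Gamma0 N) 2,
      -qCoeff F d = r.sum fun m c => (c : ℂ) * qCoeff F m := by
  haveI : Module.Finite ℤ ↥(CuspForm.intLattice N 2) := CuspForm.intLattice.moduleFinite N
  haveI : Module.Free ℤ ↥(CuspForm.intLattice N 2) := CuspForm.intLattice.moduleFree N
  let b := Module.Free.chooseBasis ℤ ↥(CuspForm.intLattice N 2)
  choose a ha using fun (i : Module.Free.ChooseBasisIndex ℤ ↥(CuspForm.intLattice N 2)) (m : ℕ) =>
    MF.IntStruct.exists_int_qCoeff (b i).2 m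
  have hli : LinearIndependent ℂ fun i => (b i : CuspForm (Gamma0 N) 2) :=
    Eigen.linearIndependent_complex_of_int_coord _ (fun m : ℕ => Eigen.qCoeffLin N 2 m)
      (fun x hx => Eigen.cuspForm_ext_qCoeff fun m => by
        rw [Eigen.qCoeff_zero_form]; exact hx m)
      (fun i m => ⟨a i m, ha i m⟩)
      (b.linearIndependent.map' (CuspForm.intLattice N 2).subtype (Submodule.ker_subtype _))
  let v : ℕ → (Module.Free.ChooseBasisIndex ℤ ↥(CuspForm.intLattice N 2)) → ℤ := fun m i => a i m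
  have hpos : ∀ x : Module.Free.ChooseBasisIndex ℤ ↥(CuspForm.intLattice N 2) → ℝ, x ≠ 0 → ∃ m, ∑ i, (v m i : ℝ) * x i < 0 := by
    intro x hx
    by_contra hall
    push Not at hall
    apply hx
    have hq : ∀ m, qCoeff (⇑(∑ i, (x i : ℂ) • (b i : CuspForm (Gamma0 N) 2))) m =
        ((∑ i, (v m i : ℝ) * x i : ℝ) : ℂ) := by
      intro m
      rw [← Eigen.qCoeffLin_apply, map_sum, Complex.ofReal_sum]
      refine Finset.sum_congr rfl fun i _ => ?_
      rw [map_smul, Eigen.qCoeffLin_apply, ha, smul_eq_mul]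
      show (x i : ℂ) * (a i m : ℂ) = (((a i m : ℝ) * x i : ℝ) : ℂ)
      push_cast
      ring
    have h0 := eq_zero_of_qCoeff_nonneg _ fun m => by
      rw [hq m, Complex.ofReal_im, Complex.ofReal_re]
      exact ⟨rfl, hall m⟩
    funext i
    exact_mod_cast Fintype.linearIndependent_iff.mp hli (fun i => (x i : ℂ)) h0 i
  have hmem := neg_mem_closure v hpos d
  rw [← Submodule.span_nat_eq_addSubmonoidClosure, Submodule.mem_toAddSubmonoid,
    Finsupp.mem_span_range_iff_exists_finsupp] at hmem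
  obtain ⟨r, hr⟩ := hmem
  refine ⟨r, fun F => ?_⟩
  let L : CuspForm (Gamma0 N) 2 →ₗ[ℂ] ℂ :=
    -Eigen.qCoeffLin N 2 d - r.sum fun m c => (c : ℂ) • Eigen.qCoeffLin N 2 m
  suffices hL : L = 0 by
    have := LinearMap.congr_fun hL F
    simp only [L, LinearMap.sub_apply, LinearMap.neg_apply, LinearMap.zero_apply, sub_eq_zero,
      Finsupp.sum, LinearMap.sum_apply, LinearMap.smul_apply, smul_eq_mul,
      Eigen.qCoeffLin_apply] at this
    exact this
  have hb : ∀ i, L (b i : CuspForm (Gamma0 N) 2) = 0 := by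
    intro i
    simp only [L, LinearMap.sub_apply, LinearMap.neg_apply, sub_eq_zero, Finsupp.sum,
      LinearMap.sum_apply, LinearMap.smul_apply, smul_eq_mul, Eigen.qCoeffLin_apply, ha]
    have h1 : ((r.sum fun m c => c • v m) i : ℂ) = ((-v d) i : ℂ) := by rw [hr]
    rw [Finsupp.sum, Finset.sum_apply] at h1
    push_cast at h1
    simpa [v] using h1.symm
  refine LinearMap.ext_on (MF.IntStruct.hasIntegralStructure N 2) fun g hg => ?_
  have : (L.restrictScalars ℤ).comp (CuspForm.intLattice N 2).subtype = 0 :=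
    b.ext fun i => by simpa using hb i
  exact LinearMap.congr_fun this ⟨g, hg⟩

end Fermat.Agent.Mazur.Immersion
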