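import Fermat.Agent.Mazur.Immersion.Weights
import Fermat.Agent.Eigen.QCoeff
import Fermat.Prelude.Def_CuspForm_HeckeEvalForms

/-!
# Weights as functionals on cusp forms

The pairs `(1, d)` of a weight give the functional `F ↦ a₁(t F)` of the operator it represents.
-/

set_option autoImplicit false

noncomputable section

namespace Fermat.Agent.Mazur.Immersion

open ModularFormClass CongruenceSubgroup

variable {N : ℕ} [NeZero N]

/-- The functional of a weight. -/
def formPair (F : CuspForm (Gamma0 N) 2) : Wt →ₗ[ℤ] ℂ :=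
  Finsupp.linearCombination ℤ fun p => if p.1 = 1 then qCoeff F p.2 else 0

omit [NeZero N] in
theorem formPair_single (F : CuspForm (Gamma0 N) 2) (p : ℕ × ℕ) (c : ℤ) :
    formPair F (Finsupp.single p c) = c • if p.1 = 1 then qCoeff F p.2 else 0 :=
  Finsupp.linearCombination_single ℤ c p

/-- The Hecke operator on forms. -/
def formOp (N : ℕ) [NeZero N] (t : ModularCurve.HeckeAlg) :
    Module.End ℂ (CuspForm (Gamma0 N) 2) :=
  (CuspForm.heckeEvalForms N 2 t : Module.End ℂ (CuspForm (Gamma0 N) 2))

theorem formOp_add (s t : ModularCurve.HeckeAlg) : formOp N (s + t) = formOp N s + formOp N t := by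
  rw [formOp, map_add]
  rfl

theorem formOp_mul (s t : ModularCurve.HeckeAlg) : formOp N (s * t) = formOp N s * formOp N t := by
  rw [formOp, map_mul]
  rfl

theorem formOp_C (a : ℤ) : formOp N (MvPolynomial.C a) = a • 1 := by
  rw [formOp, CuspForm.heckeEvalForms_C, Algebra.algebraMap_eq_smul_one]
  rfl

theorem qCoeff_formOp_gen (ℓ : Nat.Primes) (F : CuspForm (Gamma0 N) 2) (n : ℕ) :
    qCoeff (formOp N (ModularCurve.heckeGen ℓ) F) n = qCoeff F ((ℓ : ℕ) * n) +
      if (ℓ : ℕ) ∣ N then 0 else if (ℓ : ℕ) ∣ n then ((ℓ : ℕ) : ℂ) * qCoeff F (n / ℓ) else 0 := by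
  by_cases h : (ℓ : ℕ) ∣ N
  · rw [formOp, CuspForm.heckeEvalForms_heckeGen_of_dvd h, CuspForm.heckeAlgebra.coe_U,
      Eigen.qCoeff_heckeULin, if_pos h, add_zero, mul_comm]
  · rw [formOp, CuspForm.heckeEvalForms_heckeGen_of_not_dvd h, CuspForm.heckeAlgebra.coe_T,
      Eigen.qCoeff_heckeTLin, if_neg h, mul_comm]
    norm_num

/-- The functional of a stepped weight. -/
theorem formPair_step (ℓ : Nat.Primes) (F : CuspForm (Gamma0 N) 2) (w : Wt) :
    formPair F (step N ℓ w) = formPair (formOp N (ModularCurve.heckeGen ℓ) F) w := by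
  induction w using Finsupp.induction_linear with
  | zero => simp
  | add f g hf hg => simp only [map_add, hf, hg]
  | single p c =>
    rw [step_single, map_zsmul, formPair_single]
    congr 1
    rw [stepPair, map_add, formPair_single, one_smul]
    by_cases h1 : p.1 = 1
    · rw [if_pos h1, if_pos h1, qCoeff_formOp_gen]
      congr 1
      split_ifs with hN hd
      · simp
      · rw [formPair_single, if_pos h1, zsmul_eq_mul, Int.cast_natCast]
      · rw [formPair_single, if_neg, smul_zero]
        rw [h1, mul_one]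
        exact ℓ.2.ne_one
    · rw [if_neg h1, if_neg h1, zero_add]
      split_ifs with hN hd
      · simp
      · rw [formPair_single, if_neg h1, smul_zero]
      · rw [formPair_single, if_neg (fun h => ℓ.2.ne_one (Nat.eq_one_of_mul_eq_one_right h)),
          smul_zero]

/-- The weight of the `n`-th operator gives the `n`-th coefficient. -/
theorem formPair_wtOf (F : CuspForm (Gamma0 N) 2) (n : ℕ) :
    formPair F (wtOf N n) = qCoeff F n := by
  rcases eq_or_ne n 0 with rfl | hn
  · rw [wtOf_zero, map_zero, Eigen.qCoeff_zero_index]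
  rw [wtOf, map_sum, Finset.sum_eq_single (1, n)]
  · rw [formPair_single, if_pos rfl, one_smul]
  · intro p hp hne
    rw [formPair_single, one_smul, if_neg]
    intro h1
    rw [mem_pairsOf] at hp
    exact hne (Prod.ext h1 (by rw [← hp.1, h1, one_mul]))
  · intro h
    exact absurd ((mem_pairsOf N).mpr ⟨one_mul n, hn, Nat.coprime_one_left N⟩) h

end Fermat.Agent.Mazur.Immersion
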