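import Fermat.Agent.Mazur.Immersion.WeightDiv
import Fermat.Agent.Mazur.Immersion.WeightForms

/-!
# Weights representing Hecke operators on forms and on classes `[ev(s) - ∞]`
-/

set_option autoImplicit false
set_option linter.style.haveILetI false

noncomputable section

namespace Fermat.Agent.Mazur.Immersion

open AlgebraicCurve ModularCurve ModularFormClass

local notation "ℚbar" => AlgebraicClosure ℚ

variable {q : ℕ} [Fact q.Prime] (N : ℕ) [NeZero N]

/-- The divisor `wDiv s w - wDiv 0 w`, of degree zero. -/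
def wDiff (s : ℂ_[q]) : Wt →ₗ[ℤ] Divisor ℚbar (modularFunctionFieldBar N) :=
  wDiv N s - wDiv N (0 : ℂ_[q])

theorem degree_wDiv (s : ℂ_[q]) (w : Wt) :
    Divisor.degree (wDiv N s w) = w.sum fun p c => c * (p.2 : ℤ) := by
  induction w using Finsupp.induction_linear with
  | zero => simp
  | add f g hf hg =>
    rw [map_add, map_add, hf, hg, Finsupp.sum_add_index' (by simp) (by intros; ring)]
  | single p c =>
    rw [wDiv_single, map_zsmul, degree_ptsDiv, pts, card_nthRoots_eq, Finsupp.sum_single_index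
      (by simp), smul_eq_mul]

theorem wDiff_mem_degZero (s : ℂ_[q]) (w : Wt) :
    wDiff N s w ∈ Divisor.degZero (K := ℚbar) (F := modularFunctionFieldBar N) := by
  rw [Divisor.mem_degZero, wDiff, LinearMap.sub_apply, map_sub, degree_wDiv, degree_wDiv, sub_self]

/-- The class of `wDiff`. -/
def wClass (s : ℂ_[q]) (w : Wt) : JZero N := Pic0.mk ⟨wDiff N s w, wDiff_mem_degZero N s w⟩

theorem wClass_add (s : ℂ_[q]) (v w : Wt) : wClass N s (v + w) = wClass N s v + wClass N s w := by
  rw [wClass, wClass, wClass, ← Pic0.mk_add]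
  exact congrArg Pic0.mk (Subtype.ext (map_add _ v w))

theorem wClass_zsmul (s : ℂ_[q]) (c : ℤ) (w : Wt) : wClass N s (c • w) = c • wClass N s w := by
  show QuotientAddGroup.mk _ = c • (QuotientAddGroup.mk _ : JZero N)
  rw [← QuotientAddGroup.mk_zsmul]
  exact congrArg QuotientAddGroup.mk (Subtype.ext (map_zsmul _ c w))

/-- The weight `w` represents the operator `t`. -/
def Represents (q : ℕ) [Fact q.Prime] (t : HeckeAlg) (w : Wt) : Prop :=
  (∀ p ∈ w.support, GoodPair N q p) ∧
    (∀ F, qCoeff (formOp N t F) 1 = formPair F w) ∧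
    ∀ s : ℂ_[q], AlgPt q N s →
      (letI := heckeModuleBar N; t • wClass N s (Finsupp.single (1, 1) 1)) = wClass N s w

variable {N}

theorem Represents.add {t t' : HeckeAlg} {w w' : Wt} (h : Represents N q t w)
    (h' : Represents N q t' w') : Represents N q (t + t') (w + w') := by
  classical
  letI := heckeModuleBar N
  refine ⟨fun p hp => ?_, fun F => ?_, fun s hs => ?_⟩
  · rcases Finset.mem_union.mp (Finsupp.support_add hp) with hp | hp
    · exact h.1 p hp
    · exact h'.1 p hp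
  · rw [formOp_add, LinearMap.add_apply, Eigen.qCoeff_add, h.2.1, h'.2.1, map_add]
  · rw [add_smul, h.2.2 s hs, h'.2.2 s hs, wClass_add]

theorem represents_C (a : ℤ) : Represents N q (MvPolynomial.C a) (Finsupp.single (1, 1) a) := by
  classical
  letI := heckeModuleBar N
  refine ⟨fun p hp => ?_, fun F => ?_, fun s _ => ?_⟩
  · rw [Finset.mem_singleton.mp (Finsupp.support_single_subset hp)]
    exact goodPair_one
  · rw [formOp_C, LinearMap.smul_apply, Module.End.one_apply, ← Eigen.qCoeffLin_apply,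
      map_zsmul, formPair_single, if_pos rfl, Eigen.qCoeffLin_apply]
  · rw [heckeModuleBar_C_smul, ← wClass_zsmul]
    simp [Finsupp.smul_single]

theorem Represents.zsmul {t : HeckeAlg} {w : Wt} (h : Represents N q t w) (c : ℤ) :
    Represents N q (MvPolynomial.C c * t) (c • w) := by
  classical
  letI := heckeModuleBar N
  refine ⟨fun p hp => h.1 p (Finsupp.support_smul hp), fun F => ?_, fun s hs => ?_⟩
  · rw [formOp_mul, formOp_C, Module.End.mul_apply, LinearMap.smul_apply, Module.End.one_apply,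
      ← Eigen.qCoeffLin_apply, map_zsmul, Eigen.qCoeffLin_apply, h.2.1, map_zsmul]
  · rw [mul_smul, h.2.2 s hs, heckeModuleBar_C_smul, wClass_zsmul]

theorem heckeOperatorBar_wClass (ℓ : Nat.Primes) {w : Wt}
    (hw : ∀ p ∈ w.support, GoodPair N q p) {s : ℂ_[q]} (hs : AlgPt q N s) :
    (∀ p ∈ (step N ℓ w).support, GoodPair N q p) ∧
      heckeOperatorBar N ℓ (wClass N s w) = wClass N s (step N ℓ w) := by
  haveI : NeZero (ℓ : ℕ) := ⟨ℓ.2.ne_zero⟩
  obtain ⟨hα, hβ, hP, hfin, hFI, hnf⟩ := HK.Corr.heckeInputsAlong_all ℚbar N ℓ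
  haveI := hP
  refine ⟨goodPair_of_mem_step ℓ.2 hα hβ hw, ?_⟩
  rw [heckeOperatorBar_apply, heckeOperatorAlong_eq hα hβ hFI hfin hnf]
  refine (Pic0.correspondence_mk _ _ hβ hα hFI hfin hnf _).trans (congrArg Pic0.mk (Subtype.ext ?_))
  show heckeDivBar hα hβ (wDiff N s w) = wDiff N s (step N ℓ w)
  simp only [wDiff, LinearMap.sub_apply]
  rw [map_sub,
    heckeDivBar_wDiv ℓ.2 hα hβ hw hs, heckeDivBar_wDiv ℓ.2 hα hβ hw (algPt_zero q N)]

theorem Represents.mul_gen {t : HeckeAlg} {w : Wt} (h : Represents N q t w) (ℓ : Nat.Primes) :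
    Represents N q (t * heckeGen ℓ) (step N ℓ w) := by
  letI := heckeModuleBar N
  refine ⟨(heckeOperatorBar_wClass ℓ h.1 (algPt_zero q N)).1, fun F => ?_, fun s hs => ?_⟩
  · rw [formOp_mul, Module.End.mul_apply, h.2.1, formPair_step]
  · rw [mul_comm, mul_smul, h.2.2 s hs, HK.Corr.heckeModuleBar_heckeGen_smul_eq,
      (heckeOperatorBar_wClass ℓ h.1 hs).2]

/-- Every operator is represented by some weight. -/
theorem exists_represents (t : HeckeAlg) : ∃ w, Represents N q t w := by
  induction t using MvPolynomial.induction_on with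
  | C a => exact ⟨_, represents_C a⟩
  | add s t hs ht =>
    obtain ⟨v, hv⟩ := hs
    obtain ⟨w, hw⟩ := ht
    exact ⟨_, hv.add hw⟩
  | mul_X t ℓ ht =>
    obtain ⟨w, hw⟩ := ht
    exact ⟨_, hw.mul_gen ℓ⟩

/-- The weight of index `n` represents an operator. -/
theorem exists_represents_wtOf (n : ℕ) : ∃ t, Represents N q t (wtOf N n) := by
  induction n using Nat.strong_induction_on with
  | _ n ih =>
    rcases eq_or_ne n 0 with rfl | hn0
    · exact ⟨MvPolynomial.C 0, by rw [wtOf_zero]; simpa using represents_C (N := N) (q := q) 0⟩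
    rcases eq_or_ne n 1 with rfl | hn1
    · exact ⟨MvPolynomial.C 1, by rw [wtOf_one]; exact represents_C 1⟩
    obtain ⟨ℓ, hℓ, m, rfl⟩ := Nat.exists_prime_and_dvd hn1
    have hm0 : m ≠ 0 := fun h => hn0 (by rw [h, mul_zero])
    have hm : m < ℓ * m := lt_mul_of_one_lt_left (Nat.pos_of_ne_zero hm0) hℓ.one_lt
    obtain ⟨t, ht⟩ := ih m hm
    have h1 := ht.mul_gen ⟨ℓ, hℓ⟩
    rw [step_wtOf N hℓ hm0] at h1
    by_cases hc : ℓ ∣ m ∧ ¬ ℓ ∣ N
    · rw [if_pos hc] at h1
      obtain ⟨t', ht'⟩ := ih (m / ℓ) ((Nat.div_le_self m ℓ).trans_lt hm)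
      have h2 := h1.add (ht'.zsmul (-(ℓ : ℤ)))
      refine ⟨t * heckeGen ⟨ℓ, hℓ⟩ + MvPolynomial.C (-(ℓ : ℤ)) * t', ?_⟩
      convert h2 using 1
      rw [neg_smul]
      abel
    · rw [if_neg hc, add_zero] at h1
      exact ⟨_, h1⟩

end Fermat.Agent.Mazur.Immersion
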