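import Fermat.Agent.Mazur.Immersion.Saturation
import Fermat.Agent.Mazur.Immersion.Positive
import Fermat.Agent.Mazur.Immersion.Represent

/-!
# An effective operator which is nonzero modulo `q` and makes rational points torsion
-/

set_option autoImplicit false
set_option linter.style.haveILetI false

noncomputable section

namespace Fermat.Agent.Mazur.Immersion

open ModularCurve ModularFormClass CongruenceSubgroup

variable {q : ℕ} [Fact q.Prime] {N : ℕ} [NeZero N]

/-- A weight with nonnegative values representing some operator. -/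
def EffWt (q : ℕ) [Fact q.Prime] (N : ℕ) [NeZero N] (w : Wt) : Prop :=
  (∀ p, 0 ≤ w p) ∧ ∃ t, Represents N q t w

theorem effWt_zero : EffWt q N 0 :=
  ⟨fun _ => le_rfl, MvPolynomial.C 0, by simpa using represents_C (N := N) (q := q) 0⟩

theorem EffWt.add {v w : Wt} (hv : EffWt q N v) (hw : EffWt q N w) : EffWt q N (v + w) := by
  obtain ⟨hv0, s, hs⟩ := hv
  obtain ⟨hw0, t, ht⟩ := hw
  exact ⟨fun p => add_nonneg (hv0 p) (hw0 p), s + t, hs.add ht⟩

theorem EffWt.zsmul {w : Wt} (hw : EffWt q N w) {c : ℤ} (hc : 0 ≤ c) : EffWt q N (c • w) := by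
  obtain ⟨hw0, t, ht⟩ := hw
  exact ⟨fun p => mul_nonneg hc (hw0 p), _, ht.zsmul c⟩

theorem effWt_wtOf (n : ℕ) : EffWt q N (wtOf N n) :=
  ⟨wtOf_apply_nonneg N n, exists_represents_wtOf n⟩

theorem exists_effWt_formPair_eq (w : Wt) :
    ∃ v, EffWt q N v ∧ ∀ F : CuspForm (Gamma0 N) 2, formPair F v = formPair F w := by
  classical
  induction w using Finsupp.induction_linear with
  | zero => exact ⟨0, effWt_zero, fun _ => rfl⟩
  | add f g hf hg =>
    obtain ⟨v, hv, hv'⟩ := hf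
    obtain ⟨u, hu, hu'⟩ := hg
    exact ⟨v + u, hv.add hu, fun F => by rw [map_add, map_add, hv', hu']⟩
  | single p c =>
    by_cases h1 : p.1 = 1
    swap
    · exact ⟨0, effWt_zero, fun F => by rw [formPair_single, if_neg h1, smul_zero, map_zero]⟩
    rcases le_or_gt 0 c with hc | hc
    · exact ⟨c • wtOf N p.2, (effWt_wtOf _).zsmul hc, fun F => by
        rw [map_zsmul, formPair_wtOf, formPair_single, if_pos h1]⟩
    obtain ⟨r, hr⟩ := exists_neg_qCoeff_eq (N := N) p.2
    refine ⟨(-c) • r.sum fun m e => (e : ℤ) • wtOf N m, ?_, fun F => ?_⟩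
    · refine EffWt.zsmul ?_ (by omega)
      exact Finset.sum_induction _ (EffWt q N) (fun _ _ => EffWt.add) effWt_zero
        fun m _ => (effWt_wtOf m).zsmul (Int.natCast_nonneg _)
    · rw [map_zsmul, Finsupp.sum, map_sum, formPair_single, if_pos h1]
      have h2 := hr F
      rw [Finsupp.sum] at h2
      simp only [map_zsmul, formPair_wtOf, zsmul_eq_mul, Int.cast_natCast, Int.cast_neg]
      linear_combination (c : ℂ) * h2

theorem exists_operator_qCoeff (n : ℕ) : ∃ s : ↥(CuspForm.heckeAlgebra N 2 ∅),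
    ∀ f : CuspForm (Gamma0 N) 2,
      qCoeff ((s : Module.End ℂ (CuspForm (Gamma0 N) 2)) f) 1 = qCoeff f n := by
  haveI : Fact (Nat.Prime 2) := ⟨Nat.prime_two⟩
  obtain ⟨t, ht⟩ := exists_represents_wtOf (q := 2) (N := N) n
  exact ⟨CuspForm.heckeEvalForms N 2 t, fun f => (ht.2.1 f).trans (formPair_wtOf f n)⟩

/-- An operator with all `a₁(t F) = 0` vanishes on forms. -/
theorem heckeEvalForms_eq_zero_of_qCoeff_one {t : HeckeAlg}
    (h : ∀ F : CuspForm (Gamma0 N) 2, qCoeff (formOp N t F) 1 = 0) :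
    CuspForm.heckeEvalForms N 2 t = 0 := by
  refine Subtype.ext (LinearMap.ext fun F => Eigen.cuspForm_ext_qCoeff fun n => ?_)
  obtain ⟨s, hs⟩ := exists_operator_qCoeff (N := N) n
  obtain ⟨x, rfl⟩ := heckeEvalForms_surjective s
  show qCoeff (formOp N t F) n = qCoeff (⇑(0 : CuspForm (Gamma0 N) 2)) n
  rw [← hs, Eigen.qCoeff_zero_form]
  show qCoeff (formOp N x (formOp N t F)) 1 = 0
  rw [← Module.End.mul_apply, ← formOp_mul, mul_comm, formOp_mul, Module.End.mul_apply, h]

/-- The effective operator of the immersion argument. -/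
theorem exists_effective_torsion (hrk : RankZeroElement N) :
    ∃ (t : HeckeAlg) (w : Wt), Represents N q t w ∧ (∀ p, 0 ≤ w p) ∧
      (∃ (F : CuspForm (Gamma0 N) 2) (m : ℤ), F ∈ CuspForm.intLattice N 2 ∧ ¬ (q : ℤ) ∣ m ∧
        formPair F w = m) ∧
      ∀ x : JZero N, (∀ σ : AlgebraicClosure ℚ ≃ₐ[ℚ] AlgebraicClosure ℚ, σ • x = x) →
        ∃ k : ℕ, 0 < k ∧ k • (letI := heckeModuleBar N; t • x) = 0 := by
  letI := heckeModuleBar N
  obtain ⟨t₁, ⟨F, hF⟩, htor⟩ := exists_torsion_not_dvd (exists_operator_qCoeff (N := N)) hrk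
    (Fact.out : q.Prime).two_le
  obtain ⟨w₁, hw₁⟩ := exists_represents (q := q) (N := N) t₁
  obtain ⟨w, ⟨hw0, t, ht⟩, hw⟩ := exists_effWt_formPair_eq (q := q) (N := N) w₁
  refine ⟨t, w, ht, hw0, ⟨F.1, intPair N F (CuspForm.heckeEvalForms N 2 t₁), F.2, hF, ?_⟩,
    fun x hx => ?_⟩
  · rw [hw, ← hw₁.2.1, intPair_spec]
    rfl
  · have hker : CuspForm.heckeEvalForms N 2 (t - t₁) = 0 := by
      refine heckeEvalForms_eq_zero_of_qCoeff_one fun G => ?_
      have h1 := (ht.2.1 G).trans ((hw G).trans (hw₁.2.1 G).symm)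
      have h2 : formOp N (t - t₁) = formOp N t - formOp N t₁ :=
        eq_sub_of_add_eq (by rw [← formOp_add, sub_add_cancel])
      rw [h2, LinearMap.sub_apply, ← Eigen.qCoeffLin_apply, map_sub, Eigen.qCoeffLin_apply,
        Eigen.qCoeffLin_apply, h1, sub_self]
    obtain ⟨a, ha, hax⟩ := htor x hx
    obtain ⟨c, hc, hcx⟩ := torsion_of_heckeEvalForms_eq_zero hker hx
    refine ⟨a * c, Nat.mul_pos ha hc, ?_⟩
    rw [sub_smul, nsmul_sub, sub_eq_zero] at hcx
    rw [mul_nsmul', hcx, ← mul_nsmul', mul_comm, mul_nsmul', hax, nsmul_zero]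

end Fermat.Agent.Mazur.Immersion
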