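import Fermat.Agent.Mazur.Immersion.Represent

/-!
# Nonnegative weights as multisets of pairs
-/

set_option autoImplicit false
set_option linter.unusedSectionVars false

noncomputable section

namespace Fermat.Agent.Mazur.Immersion

open AlgebraicCurve ModularCurve CongruenceSubgroup ModularFormClass

local notation "ℚbar" => AlgebraicClosure ℚ

/-- The weight of a multiset of pairs. -/
def msWt (M : Multiset (ℕ × ℕ)) : Wt := (M.map fun p => Finsupp.single p 1).sum

@[simp]
theorem msWt_cons (p : ℕ × ℕ) (M : Multiset (ℕ × ℕ)) :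
    msWt (p ::ₘ M) = Finsupp.single p 1 + msWt M := by
  rw [msWt, Multiset.map_cons, Multiset.sum_cons, msWt]

@[simp]
theorem msWt_zero : msWt 0 = 0 := rfl

theorem exists_msWt_eq {w : Wt} (h : ∀ p, 0 ≤ w p) :
    ∃ M : Multiset (ℕ × ℕ), msWt M = w ∧ ∀ p ∈ M, p ∈ w.support := by
  classical
  set c : (ℕ × ℕ) →₀ ℕ := w.mapRange Int.toNat Int.toNat_zero with hc
  refine ⟨Finsupp.toMultiset c, ?_, fun p hp => ?_⟩
  · have hms : ∀ M, msWt M = (Multiset.toFinsupp M).mapRange (Nat.cast : ℕ → ℤ) Nat.cast_zero := by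
      intro M
      induction M using Multiset.induction_on with
      | empty => simp
      | cons p M ih =>
        rw [msWt_cons, ih, ← Multiset.singleton_add, map_add, Multiset.toFinsupp_singleton,
          Finsupp.mapRange_add (Nat.cast_add (R := ℤ)), Finsupp.mapRange_single, Nat.cast_one]
    rw [hms, Finsupp.toMultiset_toFinsupp]
    ext p
    simp [hc, h p]
  · rw [Finsupp.mem_toMultiset, Finsupp.mem_support_iff] at hp
    rw [Finsupp.mem_support_iff]
    contrapose! hp
    simp [hc, hp]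

variable {q : ℕ} [Fact q.Prime] {N : ℕ} [NeZero N]

theorem formPair_msWt (F : CuspForm (Gamma0 N) 2) (M : Multiset (ℕ × ℕ)) :
    formPair F (msWt M) = (M.map fun p => if p.1 = 1 then qCoeff F p.2 else 0).sum := by
  induction M using Multiset.induction_on with
  | empty => simp
  | cons p M ih => rw [msWt_cons, map_add, ih, formPair_single, one_smul, Multiset.map_cons,
      Multiset.sum_cons]

theorem GoodPair.one_le_fst {p : ℕ × ℕ} (h : GoodPair N q p) : 1 ≤ p.1 := by
  by_contra h0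
  have hmem : (1 : ℂ_[q]) ∈ pts 0 p := by
    rw [pts, Polynomial.mem_nthRoots h.1, show p.1 = 0 by omega, pow_zero, one_pow]
  exact (h.2 0 (algPt_zero q N) 1 hmem).norm_lt.ne norm_one

theorem pts_zero {p : ℕ × ℕ} (h : GoodPair N q p) :
    pts (0 : ℂ_[q]) p = Multiset.replicate p.2 0 := by
  refine Multiset.eq_replicate.mpr ⟨card_nthRoots_eq _ _, fun v hv => ?_⟩
  rw [pts, Polynomial.mem_nthRoots h.1, zero_pow (Nat.one_le_iff_ne_zero.mp h.one_le_fst)] at hv
  exact eq_zero_of_pow_eq_zero hv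

/-- All roots of a multiset of pairs. -/
def msPts (s : ℂ_[q]) (M : Multiset (ℕ × ℕ)) : Multiset ℂ_[q] := M.bind (pts s)

/-- The total degree. -/
def msDeg (M : Multiset (ℕ × ℕ)) : ℕ := (M.map Prod.snd).sum

theorem card_msPts (s : ℂ_[q]) (M : Multiset (ℕ × ℕ)) :
    Multiset.card (msPts s M) = msDeg M := by
  rw [msPts, Multiset.card_bind, msDeg]
  exact congrArg Multiset.sum (Multiset.map_congr rfl fun p _ => card_nthRoots_eq _ _)

theorem wDiff_msWt (s : ℂ_[q]) {M : Multiset (ℕ × ℕ)} (hM : ∀ p ∈ M, GoodPair N q p) :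
    wDiff N s (msWt M) =
      ptsDiv N (msPts s M) - msDeg M • Finsupp.single (inftyPlace q N) 1 := by
  have hone : ∀ v : ℂ_[q], wDiv N v (msWt M) = ptsDiv N (msPts v M) := by
    intro v
    clear hM
    induction M using Multiset.induction_on with
    | empty => simp [msPts, ptsDiv]
    | cons p M ih =>
      rw [msWt_cons, map_add, ih, wDiv_single, one_smul, ← ptsDiv_add]
      exact congrArg (ptsDiv N) (Multiset.cons_bind p M _).symm
  rw [wDiff, LinearMap.sub_apply, hone, hone]
  congr 1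
  clear hone
  induction M using Multiset.induction_on with
  | empty => simp [msPts, ptsDiv, msDeg]
  | cons p M ih =>
    rw [msPts, Multiset.cons_bind, ptsDiv_add, msDeg, Multiset.map_cons, Multiset.sum_cons,
      add_nsmul]
    refine congrArg₂ (· + ·) ?_ (ih fun r hr => hM r (Multiset.mem_cons_of_mem hr))
    rw [pts_zero (hM p (Multiset.mem_cons_self _ _)), ptsDiv, Multiset.map_replicate,
      Multiset.sum_replicate, evPlace_zero]

theorem pts_one (s : ℂ_[q]) : pts s (1, 1) = {s} := by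
  obtain ⟨a, ha⟩ := Multiset.card_eq_one.mp (card_nthRoots_eq 1 (s ^ 1))
  have hmem : a ∈ Polynomial.nthRoots 1 (s ^ 1) := by rw [ha]; exact Multiset.mem_singleton_self _
  rw [Polynomial.mem_nthRoots one_pos, pow_one, pow_one] at hmem
  rw [pts, ha, hmem]

theorem msPts_algPt {s : ℂ_[q]} {M : Multiset (ℕ × ℕ)} (hM : ∀ p ∈ M, GoodPair N q p)
    (hs : AlgPt q N s) {v : ℂ_[q]} (hv : v ∈ msPts s M) : AlgPt q N v := by
  obtain ⟨p, hp, hvp⟩ := Multiset.mem_bind.mp hv
  exact (hM p hp).2 s hs v hvp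

theorem msPts_ne_zero {s : ℂ_[q]} (hs0 : s ≠ 0) {M : Multiset (ℕ × ℕ)}
    (hM : ∀ p ∈ M, GoodPair N q p) {v : ℂ_[q]} (hv : v ∈ msPts s M) : v ≠ 0 := by
  obtain ⟨p, hp, hvp⟩ := Multiset.mem_bind.mp hv
  rw [pts, Polynomial.mem_nthRoots (hM p hp).1] at hvp
  rintro rfl
  rw [zero_pow (Nat.one_le_iff_ne_zero.mp (hM p hp).1)] at hvp
  exact pow_ne_zero _ hs0 hvp.symm

end Fermat.Agent.Mazur.Immersion
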