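import Fermat.Agent.Mazur.Immersion.Specialise
import Fermat.Agent.Mazur.Immersion.Multiset
import Fermat.Agent.Mazur.Defs
import Fermat.Agent.HK.HeckeGalois
import Fermat.Agent.RED.X0PlaceReduction
import Fermat.Agent.Galois.PadicPlace

/-!
# The divisor of the Hecke image of a point is principal, with constant reduction
-/

set_option autoImplicit false
set_option linter.style.haveILetI false
set_option synthInstance.maxHeartbeats 400000

noncomputable section

namespace Fermat.Agent.Mazur.Immersion

open AlgebraicCurve ModularCurve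

local notation "ℚbar" => AlgebraicClosure ℚ

variable {q : ℕ} [Fact q.Prime] {N : ℕ} [NeZero N]

/-- A rational point in the disc gives a rational class. -/
theorem smul_wClass_one {P : Place ℚbar (modularFunctionFieldBar N)}
    (hP : ∀ σ : ℚbar ≃ₐ[ℚ] ℚbar, arithmeticGalois (modularFunctionFieldFull N) σ • P = P)
    {s : ℂ_[q]} (hPs : IsEvalPlace q N P s) (σ : ℚbar ≃ₐ[ℚ] ℚbar) :
    σ • wClass N s (Finsupp.single (1, 1) 1) = wClass N s (Finsupp.single (1, 1) 1) := by
  have hd : wDiff N s (Finsupp.single (1, 1) 1) =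
      Finsupp.single P 1 - Finsupp.single (inftyPlace q N) 1 := by
    rw [wDiff, LinearMap.sub_apply, wDiv_single, wDiv_single, one_smul, one_smul, pts_one, pts_one,
      ptsDiv, ptsDiv, Multiset.map_singleton, Multiset.map_singleton, Multiset.sum_singleton,
      Multiset.sum_singleton, evPlace_zero, ← hPs.eq_evPlace]
  rw [galois_smul_pic0_def, wClass, SemilinearAut.pic0_smul_mk]
  refine congrArg Pic0.mk (Subtype.ext ?_)
  rw [SemilinearAut.coe_degZeroSMulHom]
  show _ • wDiff N s _ = wDiff N s _
  rw [hd, smul_sub, SemilinearAut.divisor_smul_def, SemilinearAut.divisor_smul_def,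
    Finsupp.mapDomain_single, Finsupp.mapDomain_single, hP σ,
    arithmeticGalois_smul_inftyPlace σ]

section Red

variable {D : RED.ReductionDatum (padicPlace q)
      (IsLocalRing.residue (padicPlace q)) (modularFunctionFieldBar N)
      (modularFunctionFieldFullC (IsLocalRing.ResidueField (padicPlace q)) N)}
    {xb : modularFunctionFieldFullC (IsLocalRing.ResidueField (padicPlace q)) N} {n : ℕ}
    (h : RED.TwoCharts D (MF.Coeff.jElem ℚbar N) xb n)

theorem mapDomain_redPlace_ptsDiv {S : Multiset ℂ_[q]} (hS : ∀ v ∈ S, AlgPt q N v) :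
    Finsupp.mapDomain h.redPlace (ptsDiv N S) =
      Multiset.card S • Finsupp.single (h.redPlace (inftyPlace q N)) 1 := by
  induction S using Multiset.induction_on with
  | empty => simp [ptsDiv]
  | cons a T ih =>
    rw [← Multiset.singleton_add, ptsDiv_add, Finsupp.mapDomain_add,
      ih (fun v hv => hS v (Multiset.mem_cons_of_mem hv)), ptsDiv, Multiset.map_singleton,
      Multiset.sum_singleton, Finsupp.mapDomain_single,
      redPlace_evPlace h (hS a (Multiset.mem_cons_self _ _)), Multiset.card_add,
      Multiset.card_singleton, add_nsmul, one_nsmul]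

include h in
set_option maxHeartbeats 1000000 in
/-- The function whose divisor is the Hecke image of `[P - ∞]`, with constant reduction. -/
theorem exists_reduced_function (hqN : ¬ q ∣ N) (hinj : FixedTorsionRedInjective N q)
    (hD : RED.IsCoefficientwise D) {t : HeckeAlg} {M : Multiset (ℕ × ℕ)}
    (hrep : Represents N q t (msWt M)) (hgood : ∀ p ∈ M, GoodPair N q p)
    (htor : ∀ x : JZero N, (∀ σ : ℚbar ≃ₐ[ℚ] ℚbar, σ • x = x) →
      ∃ m : ℕ, 0 < m ∧ m • (letI := heckeModuleBar N; t • x) = 0)
    {P : Place ℚbar (modularFunctionFieldBar N)}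
    (hP : ∀ σ : ℚbar ≃ₐ[ℚ] ℚbar, arithmeticGalois (modularFunctionFieldFull N) σ • P = P)
    {s : ℂ_[q]} (hPs : IsEvalPlace q N P s) :
    ∃ (f : modularFunctionFieldBar N) (γ : padicPlace q), f ≠ 0 ∧
      IsLocalRing.residue (padicPlace q) γ ≠ 0 ∧
      D.Reduces f (algebraMap (IsLocalRing.ResidueField (padicPlace q))
        (modularFunctionFieldFullC (IsLocalRing.ResidueField (padicPlace q)) N)
        (IsLocalRing.residue (padicPlace q) γ)) ∧
      ∀ Q, Q.ord f =
        (ptsDiv N (msPts s M) - msDeg M • Finsupp.single (inftyPlace q N) 1 :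
          Divisor ℚbar (modularFunctionFieldBar N)) Q := by
  letI := heckeModuleBar N
  haveI := HK.Corr.smulCommClass_heckeModuleBar N
  haveI := RED.hasPrincipalDivisors_bar N
  haveI := Galois.place_residueField_isAlgClosed (padicPlace q)
  have hA : (padicPlace q).LiesOverPrime q := Galois.padicPlace_liesOverPrime q
  haveI := RED.isFunctionField_special (k := IsLocalRing.ResidueField (padicPlace q)) N
    (RED.natCast_residue_ne_zero Fact.out hqN hA)
  have hz : t • wClass N s (Finsupp.single (1, 1) 1) = wClass N s (msWt M) :=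
    hrep.2.2 s hPs.algPt
  have hfix : ∀ σ : ℚbar ≃ₐ[ℚ] ℚbar, σ • wClass N s (msWt M) = wClass N s (msWt M) := fun σ => by
    rw [← hz, smul_comm, smul_wClass_one hP hPs σ]
  have hd := wDiff_msWt (N := N) s hgood
  have hmap : Finsupp.mapDomain h.redPlace (wDiff N s (msWt M)) = 0 := by
    rw [hd, Finsupp.mapDomain_sub,
      mapDomain_redPlace_ptsDiv h (fun v hv => msPts_algPt hgood hPs.algPt hv), card_msPts,
      ← Finsupp.mapDomain.addMonoidHom_apply, map_nsmul, Finsupp.mapDomain.addMonoidHom_apply,
      Finsupp.mapDomain_single, sub_self]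
  have h0 : wClass N s (msWt M) = 0 := by
    refine hinj (padicPlace q) hA _ hfix ?_ ?_
    · rw [← hz]
      exact htor _ (smul_wClass_one hP hPs)
    · exact (RED.reductionAlong_mk_redPlace hD h ⟨_, wDiff_mem_degZero N s (msWt M)⟩).trans
        (((QuotientAddGroup.eq_zero_iff _).mpr (by
          rw [AddSubgroup.mem_addSubgroupOf, coe_reductionDegZeroAlong, hmap]
          exact zero_mem _)))
  rw [wClass, Pic0.mk, QuotientAddGroup.eq_zero_iff, AddSubgroup.mem_addSubgroupOf] at h0
  obtain ⟨f, hf, hdiv⟩ := h0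
  obtain ⟨c, g, hc, hg, hred⟩ := D.exists_scale hf
  have hcf : RED.IsDivisorOf (wDiff N s (msWt M))
      (algebraMap ℚbar (modularFunctionFieldBar N) c * f) := fun Q => by
    rw [Q.ord_mul ((map_ne_zero _).mpr hc) hf, RED.ord_algebraMap', zero_add]
    exact hdiv Q
  have hord : ∀ Q : Place (IsLocalRing.ResidueField (padicPlace q))
      (modularFunctionFieldFullC (IsLocalRing.ResidueField (padicPlace q)) N),
      Q.ord g = 0 := fun Q => by
    rw [← h.isPlaceReduction_redPlace _ _ hred hg _ hcf Q, hmap]
    rfl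
  obtain ⟨a, ha⟩ := FF.mem_riemannRochSpace_zero_iff_mem_range.mp
    (show g ∈ riemannRochSpace (0 : Divisor (IsLocalRing.ResidueField (padicPlace q))
      (modularFunctionFieldFullC (IsLocalRing.ResidueField (padicPlace q)) N)) from
      mem_riemannRochSpace_iff.mpr fun Q => Or.inr (by simp [hord Q]))
  obtain ⟨γ, rfl⟩ := IsLocalRing.residue_surjective a
  refine ⟨_, γ, mul_ne_zero ((map_ne_zero _).mpr hc) hf, fun h' => hg ?_, ha ▸ hred, fun Q => ?_⟩
  · rw [← ha, h', map_zero]
  · rw [← hd]
    exact (hcf Q).symm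

end Red

end Fermat.Agent.Mazur.Immersion
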