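import Fermat.Agent.Mazur.Immersion.Factor
import Fermat.Agent.Mazur.Immersion.Principal

/-!
# The expansion of the function with constant reduction

If a function with divisor `∑ ev(roots) - D ∞` has constant reduction and its polar part at `∞` is
orthogonal to the integers `a_i`, then `q` divides the sum of the `a_d` over the pairs `(1, d)`.
-/

set_option autoImplicit false
set_option linter.style.haveILetI false
set_option synthInstance.maxHeartbeats 400000

noncomputable section

namespace Fermat.Agent.Mazur.Immersion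

open AlgebraicCurve ModularCurve

local notation "ℚbar" => AlgebraicClosure ℚ

variable {q : ℕ} [Fact q.Prime] {N : ℕ} [NeZero N]

theorem norm_cEmb_intCast_lt_one_iff {m : ℤ} : ‖cEmb q (m : ℚbar)‖ < 1 ↔ (q : ℤ) ∣ m := by
  rw [map_intCast, ← map_intCast (algebraMap ℚ_[q] ℂ_[q]), norm_algebraMap',
    Padic.norm_intCast_lt_one_iff]

theorem count_le_ptsDiv {S : Multiset ℂ_[q]} [DecidableEq ℂ_[q]] (u : ℂ_[q]) :
    (S.count u : ℤ) ≤ ptsDiv N S (evPlace q N u) := by
  classical
  induction S using Multiset.induction_on with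
  | empty => simp [ptsDiv]
  | cons a T ih =>
    rw [← Multiset.singleton_add, ptsDiv_add, Multiset.count_add, Finsupp.add_apply, Nat.cast_add]
    refine add_le_add ?_ ih
    rw [ptsDiv, Multiset.map_singleton, Multiset.sum_singleton, Multiset.count_singleton]
    split_ifs with h
    · simp [h]
    · rw [Finsupp.single_apply]
      split_ifs <;> simp

theorem ptsDiv_nonneg (S : Multiset ℂ_[q]) (Q : Place ℚbar (modularFunctionFieldBar N)) :
    0 ≤ ptsDiv N S Q := by
  classical
  induction S using Multiset.induction_on with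
  | empty => simp [ptsDiv]
  | cons a T ih =>
    rw [← Multiset.singleton_add, ptsDiv_add, Finsupp.add_apply]
    refine add_nonneg ?_ ih
    rw [ptsDiv, Multiset.map_singleton, Multiset.sum_singleton, Finsupp.single_apply]
    split_ifs <;> simp

theorem ord_jInvElem_inftyPlace : (inftyPlace q N).ord (jInvElem N) = 1 := by
  have h0 : ‖(0 : ℂ_[q])‖ < 1 := by simp
  have hne : jInvElem N ≠ 0 := by simpa using jInv_sub_ne_zero (N := N) 0
  rw [← (isEvalPlace_inftyPlace (q := q)).muAt_eq_ord hne]
  simpa [stdMap_apply] using muAt_jInv_sub (N := N) h0 (c := 0) (by rw [map_zero, jInvVal_zero])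

theorem jInvSer_mul_jNum :
    jInvSer q * jNum.map (Int.castRingHom ℂ_[q]) = PowerSeries.X := by
  rw [jInvSer, ← map_mul, jInvZ, mul_assoc, mul_comm (PowerSeries.invOfUnit jNum 1),
    jNum_mul_invOfUnit, mul_one, PowerSeries.map_X]

theorem map_map_intCast {R S : Type*} [CommRing R] [CommRing S] (φ : R →+* S)
    (g : PowerSeries ℤ) :
    (g.map (Int.castRingHom R)).map φ = g.map (Int.castRingHom S) := by
  ext n
  simp only [PowerSeries.coeff_map, eq_intCast, map_intCast]

theorem coeffMap_intExpansion {R S : Type*} [CommRing R] [CommRing S] (φ : R →+* S)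
    (g : PowerSeries ℤ) :
    coeffMap φ (HahnSeries.ofPowerSeries ℤ R (g.map (Int.castRingHom R))) =
      HahnSeries.ofPowerSeries ℤ S (g.map (Int.castRingHom S)) := by
  rw [coeffMap_ofPowerSeries, map_map_intCast]

theorem coe_jInvElem_eq_coeffMap :
    (jInvElem N : LaurentSeries ℚbar) = coeffMap (padicPlace q).subtype
      (HahnSeries.ofPowerSeries ℤ _ (jInvZ.map (Int.castRingHom (padicPlace q)))) := by
  rw [coeffMap_intExpansion, IntermediateField.coe_inv, MF.Coeff.coe_jElem, inv_jqModC]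

variable {D : RED.ReductionDatum (padicPlace q)
      (IsLocalRing.residue (padicPlace q)) (modularFunctionFieldBar N)
      (modularFunctionFieldFullC (IsLocalRing.ResidueField (padicPlace q)) N)}
    {xb : modularFunctionFieldFullC (IsLocalRing.ResidueField (padicPlace q)) N} {n : ℕ}

/-- The reduced inverse coordinate has the expansion of `1/j`. -/
theorem coe_inv_coord (hD : RED.IsCoefficientwise D)
    (h : RED.TwoCharts D (MF.Coeff.jElem ℚbar N) xb n) :
    ((xb⁻¹ : modularFunctionFieldFullC (IsLocalRing.ResidueField (padicPlace q)) N) :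
        LaurentSeries (IsLocalRing.ResidueField (padicPlace q))) =
      HahnSeries.ofPowerSeries ℤ _ (jInvZ.map (Int.castRingHom _)) := by
  have hY := coe_jInvElem_eq_coeffMap (q := q) (N := N)
  obtain ⟨g, hg, -⟩ := hD.mem _ (hY ▸ (jInvElem N).2)
  rw [h.infinite.reduces.unique (hD.reduces hY hg), hg]
  exact coeffMap_intExpansion _ _

/-- The coefficient congruence of an integral `y` with a given reduction. -/
theorem norm_coeff_sub_lt {y : modularFunctionFieldBar N} {G : PowerSeries ℂ_[q]}
    (hG : IntSeries G) (hGy : ofPS G = germ q (y : LaurentSeries ℚbar))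
    (hD : RED.IsCoefficientwise D) (h : RED.TwoCharts D (MF.Coeff.jElem ℚbar N) xb n)
    (γ : padicPlace q) (d : ℕ)
    (hyred : D.Reduces y (algebraMap (IsLocalRing.ResidueField (padicPlace q))
        (modularFunctionFieldFullC (IsLocalRing.ResidueField (padicPlace q)) N)
        (IsLocalRing.residue (padicPlace q) γ) * xb⁻¹ ^ d)) (k : ℕ) :
    ‖PowerSeries.coeff k (G - PowerSeries.C (cEmb q γ) * jInvSer q ^ d)‖ < 1 := by
  have hmem : ∀ i : ℕ, ∃ c : padicPlace q,
      cEmb q (c : ℚbar) = PowerSeries.coeff i G ∧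
        (y : LaurentSeries ℚbar).coeff (i : ℤ) = c := by
    intro i
    have h1 := congrArg (fun w : LaurentSeries ℂ_[q] => w.coeff (i : ℤ)) hGy
    simp only [HahnSeries.ofPowerSeries_apply_coeff, germ, coeffMap_coeff] at h1
    exact ⟨⟨_, mem_padicPlace_iff_norm.mpr (h1 ▸ hG i)⟩, h1.symm, rfl⟩
  choose c hc hcy using hmem
  have hY : (y : LaurentSeries ℚbar) = coeffMap (padicPlace q).subtype
      (HahnSeries.ofPowerSeries ℤ _ (PowerSeries.mk c)) := by
    ext m
    rw [coeffMap_coeff]
    rcases lt_or_ge m 0 with hm | hm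
    · rw [ofPowerSeries_coeff_of_neg _ hm, map_zero]
      refine (cEmb q).injective ?_
      have h1 := congrArg (fun w : LaurentSeries ℂ_[q] => w.coeff m) hGy
      simp only [ofPowerSeries_coeff_of_neg _ hm, germ, coeffMap_coeff] at h1
      rw [map_zero, h1]
    · obtain ⟨i, rfl⟩ := Int.eq_ofNat_of_zero_le hm
      rw [HahnSeries.ofPowerSeries_apply_coeff, PowerSeries.coeff_mk, hcy]
      rfl
  obtain ⟨g, hg, -⟩ := hD.mem _ (hY ▸ y.2)
  have hu := hyred.unique (hD.reduces hY hg)
  rw [← hu, MulMemClass.coe_mul, SubmonoidClass.coe_pow, coe_inv_coord hD h, ← map_pow,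
    IntermediateField.coe_algebraMap_apply] at hg
  have hk := congrArg (fun w : LaurentSeries _ => w.coeff (k : ℤ)) hg
  simp only [algebraMap_laurentSeries_eq_single, HahnSeries.coeff_single_zero_mul,
    HahnSeries.ofPowerSeries_apply_coeff, coeffMap_coeff, ← map_pow, PowerSeries.coeff_map,
    PowerSeries.coeff_mk, eq_intCast] at hk
  rw [← map_intCast (IsLocalRing.residue (padicPlace q)), ← map_mul, eq_comm, ← sub_eq_zero,
    ← map_sub, residue_eq_zero_iff_norm, AddSubgroupClass.coe_sub, MulMemClass.coe_mul,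
    SubringClass.coe_intCast, map_sub, map_mul, map_intCast, hc] at hk
  rw [map_sub, PowerSeries.coeff_C_mul, jInvSer, ← map_pow, PowerSeries.coeff_map, eq_intCast]
  exact hk

variable {M : Multiset (ℕ × ℕ)} {s : ℂ_[q]} {f : modularFunctionFieldBar N}

/-- The integral series of `q ^ D f`. -/
theorem exists_shifted_series (hD : RED.IsCoefficientwise D)
    (h : RED.TwoCharts D (MF.Coeff.jElem ℚbar N) xb n) (hf0 : f ≠ 0) (γ : padicPlace q) {d : ℕ}
    (hred : D.Reduces f (algebraMap (IsLocalRing.ResidueField (padicPlace q))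
        (modularFunctionFieldFullC (IsLocalRing.ResidueField (padicPlace q)) N)
        (IsLocalRing.residue (padicPlace q) γ)))
    (hdiv : ∀ Q, Q.ord f =
        (ptsDiv N (msPts s M) - d • Finsupp.single (inftyPlace q N) 1 :
          Divisor ℚbar (modularFunctionFieldBar N)) Q) :
    ∃ G' : PowerSeries ℂ_[q], IntSeries G' ∧
      ofPS G' = germ q (f : LaurentSeries ℚbar) * HahnSeries.single (d : ℤ) 1 ∧
      ∀ k, ‖PowerSeries.coeff k G' -
        PowerSeries.coeff k (PowerSeries.C (cEmb q γ) * PowerSeries.X ^ d)‖ < 1 := by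
  classical
  have hj0 : jInvElem N ≠ 0 := by simpa using jInv_sub_ne_zero (N := N) 0
  have hyred := hred.mul (h.infinite.reduces.pow d)
  have hymem : f * jInvElem N ^ d ∈ RED.coordRing ℚbar (jInvElem N) := by
    refine h.infinite.coordGeneric.mem_coordRing_of_forall _ fun Q hQ => RED.mem_of_ord_nonneg Q ?_
    have h1 := RED.ord_nonneg_of_mem Q hQ
    rw [Q.ord_mul hf0 (pow_ne_zero _ hj0), RED.ord_pow' Q hj0, hdiv Q, Finsupp.sub_apply,
      Finsupp.smul_apply, Finsupp.single_apply, nsmul_eq_mul]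
    have h2 := ptsDiv_nonneg (q := q) (msPts s M) Q
    split_ifs with hQinf
    · subst hQinf
      rw [ord_jInvElem_inftyPlace]
      linarith
    · have h3 : 0 ≤ (d : ℤ) * Q.ord (jInvElem N) := mul_nonneg (Int.natCast_nonneg d) h1
      linarith
  obtain ⟨G, hG, hGy⟩ := mem_intGerms.mp
    (intRing_le_intGerms h.infinite (h.infinite.bounded _ hymem hyred.mem))
  have hcong := norm_coeff_sub_lt hG hGy hD h γ d hyred
  set V : PowerSeries ℂ_[q] := jNum.map (Int.castRingHom ℂ_[q]) ^ d with hV
  have hVint : IntSeries V := (intSeries_map_int q jNum).pow d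
  have hXV : jInvSer q ^ d * V = PowerSeries.X ^ d := by
    rw [hV, ← mul_pow, jInvSer_mul_jNum]
  refine ⟨G * V, hG.mul hVint, ?_, fun k => ?_⟩
  · rw [map_mul, hGy, MulMemClass.coe_mul, map_mul, mul_assoc, SubmonoidClass.coe_pow, map_pow,
      show germ q (jInvElem N : LaurentSeries ℚbar) = ofPS (jInvSer q) from stdMap_jInvElem,
      ← map_pow, ← map_mul, hXV, HahnSeries.ofPowerSeries_X_pow]
  · have heq : G * V - PowerSeries.C (cEmb q γ) * PowerSeries.X ^ d =
        V * (G - PowerSeries.C (cEmb q γ) * jInvSer q ^ d) := by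
      rw [← hXV]; ring
    rw [← map_sub, heq]
    exact norm_coeff_mul_lt hVint hcong k

theorem count_le_muAt (hgood : ∀ p ∈ M, GoodPair N q p) (hs : AlgPt q N s) (hs0 : s ≠ 0)
    (hf0 : f ≠ 0) {d : ℕ} [DecidableEq ℂ_[q]]
    (hdiv : ∀ Q, Q.ord f =
        (ptsDiv N (msPts s M) - d • Finsupp.single (inftyPlace q N) 1 :
          Divisor ℚbar (modularFunctionFieldBar N)) Q) {u : ℂ_[q]} (hu : u ∈ msPts s M) :
    ((msPts s M).count u : ℤ) ≤
      muAt u (germ q (f : LaurentSeries ℚbar) * HahnSeries.single (d : ℤ) 1) := by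
  have hua := msPts_algPt hgood hs hu
  have hu0 : u ≠ 0 := msPts_ne_zero hs0 hgood hu
  have hinf : inftyPlace q N ≠ evPlace q N u := fun he =>
    hu0 (hua.evPlace_inj (algPt_zero q N) (by rw [evPlace_zero, he]))
  have hXint : IntSeries ((PowerSeries.X : PowerSeries ℂ_[q]) ^ d) := IntSeries.X.pow d
  rw [← HahnSeries.ofPowerSeries_X_pow, muAt_mul hua.norm_lt (mem_bddGerms q f.2)
    (regularAt_ofPS u hXint).isBdd ((stdMap q N).map_ne_zero_iff'.mpr hf0)
    (ofPS_ne_zero (pow_ne_zero _ PowerSeries.X_ne_zero)),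
    hua.isEvalPlace.muAt_eq_ord hf0, hdiv, Finsupp.sub_apply, Finsupp.smul_apply,
    Finsupp.single_eq_of_ne hinf.symm, smul_zero, sub_zero]
  have hmu : muAt u (ofPS ((PowerSeries.X : PowerSeries ℂ_[q]) ^ d)) = 0 := by
    refine (hasMu_of_valAt_ne_zero (regularAt_ofPS u hXint) ?_).muAt_eq hua.norm_lt
    rw [valAt_ofPS hua.norm_lt hXint, evalAt,
      tsum_eq_single d fun m hm => by rw [PowerSeries.coeff_X_pow, if_neg hm, zero_mul],
      PowerSeries.coeff_X_pow, if_pos rfl, one_mul]
    exact pow_ne_zero _ hu0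
  rw [hmu, add_zero]
  exact count_le_ptsDiv u

/-- The congruence of the expansion. -/
theorem dvd_of_orthogonal (hD : RED.IsCoefficientwise D)
    (h : RED.TwoCharts D (MF.Coeff.jElem ℚbar N) xb n)
    (hgood : ∀ p ∈ M, GoodPair N q p) (hs : AlgPt q N s) (hs0 : s ≠ 0) (hf0 : f ≠ 0)
    {γ : padicPlace q} (hγ : IsLocalRing.residue (padicPlace q) γ ≠ 0)
    (hred : D.Reduces f (algebraMap (IsLocalRing.ResidueField (padicPlace q))
        (modularFunctionFieldFullC (IsLocalRing.ResidueField (padicPlace q)) N)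
        (IsLocalRing.residue (padicPlace q) γ)))
    (hdiv : ∀ Q, Q.ord f =
        (ptsDiv N (msPts s M) - msDeg M • Finsupp.single (inftyPlace q N) 1 :
          Divisor ℚbar (modularFunctionFieldBar N)) Q)
    (a : ℕ → ℤ)
    (horth : ∑ i ∈ Finset.Icc 1 (msDeg M),
      (a i : ℚbar) * (f : LaurentSeries ℚbar).coeff (-(i : ℤ)) = 0) :
    (q : ℤ) ∣ (M.map fun p => if p.1 = 1 then a p.2 else 0).sum := by
  classical
  obtain ⟨G', hG'int, hG'f, hcong⟩ := exists_shifted_series hD h hf0 γ hred hdiv
  have hG'0 : G' ≠ 0 := fun h0 => by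
    rw [h0, map_zero] at hG'f
    exact mul_ne_zero ((stdMap q N).map_ne_zero_iff'.mpr hf0)
      (HahnSeries.single_ne_zero one_ne_zero) hG'f.symm
  obtain ⟨U, hU, hGU⟩ := exists_eq_prod_xSub_mul (msPts s M) hG'int hG'0
    (fun u hu => (msPts_algPt hgood hs hu).norm_lt)
    (fun u hu => hG'f ▸ count_le_muAt hgood hs hs0 hf0 hdiv hu)
  have hW : ((msPts s M).map xSub).prod = msW s M :=
    prod_map_xSub_bind s fun p hp => (hgood p hp).1
  rw [hW] at hGU
  have hγ1 : ‖cEmb q (γ : ℚbar)‖ = 1 :=
    le_antisymm (mem_padicPlace_iff_norm.mp γ.2)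
      (not_lt.mp fun hlt => hγ ((residue_eq_zero_iff_norm γ).mpr hlt))
  have hnorm := norm_sum_lt_of_vanishing hs.norm_lt hs0 hγ1
    (fun p hp => ⟨(hgood p hp).one_le_fst, (hgood p hp).1⟩) hU hGU hcong
    (fun i => (a i : ℂ_[q])) (fun i => norm_intCast_le_one' q _) ?_
  · rw [← norm_cEmb_intCast_lt_one_iff, map_intCast]
    refine lt_of_eq_of_lt (congrArg norm ?_) hnorm
    rw [← eq_intCast (Int.castRingHom ℂ_[q]), map_multiset_sum, Multiset.map_map]
    refine congrArg Multiset.sum (Multiset.map_congr rfl fun p _ => ?_)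
    rw [Function.comp_apply]
    split_ifs <;> simp
  · have := congrArg (cEmb q) horth
    rw [map_sum, map_zero] at this
    refine (Finset.sum_congr rfl fun i hi => ?_).trans this
    have hi' : i ≤ (M.map Prod.snd).sum := (Finset.mem_Icc.mp hi).2
    rw [map_mul, map_intCast, ← HahnSeries.ofPowerSeries_apply_coeff (Γ := ℤ), hG'f,
      Nat.cast_sub (R := ℤ) hi', show (((M.map Prod.snd).sum : ℕ) : ℤ) - (i : ℤ) = -(i : ℤ) + (msDeg M : ℤ) by
        rw [msDeg]; ring,
      HahnSeries.coeff_mul_single_add, mul_one]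
    exact congrArg _ (coeffMap_coeff _ _ _)

end Fermat.Agent.Mazur.Immersion
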