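import Fermat.Agent.Mazur.Immersion.Modular

/-!
# The point with a given parameter, and the cusp `∞`
-/

set_option autoImplicit false

noncomputable section

namespace Fermat.Agent.Mazur.Immersion

open AlgebraicCurve ModularCurve

local notation "ℚbar" => AlgebraicClosure ℚ

variable (q : ℕ) [Fact q.Prime] (N : ℕ) [NeZero N]

/-- `u` is the parameter of some point. -/
def AlgPt (u : ℂ_[q]) : Prop := ∃ P, IsEvalPlace q N P u

theorem algPt_zero : AlgPt q N 0 :=
  exists_isEvalPlace (c := 0) (by simp) (by rw [map_zero, jInvVal_zero])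

/-- The cusp `∞`. -/
def inftyPlace : Place ℚbar (modularFunctionFieldBar N) := (algPt_zero q N).choose

open Classical in
/-- The point with parameter `u`, with the junk value `∞`. -/
def evPlace (u : ℂ_[q]) : Place ℚbar (modularFunctionFieldBar N) :=
  if h : AlgPt q N u then h.choose else inftyPlace q N

variable {q N}

theorem isEvalPlace_inftyPlace : IsEvalPlace q N (inftyPlace q N) 0 :=
  (algPt_zero q N).choose_spec

theorem IsEvalPlace.unique {P P' : Place ℚbar (modularFunctionFieldBar N)} {u : ℂ_[q]}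
    (h : IsEvalPlace q N P u) (h' : IsEvalPlace q N P' u) : P = P' :=
  GermMap.IsPlaceAt.eq (isEvalPlace_iff.mp h) (isEvalPlace_iff.mp h')

theorem AlgPt.isEvalPlace {u : ℂ_[q]} (h : AlgPt q N u) : IsEvalPlace q N (evPlace q N u) u := by
  rw [evPlace, dif_pos h]
  exact h.choose_spec

theorem AlgPt.norm_lt {u : ℂ_[q]} (h : AlgPt q N u) : ‖u‖ < 1 := h.isEvalPlace.1

omit [NeZero N] in
theorem IsEvalPlace.algPt {P : Place ℚbar (modularFunctionFieldBar N)} {u : ℂ_[q]}
    (h : IsEvalPlace q N P u) : AlgPt q N u := ⟨P, h⟩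

theorem IsEvalPlace.eq_evPlace {P : Place ℚbar (modularFunctionFieldBar N)} {u : ℂ_[q]}
    (h : IsEvalPlace q N P u) : P = evPlace q N u :=
  h.unique h.algPt.isEvalPlace

theorem evPlace_zero : evPlace q N (0 : ℂ_[q]) = inftyPlace q N :=
  (algPt_zero q N).isEvalPlace.unique isEvalPlace_inftyPlace

theorem AlgPt.evPlace_inj {u u' : ℂ_[q]} (h : AlgPt q N u) (h' : AlgPt q N u')
    (he : evPlace q N u = evPlace q N u') : u = u' :=
  h.isEvalPlace.param_unique (he ▸ h'.isEvalPlace)

/-- The cusp `∞` is given by the order of the expansion. -/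
theorem mem_inftyPlace_iff (f : modularFunctionFieldBar N) :
    f ∈ (inftyPlace q N).toValuationSubring ↔
      ∀ k < (0 : ℤ), (f : LaurentSeries ℚbar).coeff k = 0 := by
  rcases eq_or_ne f 0 with rfl | hf
  · simp
  have h0 : ‖(0 : ℂ_[q])‖ < 1 := by simp
  have hgne : germ q (f : LaurentSeries ℚbar) ≠ 0 := (stdMap q N).map_ne_zero_iff'.mpr hf
  rw [isEvalPlace_inftyPlace.2, regularAt_iff_muAt h0 (mem_bddGerms q f.2) hgne,
    muAt_zero_eq_order (mem_bddGerms q f.2) hgne]
  refine ⟨fun h k hk => ?_, fun h => ?_⟩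
  · by_contra hne
    have : (germ q (f : LaurentSeries ℚbar)).coeff k ≠ 0 := by
      simpa [germ] using (map_ne_zero (cEmb q)).mpr hne
    have := HahnSeries.order_le_of_coeff_ne_zero this
    omega
  · by_contra hlt
    refine hgne (HahnSeries.coeff_order_eq_zero.mp ?_)
    show cEmb q _ = 0
    rw [h _ (not_le.mp hlt), map_zero]

/-- The cusp `∞` is rational. -/
theorem arithmeticGalois_smul_inftyPlace (σ : ℚbar ≃ₐ[ℚ] ℚbar) :
    arithmeticGalois (modularFunctionFieldFull N) σ • inftyPlace q N = inftyPlace q N := by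
  apply Place.ext
  rw [SemilinearAut.smul_toValuationSubring]
  refine SetLike.ext fun f => ?_
  rw [ValuationSubring.mem_pointwise_smul_iff_inv_smul_mem, mem_inftyPlace_iff,
    mem_inftyPlace_iff, ← map_inv]
  refine forall₂_congr fun k _ => ?_
  rw [coe_arithmeticGalois_smul, coeffMap_coeff]
  exact map_eq_zero _

end Fermat.Agent.Mazur.Immersion
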