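import Fermat.Agent.Mazur.Immersion.ConstTerm
import Fermat.Agent.Mazur.Immersion.EvPlace
import Fermat.Agent.MF.PlaceOrbits.Corollaries
import Fermat.Agent.Eigen.QCoeff
import Fermat.Prelude.Def_GaloisRep_ComplexConjugation

/-!
# Polar parts at `∞` are orthogonal to cusp forms of weight two
-/

set_option autoImplicit false
set_option linter.style.haveILetI false

noncomputable section

namespace Fermat.Agent.Mazur.Immersion

open AlgebraicCurve ModularCurve CongruenceSubgroup ModularFormClass UpperHalfPlane MF MF.PlaceOrbits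
open scoped MatrixGroups ModularForm

local notation "ℚbar" => AlgebraicClosure ℚ

variable {q : ℕ} [Fact q.Prime] {N : ℕ} [NeZero N]

theorem order_coeffMap' {R S : Type*} [Field R] [Field S] (φ : R →+* S) {x : LaurentSeries R}
    (hx : x ≠ 0) : (coeffMap φ x).order = x.order := by
  have h1 : (coeffMap φ x).coeff x.order ≠ 0 := by
    rw [coeffMap_coeff]
    exact (map_ne_zero φ).mpr (HahnSeries.coeff_order_eq_zero.not.mpr hx)
  refine le_antisymm (HahnSeries.order_le_of_coeff_ne_zero h1)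
    (HahnSeries.order_le_of_coeff_ne_zero ?_)
  have hne : coeffMap φ x ≠ 0 := fun h => h1 (by rw [h]; rfl)
  intro h0
  apply HahnSeries.coeff_order_eq_zero.not.mpr hne
  rw [coeffMap_coeff, h0, map_zero]

/-- The order at `∞` is the order of the expansion. -/
theorem ord_inftyPlace_eq {f : modularFunctionFieldBar N} (hf : f ≠ 0) :
    (inftyPlace q N).ord f = (f : LaurentSeries ℚbar).order := by
  rw [← (isEvalPlace_inftyPlace (q := q)).muAt_eq_ord hf,
    muAt_zero_eq_order (mem_bddGerms q f.2) ((stdMap q N).map_ne_zero_iff'.mpr hf)]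
  exact order_coeffMap' _ fun h => hf (Subtype.ext h)

theorem order_qL {k : ℤ} (A : MForm N k) (hA : A ≠ 0) :
    ∃ a : ℕ, (qExpansion 1 A).order = a ∧ (qL A).order = a := by
  have hne : qExpansion 1 (⇑A) ≠ 0 := fun h0 =>
    hA ((qL_mform_eq_zero_iff A).mp (by rw [qL, h0, map_zero]))
  obtain ⟨a, ha⟩ := ENat.ne_top_iff_exists.mp (PowerSeries.order_eq_top.not.mpr hne)
  refine ⟨a, ha.symm, ?_⟩
  have h := PowerSeries.order_eq_nat.mp ha.symm
  have h1 : (qL A).coeff a ≠ 0 := by rw [qL_coeff_natCast]; exact h.1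
  refine le_antisymm (HahnSeries.order_le_of_coeff_ne_zero h1) ?_
  by_contra hlt
  refine HahnSeries.coeff_order_eq_zero.not.mpr (show qL A ≠ 0 from fun h0 => h1 (by rw [h0]; rfl)) ?_
  rcases lt_or_ge (qL A).order 0 with hneg | hpos
  · exact qL_coeff_of_neg _ hneg
  · obtain ⟨i, hi⟩ := Int.eq_ofNat_of_zero_le hpos
    rw [hi, qL_coeff_natCast]
    exact h.2 i (by omega)

theorem order_div_qL {k : ℤ} {A B : MForm N k} (hA : A ≠ 0) (hB : B ≠ 0) :
    ∃ a b : ℕ, (qExpansion 1 A).order = a ∧ (qExpansion 1 B).order = b ∧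
      (qL A / qL B).order = (a : ℤ) - b := by
  obtain ⟨a, ha, ha'⟩ := order_qL A hA
  obtain ⟨b, hb, hb'⟩ := order_qL B hB
  refine ⟨a, b, ha, hb, ?_⟩
  have hA' : qL A ≠ 0 := mt (qL_mform_eq_zero_iff A).mp hA
  have hB' : qL B ≠ 0 := mt (qL_mform_eq_zero_iff B).mp hB
  have h := HahnSeries.order_mul (div_ne_zero hA' hB') hB'
  rw [div_mul_cancel₀ _ hB', ha', hb'] at h
  omega

/-- An element of `ℚ̄[j]`-integral functions gives a function integral over `ℂ[j]`. -/
theorem isIntegral_coeffMap_of_mem_coordRing {f : modularFunctionFieldBar N}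
    (hf : f ∈ RED.coordRing ℚbar (MF.Coeff.jElem ℚbar N)) :
    IsIntegral (Algebra.adjoin ℂ ({jC} : Set (LaurentSeries ℂ)))
      (coeffMap complexEmbedding.toRingHom (f : LaurentSeries ℚbar)) := by
  obtain ⟨p, hp, hroot⟩ := hf
  let ψ : Polynomial ℚbar →+* Algebra.adjoin ℂ ({jC} : Set (LaurentSeries ℂ)) :=
    (((Polynomial.aeval (R := ℂ) jC).codRestrict _
      (fun r => Polynomial.aeval_mem_adjoin_singleton _ _)).toRingHom).comp
      (Polynomial.mapRingHom complexEmbedding.toRingHom)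
  let χ : modularFunctionFieldBar N →+* LaurentSeries ℂ :=
    (coeffMap complexEmbedding.toRingHom).comp (modularFunctionFieldBar N).val.toRingHom
  have hcomp : (algebraMap _ (LaurentSeries ℂ)).comp ψ =
      χ.comp (RED.coordEval ℚbar (MF.Coeff.jElem ℚbar N)) := by
    refine Polynomial.ringHom_ext (fun c => ?_) ?_
    · simp [ψ, χ, RED.coordEval, algebraMap_laurentSeries_eq_single]
    · simp [ψ, χ, RED.coordEval, coeffMap_jqModC]
  refine ⟨p.map ψ, hp.map ψ, ?_⟩
  rw [Polynomial.eval₂_map, hcomp]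
  show Polynomial.eval₂ (χ.comp _) (χ f) p = 0
  rw [← Polynomial.hom_eval₂, hroot, map_zero]

theorem T_zpow_mem_Gamma0 (n : ℤ) : ModularGroup.T ^ n ∈ Gamma0 N := by
  simp [Gamma0_mem, ModularGroup.coe_T_zpow]

/-- Functions with only pole at `∞` are orthogonal to cusp forms. -/
theorem sum_polar_mul_eq_zero {n : ℕ} (hcd : RED.CoordData ℚbar (MF.Coeff.jElem ℚbar N) n)
    {f : modularFunctionFieldBar N} (hf0 : f ≠ 0) {D : ℕ}
    (hord : ∀ Q, Q ≠ inftyPlace q N → 0 ≤ Q.ord f) (hinf : -(D : ℤ) ≤ (inftyPlace q N).ord f)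
    (F : CuspForm (Gamma0 N) 2) {a : ℕ → ℤ} (ha : ∀ i, qCoeff F i = a i) :
    ∑ i ∈ Finset.Icc 1 D, (a i : ℚbar) * (f : LaurentSeries ℚbar).coeff (-(i : ℤ)) = 0 := by
  haveI := isFunctionField_bar (N := N)
  set J := jData complexEmbedding.toRingHom N
  have hmem := J.mem_MF f f.2
  obtain ⟨k, A, B, hB, hx⟩ := mem_MFField_iff.mp hmem
  have hfL : (f : LaurentSeries ℚbar) ≠ 0 := fun h => hf0 (Subtype.ext h)
  have hx0 : coeffMap complexEmbedding.toRingHom (f : LaurentSeries ℚbar) ≠ 0 :=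
    fun h => hfL (MF.coeffMap_injective complexEmbedding.toRingHom.injective
      (h.trans (map_zero _).symm))
  have hA : A ≠ 0 := fun h => hx0 (by rw [hx, h, FunLike.coe_zero, qL_zero, zero_div])
  have hordf : (inftyPlace q N).ord f = (qL A / qL B).order := by
    rw [ord_inftyPlace_eq hf0, ← hx, order_coeffMap' _ hfL]
  -- `f` is integral over `ℚ̄[j]`
  have hjinf : MF.Coeff.jElem ℚbar N ∉ (inftyPlace q N).toValuationSubring := by
    intro hj
    have h1 := RED.ord_nonneg_of_mem _ hj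
    rw [← inv_inv (MF.Coeff.jElem ℚbar N), Place.ord_inv,
      show (MF.Coeff.jElem ℚbar N)⁻¹ = jInvElem N from rfl] at h1
    have h2 := (isEvalPlace_inftyPlace (q := q) (N := N)).muAt_eq_ord
      (show jInvElem N ≠ 0 by simpa using jInv_sub_ne_zero (N := N) 0)
    have h3 := muAt_jInv_sub (q := q) (N := N) (u := 0) (by simp) (c := 0)
      (by rw [map_zero, jInvVal_zero])
    rw [map_zero, sub_zero, stdMap_apply] at h3
    omega
  have hint := isIntegral_coeffMap_of_mem_coordRing (hcd.mem_coordRing_of_forall f fun v hv =>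
    RED.mem_of_ord_nonneg v (hord v fun h => hjinf (h ▸ hv)))
  rw [hx] at hint
  -- the cusps
  obtain ⟨π, hπ⟩ := J.exists_cuspEquiv
  have hlog : ∀ (γ : SL(2, ℤ)) (g : modularFunctionFieldBar N) {l : ℤ} (A' B' : MForm N l),
      A' ≠ 0 → B' ≠ 0 →
      coeffMap complexEmbedding.toRingHom (g : LaurentSeries ℚbar) = qL A' / qL B' →
      WithZero.log (J.cuspVal (QuotientGroup.mk γ⁻¹) g) =
        ((qExpansion (N : ℝ) (⇑B' ∣[l] γ)).order.toNat : ℤ) -
          (qExpansion (N : ℝ) (⇑A' ∣[l] γ)).order.toNat := by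
    intro γ g l A' B' hA' hB' hg
    rw [JData.cuspVal, Valuation.comap_apply, cuspValAt_mk, inv_inv]
    exact (cuspOrder N γ).log_val hA' hB' hg
  have hone : (π (Quotient.mk'' (QuotientGroup.mk (1 : SL(2, ℤ))⁻¹))).1 = inftyPlace q N := by
    refine Place.ext (SetLike.ext fun g => ?_)
    rw [(hπ _).1]
    rcases eq_or_ne g 0 with rfl | hg
    · simp
    have hgL : (g : LaurentSeries ℚbar) ≠ 0 := fun h => hg (Subtype.ext h)
    obtain ⟨l, A', B', hB', hg'⟩ := mem_MFField_iff.mp (J.mem_MF g g.2)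
    have hgι : coeffMap complexEmbedding.toRingHom (g : LaurentSeries ℚbar) ≠ 0 :=
      fun h => hgL (MF.coeffMap_injective complexEmbedding.toRingHom.injective
        (h.trans (map_zero _).symm))
    have hA' : A' ≠ 0 := fun h => hgι (by rw [hg', h, FunLike.coe_zero, qL_zero, zero_div])
    obtain ⟨a', b', ha', hb', hab⟩ := order_div_qL hA' hB'
    have h1 := hlog 1 g A' B' hA' hB' hg'
    rw [SlashAction.slash_one, SlashAction.slash_one,
      order_qExpansion_natCast (coe_mem_qFunctions _) ha',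
      order_qExpansion_natCast (coe_mem_qFunctions _) hb', ENat.toNat_natCast,
      ENat.toNat_natCast] at h1
    have hval : J.cuspVal (QuotientGroup.mk (1 : SL(2, ℤ))⁻¹) g ≠ 0 :=
      (Valuation.ne_zero_iff _).mpr hg
    rw [← WithZero.log_le_log hval one_ne_zero, WithZero.log_one, h1,
      RED.mem_iff_ord_nonneg, ord_inftyPlace_eq hg, ← order_coeffMap' complexEmbedding.toRingHom hgL,
      hg', hab]
    have hN : (0 : ℤ) < N := by exact_mod_cast NeZero.pos N
    push_cast
    constructor <;> intro h <;> nlinarith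
  have hC : ∀ γ : SL(2, ℤ), γ ∉ Gamma0 N →
      (qExpansion (N : ℝ) (⇑B ∣[k] γ)).order ≤ (qExpansion (N : ℝ) (⇑A ∣[k] γ)).order := by
    intro γ hγ
    set P := π (Quotient.mk'' (QuotientGroup.mk γ⁻¹ : Cosets.X0 N)) with hP
    have hne : P.1 ≠ inftyPlace q N := by
      rw [← hone]
      intro h
      obtain ⟨⟨t, m, rfl⟩, ht⟩ := Quotient.eq''.1 (π.injective (Subtype.ext h))
      have hmem' : (ModularGroup.T ^ m * (1 : SL(2, ℤ))⁻¹)⁻¹ * γ⁻¹ ∈ Gamma0 N :=
        QuotientGroup.eq.1 ht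
      refine hγ ?_
      have := (Gamma0 N).mul_mem (T_zpow_mem_Gamma0 (N := N) m) hmem'
      rw [inv_one, mul_one, mul_inv_cancel_left] at this
      simpa using (Gamma0 N).inv_mem this
    have h1 := (hπ (QuotientGroup.mk γ⁻¹)).2.2 f
    rw [hlog γ f A B hA hB hx, ← hP] at h1
    have h2 : 0 ≤ (N : ℤ) * P.1.ord f := mul_nonneg (Int.natCast_nonneg N) (hord _ hne)
    have hA1 := qExpansion_slash_ne_zero A (mform_coe_ne_zero hA) γ
    have hB1 := qExpansion_slash_ne_zero B (mform_coe_ne_zero hB) γ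
    rw [← PowerSeries.coe_toNat_order hA1, ← PowerSeries.coe_toNat_order hB1]
    have hs : (0 : ℤ) < orbitSize ModularGroup.T (QuotientGroup.mk γ⁻¹ : Cosets.X0 N) := by
      exact_mod_cast orbitSize_pos ModularGroup.T _
    rw [h1] at h2
    have h3 := (mul_nonneg_iff_of_pos_left hs).mp h2
    exact_mod_cast (show ((qExpansion (N : ℝ) (⇑B ∣[k] γ)).order.toNat : ℤ) ≤
      (qExpansion (N : ℝ) (⇑A ∣[k] γ)).order.toNat by omega)
  obtain ⟨a₀, b₀, ha₀, hb₀, hab⟩ := order_div_qL hA hB
  have hI : (qExpansion 1 B).order ≤ (qExpansion 1 A).order + D := by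
    rw [ha₀, hb₀]
    exact_mod_cast (show (b₀ : ℤ) ≤ a₀ + D by omega)
  have h0 := coeff_zero_ratio_mul_eq_zero A B hA hB D (ordAtH_le_of_isIntegral hA hB hint) hC hI F
  -- expand the constant term
  set x := qL A / qL B with hxdef
  set g : PowerSeries ℂ := PowerSeries.mk fun j => x.coeff ((j : ℤ) - D) with hg
  have hsplit : x = HahnSeries.single (-(D : ℤ)) 1 * HahnSeries.ofPowerSeries ℤ ℂ g := by
    ext m
    have e : m = (m + D) + -(D : ℤ) := by ring
    conv_rhs => rw [e, HahnSeries.coeff_single_mul_add, one_mul]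
    rcases lt_or_ge (m + D) 0 with hm | hm
    · rw [ofPowerSeries_coeff_of_neg _ hm]
      exact HahnSeries.coeff_eq_zero_of_lt_order (by omega)
    · obtain ⟨j, hj⟩ := Int.eq_ofNat_of_zero_le hm
      rw [hj, HahnSeries.ofPowerSeries_apply_coeff, hg, PowerSeries.coeff_mk]
      congr 1
      omega
  rw [hsplit, mul_assoc, qL, ← map_mul,
    show (0 : ℤ) = (D : ℤ) + -(D : ℤ) by ring, HahnSeries.coeff_single_mul_add, one_mul,
    HahnSeries.ofPowerSeries_apply_coeff, mul_comm g, PowerSeries.coeff_mul,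
    Finset.Nat.sum_antidiagonal_eq_sum_range_succ
      (fun i j => (qExpansion 1 F).coeff i * PowerSeries.coeff j g)] at h0
  refine complexEmbedding.toRingHom.injective ?_
  rw [map_sum, map_zero, ← h0]
  refine Finset.sum_subset_zero_on_sdiff (fun i hi => ?_) (fun i hi => ?_) fun i hi => ?_
  · rw [Finset.mem_range]
    have := (Finset.mem_Icc.mp hi).2
    omega
  · rw [Finset.mem_sdiff, Finset.mem_range, Finset.mem_Icc] at hi
    obtain rfl : i = 0 := by omega
    rw [show (qExpansion 1 (⇑F)).coeff 0 = qCoeff F 0 from rfl, Eigen.qCoeff_zero_index, zero_mul]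
  · have hiD := (Finset.mem_Icc.mp hi).2
    rw [map_mul, map_intCast, show (qExpansion 1 (⇑F)).coeff i = qCoeff F i from rfl, ha, hg,
      PowerSeries.coeff_mk, Nat.cast_sub hiD, sub_sub_cancel_left, ← hx, coeffMap_coeff]

end Fermat.Agent.Mazur.Immersion
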