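import Fermat.Agent.Mazur.Defs
import Fermat.Agent.Mazur.Immersion.Defs
import Fermat.Agent.Mazur.Immersion.Effective
import Fermat.Agent.Mazur.Immersion.Expansion
import Fermat.Agent.Mazur.Immersion.Orthogonal

/-!
# The formal immersion argument

A rational point of `X₀(N)` other than `∞` is not congruent to `∞` modulo `q`.
-/

set_option autoImplicit false
set_option synthInstance.maxHeartbeats 400000

noncomputable section

namespace Fermat.Agent.Mazur.Immersion

open AlgebraicCurve ModularCurve

/-- No Galois-fixed place other than `∞` has a parameter in the open disc. -/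
theorem not_isEvalPlace_of_rankZero {N : ℕ} [NeZero N] {q : ℕ} [Fact q.Prime] (hq : q ≠ 2)
    (hqN : ¬ q ∣ N) (hrk : RankZeroElement N) (hinj : FixedTorsionRedInjective N q)
    (hred : HasReductionData N (padicPlace q))
    (P : Place (AlgebraicClosure ℚ) (modularFunctionFieldBar N))
    (hP : ∀ σ : AlgebraicClosure ℚ ≃ₐ[ℚ] AlgebraicClosure ℚ,
      arithmeticGalois (modularFunctionFieldFull N) σ • P = P)
    {s : ℂ_[q]} (hs0 : s ≠ 0) : ¬ IsEvalPlace q N P s := by
  -- `q ≠ 2` is only needed by the consumers, through `hinj`.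
  have _ := hq
  intro hPs
  obtain ⟨D, hD, xb, n, h⟩ := hred
  obtain ⟨t, w, hrep, hw0, ⟨F, m, hF, hm, hpair⟩, htor⟩ :=
    exists_effective_torsion (q := q) hrk
  obtain ⟨M, rfl, hMsupp⟩ := exists_msWt_eq hw0
  have hgood : ∀ p ∈ M, GoodPair N q p := fun p hp => hrep.1 p (hMsupp p hp)
  obtain ⟨f, γ, hf0, hγ, hfred, hdiv⟩ :=
    exists_reduced_function h hqN hinj hD hrep hgood htor hP hPs
  choose a ha using fun i : ℕ => MF.IntStruct.exists_int_qCoeff hF i
  have hord : ∀ Q, Q ≠ inftyPlace q N → 0 ≤ Q.ord f := fun Q hQ => by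
    rw [hdiv Q, Finsupp.sub_apply, Finsupp.smul_apply, Finsupp.single_eq_of_ne hQ, smul_zero,
      sub_zero]
    exact ptsDiv_nonneg _ Q
  have hinf : -(msDeg M : ℤ) ≤ (inftyPlace q N).ord f := by
    rw [hdiv, Finsupp.sub_apply, Finsupp.smul_apply, Finsupp.single_eq_same, nsmul_eq_mul, mul_one]
    have := ptsDiv_nonneg (q := q) (msPts s M) (inftyPlace q N)
    linarith
  have horth := sum_polar_mul_eq_zero h.finite.coordGeneric hf0 hord hinf F ha
  refine hm (?_ : (q : ℤ) ∣ m)
  have hsum : (m : ℂ) = ((M.map fun p => if p.1 = 1 then a p.2 else 0).sum : ℤ) := by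
    rw [← hpair, formPair_msWt, ← eq_intCast (Int.castRingHom ℂ), map_multiset_sum,
      Multiset.map_map]
    refine congrArg Multiset.sum (Multiset.map_congr rfl fun p _ => ?_)
    rw [Function.comp_apply]
    split_ifs <;> simp [ha]
  rw [Int.cast_injective hsum]
  exact dvd_of_orthogonal hD h hgood hPs.algPt hs0 hf0 hγ hfred hdiv a horth

end Fermat.Agent.Mazur.Immersion
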