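import Fermat.Agent.Mazur.Immersion.Germ

/-!
# Integral series are closed under almost integrality
-/

set_option autoImplicit false
set_option linter.unusedSectionVars false

noncomputable section

namespace Fermat.Agent.Mazur.Immersion

open PowerSeries

variable (K : Type*) [NormedField K] [IsUltrametricDist K]

/-- The integral series as a subring. -/
def intSubring : Subring K⟦X⟧ where
  carrier := {g | IntSeries g}
  mul_mem' ha hb := IntSeries.mul ha hb
  one_mem' := IntSeries.one
  add_mem' ha hb := IntSeries.add ha hb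
  zero_mem' := IntSeries.zero
  neg_mem' ha := IntSeries.neg ha

variable {K}

theorem mem_intSubring {g : K⟦X⟧} : g ∈ intSubring K ↔ IntSeries g := Iff.rfl

theorem intSeries_of_X_pow_mul {g : K⟦X⟧} (k : ℕ) (h : IntSeries (X ^ k * g)) : IntSeries g :=
  fun n => by simpa [coeff_X_pow_mul] using h (n + k)

/-- A series all of whose powers become integral after one multiplication is integral. -/
theorem intSeries_of_forall_mul_pow {g c : K⟦X⟧} (hc : c ≠ 0)
    (h : ∀ n : ℕ, IntSeries (c * g ^ n)) : IntSeries g := by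
  intro m
  induction m using Nat.strong_induction_on with
  | _ m ih =>
    set g₀ : K⟦X⟧ := ((trunc m g : Polynomial K) : K⟦X⟧) with hg₀
    set r : K⟦X⟧ := PowerSeries.mk fun i => coeff (i + m) g with hr
    have hg0int : g₀ ∈ intSubring K := fun i => by
      rw [hg₀, Polynomial.coeff_coe, coeff_trunc]
      split_ifs with hi
      · exact ih i hi
      · simp
    have hsplit : X ^ m * r = g - g₀ := by
      rw [eq_sub_iff_add_eq, hr, hg₀]
      exact (eq_X_pow_mul_shift_add_trunc m g).symm
    obtain ⟨e, c', hc', rfl⟩ : ∃ (e : ℕ) (c' : K⟦X⟧), coeff 0 c' ≠ 0 ∧ c = X ^ e * c' :=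
      ⟨c.order.toNat, c.divXPowOrder, by
        rw [coeff_zero_eq_constantCoeff]
        exact constantCoeff_divXPowOrder_eq_zero_iff.not.mpr hc, (X_pow_order_mul_divXPowOrder).symm⟩
    have hb : ∀ n : ℕ, ‖coeff 0 c'‖ * ‖coeff 0 r‖ ^ n ≤ 1 := by
      intro n
      have h1 : X ^ e * c' * (g - g₀) ^ n ∈ intSubring K := by
        rw [sub_eq_add_neg, add_pow, Finset.mul_sum]
        refine sum_mem fun i _ => ?_
        rw [← mul_assoc, ← mul_assoc]
        exact mul_mem (mul_mem (h i) (pow_mem (neg_mem hg0int) _)) (natCast_mem _ _)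
      rw [← hsplit, mul_pow, ← pow_mul, mul_mul_mul_comm, ← pow_add] at h1
      have h2 := intSeries_of_X_pow_mul _ h1 0
      rwa [coeff_zero_eq_constantCoeff, map_mul, map_pow, norm_mul, norm_pow,
        ← coeff_zero_eq_constantCoeff] at h2
    have hm : coeff 0 r = coeff m g := by simp [hr]
    rw [← hm]
    by_contra hlt
    obtain ⟨n, hn⟩ := pow_unbounded_of_one_lt (1 / ‖coeff 0 c'‖) (not_le.mp hlt)
    rw [div_lt_iff₀ (norm_pos_iff.mpr hc')] at hn
    have := hb n
    linarith

/-- A bounded series which is integral over integral series is integral. -/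
theorem intSeries_of_monic {g a b : K⟦X⟧} (hb : b ≠ 0) (ha : IntSeries a) (hbi : IntSeries b)
    (hab : g * b = a) {p : Polynomial K⟦X⟧} (hp : p.Monic) (hcoeff : ∀ i, IntSeries (p.coeff i))
    (hroot : p.eval g = 0) : IntSeries g := by
  set d := p.natDegree with hd
  refine intSeries_of_forall_mul_pow (pow_ne_zero d hb) fun n => ?_
  have hp' : p.map (RingHom.id _) = p := Polynomial.map_id
  set r := Polynomial.X ^ n %ₘ p with hr
  have hrcoeff : ∀ i, r.coeff i ∈ intSubring K := by
    intro i
    have hlift : p ∈ Polynomial.lifts (intSubring K).subtype :=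
      (Polynomial.lifts_iff_coeff_lifts p).mpr fun j => ⟨⟨_, hcoeff j⟩, rfl⟩
    obtain ⟨q, hq, -, hqm⟩ := Polynomial.lifts_and_degree_eq_and_monic hlift hp
    have : r = (Polynomial.X ^ n %ₘ q).map (intSubring K).subtype := by
      rw [Polynomial.map_modByMonic _ hqm, Polynomial.map_pow, Polynomial.map_X, hq, hr]
    rw [this, Polynomial.coeff_map]
    exact ((Polynomial.X ^ n %ₘ q).coeff i).2
  rcases Nat.eq_zero_or_pos d with hd0 | hdpos
  · rw [Polynomial.eq_one_of_monic_natDegree_zero hp hd0, Polynomial.eval_one] at hroot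
    exact absurd hroot one_ne_zero
  have hval : g ^ n = r.eval g := by
    conv_lhs => rw [← Polynomial.eval_X (x := g), ← Polynomial.eval_pow,
      ← Polynomial.modByMonic_add_div (Polynomial.X ^ n : Polynomial K⟦X⟧) p]
    rw [Polynomial.eval_add, Polynomial.eval_mul, hroot, zero_mul, add_zero]
  have hdeg : r.natDegree < d :=
    Polynomial.natDegree_modByMonic_lt _ hp fun h1 => by rw [h1] at hd; simp [hd] at hdpos
  rw [hval, Polynomial.eval_eq_sum_range' hdeg, Finset.mul_sum]
  refine Finset.sum_induction _ IntSeries (fun _ _ => IntSeries.add) IntSeries.zero fun i hi => ?_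
  have hi' : i ≤ d := (Finset.mem_range.mp hi).le
  rw [show b ^ d * (r.coeff i * g ^ i) = r.coeff i * (a ^ i * b ^ (d - i)) by
    rw [← hab, mul_pow, mul_assoc (g ^ i), ← pow_add, Nat.add_sub_cancel' hi']; ring]
  exact IntSeries.mul (hrcoeff i) ((ha.pow i).mul (hbi.pow _))

end Fermat.Agent.Mazur.Immersion
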