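import Fermat.Agent.Mazur.Immersion.LevelOneConst
import Fermat.Agent.MF.CuspFormJ
import Fermat.Agent.MF.HolCrit.SymForms
import Fermat.Agent.MF.Field
import Fermat.Agent.MF.PlaceOrbits.Valuations

/-!
# The residue theorem at `∞` for functions with a single pole there

For a ratio `x = A / B` of forms on `Γ₀(N)` without pole away from the cusp `∞` and a weight two
cusp form `F`, the constant term of `x F` vanishes, by taking the trace to level one of the cusp
form `x Δ ^ D F`.
-/

set_option autoImplicit false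
set_option linter.unusedSectionVars false

noncomputable section

namespace Fermat.Agent.Mazur.Immersion

open UpperHalfPlane CongruenceSubgroup ModularForm MF MF.HolCrit
open scoped MatrixGroups ModularForm Manifold

variable {N : ℕ} [NeZero N]

theorem coeff_qExpansion_natCast {f : ℍ → ℂ} (hf : f ∈ qFunctions) (n : ℕ) :
    (qExpansion (N : ℝ) f).coeff n = if N ∣ n then (qExpansion 1 f).coeff (n / N) else 0 := by
  have h := UpperHalfPlane.qExpansion_coeff_nat_mul (F := f) one_pos (by simpa using hf.1) hf.2.1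
    hf.2.2 (NeZero.pos N) n
  rwa [mul_one] at h

theorem order_qExpansion_natCast {f : ℍ → ℂ} (hf : f ∈ qFunctions) {m : ℕ}
    (hm : (qExpansion 1 f).order = m) : (qExpansion (N : ℝ) f).order = (N * m : ℕ) := by
  rw [PowerSeries.order_eq_nat] at hm ⊢
  refine ⟨?_, fun i hi => ?_⟩
  · rw [coeff_qExpansion_natCast hf, if_pos (dvd_mul_right _ _),
      Nat.mul_div_cancel_left _ (NeZero.pos N)]
    exact hm.1
  · rw [coeff_qExpansion_natCast hf]
    split_ifs with hd
    · exact hm.2 _ (Nat.div_lt_of_lt_mul hi)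
    · rfl

/-- The translates by the cosets other than the trivial one are by matrices outside `Γ₀(N)`. -/
theorem exists_slashQ_eq_notMem {k : ℤ} (f : MForm N k) (q : HolCrit.Cosets N)
    (hq : q ≠ ⟦(1 : 𝒮ℒ)⟧) :
    ∃ γ : SL(2, ℤ), γ ∉ Gamma0 N ∧ slashQ f q = (f : ℍ → ℂ) ∣[k] γ := by
  induction q using Quotient.inductionOn with
  | h r =>
    obtain ⟨r, hr⟩ := r
    obtain ⟨γ, rfl⟩ := MonoidHom.mem_range.mp hr
    refine ⟨γ⁻¹, fun hγ => hq (Quotient.sound (QuotientGroup.leftRel_apply.mpr ?_)), ?_⟩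
    · rw [Subgroup.mem_subgroupOf, mul_one, InvMemClass.coe_inv]
      exact ⟨γ⁻¹, hγ, map_inv _ _⟩
    · rw [slashQ, SlashInvariantForm.quotientFunc_mk]
      exact congrArg (fun x => (f : ℍ → ℂ) ∣[k] x)
        (map_inv (Matrix.SpecialLinearGroup.mapGL ℝ) γ).symm

theorem analyticAt_sum_slashQ {k : ℤ} (f : MForm N k) (s : Finset (HolCrit.Cosets N)) :
    AnalyticAt ℂ (cuspFunction (N : ℝ) (∑ q ∈ s, slashQ f q)) 0 ∧
      qExpansion (N : ℝ) (∑ q ∈ s, slashQ f q) = ∑ q ∈ s, qExpansion (N : ℝ) (slashQ f q) := by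
  classical
  induction s using Finset.induction with
  | empty =>
    refine ⟨?_, by simp [qExpansion_zero]⟩
    rw [Finset.sum_empty]
    exact analyticAt_cuspFunction_zero natCast_pos_real (fun _ => rfl) mdifferentiable_const
      (Filter.const_boundedAtFilter _ _)
  | insert q s hq ih =>
    obtain ⟨γ, hγ⟩ := exists_slashQ_eq f q
    have han : AnalyticAt ℂ (cuspFunction (N : ℝ) (slashQ f q)) 0 :=
      hγ ▸ analyticAt_cuspFunction_slash_gamma0 f γ
    refine ⟨?_, ?_⟩
    · rw [Finset.sum_insert hq, UpperHalfPlane.cuspFunction_add han.continuousAt ih.1.continuousAt]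
      exact han.add ih.1
    · rw [Finset.sum_insert hq, Finset.sum_insert hq, qExpansion_add han ih.1, ih.2]

theorem order_qExpansion_discriminant_pow (D : ℕ) :
    (qExpansion 1 (ModularForm.discriminant ^ D)).order = D := by
  have h1 : (qExpansion 1 ModularForm.discriminant).order = (1 : ℕ) := by
    rw [PowerSeries.order_eq_nat]
    refine ⟨discriminant_qExpansion_coeff_one.trans_ne one_ne_zero, fun i hi => ?_⟩
    obtain rfl : i = 0 := by omega
    rw [qExpansion_coeff_zero one_pos (analyticAt_of_mem_qFunctions mem_qFunctions_discriminant)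
      (by simpa using mem_qFunctions_discriminant.1)]
    exact discriminant_isZeroAtImInfty.valueAtInfty_eq_zero
  have h2 : qExpansion 1 (ModularForm.discriminant ^ D) =
      qExpansion 1 ModularForm.discriminant ^ D := by
    apply HahnSeries.ofPowerSeries_injective (Γ := ℤ)
    rw [map_pow]
    exact qL_pow mem_qFunctions_discriminant D
  rw [h2, PowerSeries.order_pow, h1, nsmul_eq_mul, Nat.cast_one, mul_one]

/-- Power series agreeing to order `D` have the same constant term over `Δ ^ D`. -/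
theorem coeff_zero_div_discriminant_congr {a b : PowerSeries ℂ} {D : ℕ}
    (h : ∀ i ≤ D, a.coeff i = b.coeff i) :
    (HahnSeries.ofPowerSeries ℤ ℂ a / qL ModularForm.discriminant ^ D).coeff 0 =
      (HahnSeries.ofPowerSeries ℤ ℂ b / qL ModularForm.discriminant ^ D).coeff 0 := by
  obtain ⟨e, he⟩ : PowerSeries.X ^ (D + 1) ∣ a - b :=
    PowerSeries.X_pow_dvd_iff.mpr fun i hi => by rw [map_sub, h i (by omega), sub_self]
  have hΔ := qL_discriminant_ne_zero
  rw [← sub_eq_zero, ← HahnSeries.coeff_sub, ← sub_div, ← map_sub, he]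
  set p := qExpansion 1 (ModularForm.discriminant ^ D) with hp
  have hp' : qL ModularForm.discriminant ^ D = HahnSeries.ofPowerSeries ℤ ℂ p := by
    rw [← qL_pow mem_qFunctions_discriminant D]
    rfl
  have hord : p.order = D := order_qExpansion_discriminant_pow D
  have hp0 : p ≠ 0 := fun h0 => by rw [h0, PowerSeries.order_zero] at hord; simp at hord
  have hunit : IsUnit p.divXPowOrder := PowerSeries.isUnit_iff_constantCoeff.mpr
    (isUnit_iff_ne_zero.mpr (PowerSeries.constantCoeff_divXPowOrder_eq_zero_iff.not.mpr hp0))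
  obtain ⟨v, hv⟩ := hunit.exists_right_inv
  have hpu : p = PowerSeries.X ^ D * p.divXPowOrder := by
    conv_lhs => rw [← PowerSeries.X_pow_order_mul_divXPowOrder (f := p)]
    rw [hord, ENat.toNat_natCast]
  have halg : PowerSeries.X * (e * v) * p = PowerSeries.X ^ (D + 1) * e := by
    rw [hpu]
    linear_combination (PowerSeries.X ^ (D + 1) * e) * hv
  have hq : HahnSeries.ofPowerSeries ℤ ℂ (PowerSeries.X ^ (D + 1) * e) /
      qL ModularForm.discriminant ^ D =
        HahnSeries.ofPowerSeries ℤ ℂ (PowerSeries.X * (e * v)) := by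
    rw [← halg, map_mul _ _ p, ← hp']
    exact mul_div_cancel_right₀ _ (pow_ne_zero _ hΔ)
  rw [hq, show (0 : ℤ) = ((0 : ℕ) : ℤ) from rfl, HahnSeries.ofPowerSeries_apply_coeff,
    PowerSeries.coeff_zero_X_mul]

/-- The constant term of `x F` vanishes when `x` has its only pole at `∞`. -/
theorem coeff_zero_ratio_mul_eq_zero {k : ℤ} (A B : MForm N k) (hA : A ≠ 0) (hB : B ≠ 0) (D : ℕ)
    (hH : ∀ τ : ℍ, ordAtH B τ ≤ ordAtH A τ)
    (hC : ∀ γ : SL(2, ℤ), γ ∉ Gamma0 N →
      (qExpansion (N : ℝ) (⇑B ∣[k] γ)).order ≤ (qExpansion (N : ℝ) (⇑A ∣[k] γ)).order)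
    (hI : (qExpansion 1 B).order ≤ (qExpansion 1 A).order + D)
    (F : CuspForm (Gamma0 N) 2) : (qL A / qL B * qL F).coeff 0 = 0 := by
  rcases eq_or_ne F 0 with rfl | hF
  · simp [qL_zero]
  set F' : MForm N 2 := ModularFormClass.modularForm F with hF'
  have hF'0 : F' ≠ 0 := fun h => hF (DFunLike.ext _ _ fun τ =>
    congrArg (fun g : MForm N 2 => g τ) h)
  set Dl := (ModularFormClass.modularForm CuspForm.discriminant : ModularForm 𝒮ℒ 12).pow D with hDl
  have hDlcoe : (ofLevelOne N Dl : ℍ → ℂ) = ModularForm.discriminant ^ D := by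
    rw [coe_ofLevelOne, hDl, ModularForm.coe_pow]
    rfl
  have hD0 : ofLevelOne N Dl ≠ 0 := fun h => by
    have h1 := congrArg (fun g : MForm N _ => g UpperHalfPlane.I) h
    simp only [hDlcoe, Pi.pow_apply] at h1
    exact pow_ne_zero D (discriminant_ne_zero _) h1
  set AD := A.mul (ofLevelOne N Dl) with hAD
  have hAD0 : AD ≠ 0 := mform_mul_ne_zero hA hD0
  set P := AD.mul F' with hP
  have hP0 : P ≠ 0 := mform_mul_ne_zero hAD0 hF'0
  have hPcoe : (P : ℍ → ℂ) = ⇑A * ModularForm.discriminant ^ D * ⇑F' := by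
    rw [hP, hAD, ModularForm.coe_mul, ModularForm.coe_mul, hDlcoe]
  have hordP : ∀ γ : SL(2, ℤ),
      (qExpansion (N : ℝ) (⇑P ∣[k + (D : ℤ) * 12 + 2] γ)).order =
        (qExpansion (N : ℝ) (⇑A ∣[k] γ)).order + ((N * D : ℕ) : ℕ∞) +
          (qExpansion (N : ℝ) (⇑F ∣[(2 : ℤ)] γ)).order := by
    intro γ
    rw [hP, ModularForm.coe_mul, order_qExpansion_slash_mul, hAD, ModularForm.coe_mul,
      order_qExpansion_slash_mul]
    congr 2
    have hs : ⇑(ofLevelOne N Dl) ∣[(D : ℤ) * 12] γ = ⇑Dl :=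
      SlashInvariantFormClass.slash_action_eq Dl _ ⟨γ, rfl⟩
    have hc : (⇑Dl : ℍ → ℂ) = ModularForm.discriminant ^ D := hDlcoe
    rw [hs, hc]
    exact order_qExpansion_natCast (pow_mem mem_qFunctions_discriminant D)
      (order_qExpansion_discriminant_pow D)
  have hkey : ∀ γ : SL(2, ℤ), (qExpansion (N : ℝ) (⇑B ∣[k] γ)).order <
      (qExpansion (N : ℝ) (⇑P ∣[k + (D : ℤ) * 12 + 2] γ)).order := by
    intro γ
    obtain ⟨b, hb⟩ := ENat.ne_top_iff_exists.mp (PowerSeries.order_eq_top.not.mpr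
      (qExpansion_slash_ne_zero B (mform_coe_ne_zero hB) γ))
    obtain ⟨a, ha⟩ := ENat.ne_top_iff_exists.mp (PowerSeries.order_eq_top.not.mpr
      (qExpansion_slash_ne_zero A (mform_coe_ne_zero hA) γ))
    have hle : b ≤ a + N * D := by
      by_cases hγ : γ ∈ Gamma0 N
      · rw [PlaceOrbits.slash_gamma0_eq B hγ] at hb
        rw [PlaceOrbits.slash_gamma0_eq A hγ] at ha
        have hne : ∀ {g : MForm N k}, g ≠ 0 → qExpansion 1 (⇑g) ≠ 0 := fun {g} hg h0 =>
          hg ((qL_mform_eq_zero_iff g).mp (by rw [qL, h0, map_zero]))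
        obtain ⟨b', hb'⟩ := ENat.ne_top_iff_exists.mp (PowerSeries.order_eq_top.not.mpr (hne hB))
        obtain ⟨a', ha'⟩ := ENat.ne_top_iff_exists.mp (PowerSeries.order_eq_top.not.mpr (hne hA))
        rw [order_qExpansion_natCast (coe_mem_qFunctions B) hb'.symm, Nat.cast_inj] at hb
        rw [order_qExpansion_natCast (coe_mem_qFunctions A) ha'.symm, Nat.cast_inj] at ha
        rw [← hb', ← ha'] at hI
        have : b' ≤ a' + D := by exact_mod_cast hI
        rw [hb, ha, ← Nat.mul_add]
        exact Nat.mul_le_mul le_rfl this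
      · have := hC γ hγ
        rw [← ha, ← hb] at this
        have : b ≤ a := by exact_mod_cast this
        omega
    rw [hordP, ← ha, ← hb]
    have h1 := MF.one_le_order_qExpansion_slash_cuspForm F γ
    refine lt_of_lt_of_le ?_ (add_le_add le_rfl h1)
    exact_mod_cast (show b < a + N * D + 1 by omega)
  obtain ⟨H, hH'⟩ := exists_cuspForm_mul_eq (k := (D : ℤ) * 12 + 2) (Subgroup.map_mono le_top |>.trans
      (by rw [MonoidHom.range_eq_map]))
    (show ((D : ℤ) * 12 + 2) + k = k + (D : ℤ) * 12 + 2 by ring) P B hB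
    (fun τ => by
      rw [meromorphicOrderAt_eq_ordAtH (ModularFormClass.holo B) (mform_coe_ne_zero hB),
        meromorphicOrderAt_eq_ordAtH (ModularFormClass.holo P) (mform_coe_ne_zero hP0)]
      refine WithTop.coe_le_coe.mpr ((hH τ).trans ?_)
      rw [hP, hAD, ModularForm.coe_mul, ordAtH_mul (ModularFormClass.holo _) (ModularFormClass.holo _)
        (mform_coe_ne_zero hAD0) (mform_coe_ne_zero hF'0), ModularForm.coe_mul,
        ordAtH_mul (ModularFormClass.holo _) (ModularFormClass.holo _) (mform_coe_ne_zero hA)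
        (mform_coe_ne_zero hD0), add_assoc]
      exact le_add_of_nonneg_right (add_nonneg (Int.natCast_nonneg _) (Int.natCast_nonneg _)))
    (fun γ => ⟨eventually_ne_zero_atImInfty natCast_pos_real (periodic_slash_gamma0 _ γ)
        (analyticAt_cuspFunction_slash_gamma0 _ γ)
        (qExpansion_slash_ne_zero _ (mform_coe_ne_zero hB) γ),
      tendsto_div_atImInfty_zero natCast_pos_real (periodic_slash_gamma0 _ γ)
        (analyticAt_cuspFunction_slash_gamma0 _ γ) (periodic_slash_gamma0 _ γ)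
        (analyticAt_cuspFunction_slash_gamma0 _ γ) (hkey γ)⟩)
  set Hm : MForm N ((D : ℤ) * 12 + 2) := ModularFormClass.modularForm H with hHm
  have hHB : (Hm : ℍ → ℂ) * ⇑B = ⇑P := funext hH'
  have hHm0 : Hm ≠ 0 := fun h => mform_coe_ne_zero hP0 (by rw [← hHB, h]; exact zero_mul _)
  have hordH : ∀ γ : SL(2, ℤ), γ ∉ Gamma0 N → ∀ i ≤ N * D,
      (qExpansion (N : ℝ) (⇑Hm ∣[(D : ℤ) * 12 + 2] γ)).coeff i = 0 := by
    intro γ hγ i hi
    refine PowerSeries.coeff_of_lt_order i (lt_of_le_of_lt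
      (show (i : ℕ∞) ≤ ((N * D : ℕ) : ℕ∞) by exact_mod_cast hi) ?_)
    obtain ⟨b, hb⟩ := ENat.ne_top_iff_exists.mp (PowerSeries.order_eq_top.not.mpr
      (qExpansion_slash_ne_zero B (mform_coe_ne_zero hB) γ))
    obtain ⟨h, hh⟩ := ENat.ne_top_iff_exists.mp (PowerSeries.order_eq_top.not.mpr
      (qExpansion_slash_ne_zero Hm (mform_coe_ne_zero hHm0) γ))
    have h1 := hordP γ
    rw [← hHB, show k + (D : ℤ) * 12 + 2 = ((D : ℤ) * 12 + 2) + k by ring,
      order_qExpansion_slash_mul, ← hh, ← hb] at h1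
    rw [← hh]
    have h2 := hC γ hγ
    rw [← hb] at h2
    have h3 : (b : ℕ∞) + ((N * D : ℕ) : ℕ∞) + 1 ≤ (h : ℕ∞) + b :=
      h1 ▸ add_le_add (add_le_add h2 le_rfl) (MF.one_le_order_qExpansion_slash_cuspForm F γ)
    have h4 : b + N * D + 1 ≤ h + b := by exact_mod_cast h3
    exact_mod_cast (show N * D < h by omega)
  set G : ModularForm 𝒮ℒ ((D : ℤ) * 12 + 2) := ModularForm.trace 𝒮ℒ Hm with hG
  have hcoeff : ∀ i ≤ D, (qExpansion 1 G).coeff i = (qExpansion 1 Hm).coeff i := by
    intro i hi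
    have hsum : (G : ℍ → ℂ) = ∑ q : HolCrit.Cosets N, slashQ Hm q := by
      rw [hG, ModularForm.coe_trace]
      exact Finset.sum_congr (by ext; simp) fun _ _ => rfl
    have h1 : (qExpansion (N : ℝ) G).coeff (N * i) = (qExpansion (N : ℝ) Hm).coeff (N * i) := by
      rw [hsum, (analyticAt_sum_slashQ Hm Finset.univ).2, map_sum]
      refine (Finset.sum_eq_single (QuotientGroup.mk (1 : 𝒮ℒ) : HolCrit.Cosets N) (fun q _ hq => ?_)
        fun h => absurd (Finset.mem_univ _) h).trans (by erw [slashQ_one])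
      obtain ⟨γ, hγ, he⟩ := exists_slashQ_eq_notMem Hm q hq
      rw [he]
      exact hordH γ hγ _ (Nat.mul_le_mul le_rfl hi)
    rwa [coeff_qExpansion_natCast (coe_levelOne_mem_qFunctions G),
      coeff_qExpansion_natCast (coe_mem_qFunctions Hm), if_pos (dvd_mul_right _ _),
      if_pos (dvd_mul_right _ _), Nat.mul_div_cancel_left _ (NeZero.pos N)] at h1
  have hzero := coeff_zero_div_discriminant_pow D (by ring) G
  rw [qL, coeff_zero_div_discriminant_congr hcoeff, ← qL] at hzero
  have hB' : qL B ≠ 0 := mt (qL_mform_eq_zero_iff B).mp hB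
  have hmul : qL Hm * qL B = qL A * qL ModularForm.discriminant ^ D * qL F' := by
    rw [← qL_mul (coe_mem_qFunctions Hm) (coe_mem_qFunctions B), hHB, hPcoe,
      qL_mul (mul_mem (coe_mem_qFunctions A) (pow_mem mem_qFunctions_discriminant D))
        (coe_mem_qFunctions F'),
      qL_mul (coe_mem_qFunctions A) (pow_mem mem_qFunctions_discriminant D),
      qL_pow mem_qFunctions_discriminant D]
  rw [show qL A / qL B * qL F = qL Hm / qL ModularForm.discriminant ^ D by
    rw [div_mul_eq_mul_div, div_eq_div_iff hB' (pow_ne_zero _ qL_discriminant_ne_zero), hmul,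
      show qL F' = qL F from rfl]
    ring]
  exact hzero

end Fermat.Agent.Mazur.Immersion
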