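import Mathlib

/-!
# Multisets of roots of `X ^ d = c`
-/

set_option autoImplicit false

noncomputable section

namespace Fermat.Agent.Mazur.Immersion

open Polynomial

variable {K : Type*} [Field K] [IsAlgClosed K]

theorem card_nthRoots_eq (n : ℕ) (c : K) : Multiset.card (nthRoots n c) = n := by
  rw [nthRoots, IsAlgClosed.card_roots_eq_natDegree, natDegree_X_pow_sub_C]

theorem bind_nthRoots {d ℓ : ℕ} (hd : d ≠ 0) (hℓ : ℓ ≠ 0) (c : K) :
    (nthRoots d c).bind (nthRoots ℓ) = nthRoots (d * ℓ) c := by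
  have hprod : ((nthRoots d c).map fun w => (X : K[X]) ^ ℓ - C w).prod = X ^ (d * ℓ) - C c := by
    have h := prod_multiset_X_sub_C_of_monic_of_roots_card_eq
      (monic_X_pow_sub_C c hd) (IsAlgClosed.card_roots_eq_natDegree (p := X ^ d - C c))
    have h2 := congrArg (fun p : K[X] => p.comp (X ^ ℓ)) h
    simp only [multiset_prod_comp, Multiset.map_map, Function.comp_def, sub_comp, X_comp,
      C_comp, pow_comp] at h2
    rw [← pow_mul, mul_comm ℓ d] at h2
    exact h2
  have h0 : (0 : K[X]) ∉ (nthRoots d c).map fun w => (X : K[X]) ^ ℓ - C w := by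
    intro h
    obtain ⟨w, -, hw⟩ := Multiset.mem_map.mp h
    exact (monic_X_pow_sub_C w hℓ).ne_zero hw
  rw [nthRoots.eq_def (d * ℓ) c, ← hprod, roots_multiset_prod _ h0, Multiset.bind_map]
  exact Multiset.bind_congr fun w _ => rfl

theorem map_pow_nthRoots_mul {e ℓ : ℕ} (he : e ≠ 0) (hℓ : ℓ ≠ 0) (c : K) :
    (nthRoots (e * ℓ) c).map (· ^ ℓ) = ℓ • nthRoots e c := by
  rw [← bind_nthRoots he hℓ, Multiset.map_bind]
  have h : ∀ w ∈ nthRoots e c, (nthRoots ℓ w).map (· ^ ℓ) = Multiset.replicate ℓ w := by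
    intro w _
    refine Multiset.eq_replicate.mpr ⟨?_, fun x hx => ?_⟩
    · rw [Multiset.card_map, card_nthRoots_eq]
    · obtain ⟨v, hv, rfl⟩ := Multiset.mem_map.mp hx
      exact (mem_nthRoots (Nat.pos_of_ne_zero hℓ)).mp hv
  rw [Multiset.bind_congr h]
  induction (nthRoots e c) using Multiset.induction_on with
  | empty => simp
  | cons a s ih => rw [Multiset.cons_bind, ih, ← Multiset.singleton_add, nsmul_add,
      Multiset.nsmul_singleton]

theorem map_pow_nthRoots_of_coprime [CharZero K] {d ℓ : ℕ} (hd : d ≠ 0) (hℓ : ℓ ≠ 0)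
    (hcop : Nat.Coprime ℓ d) (c : K) : (nthRoots d c).map (· ^ ℓ) = nthRoots d (c ^ ℓ) := by
  rcases eq_or_ne c 0 with rfl | hc
  · have h0 : nthRoots d (0 : K) = Multiset.replicate d 0 := by
      refine Multiset.eq_replicate.mpr ⟨card_nthRoots_eq d 0, fun x hx => ?_⟩
      exact (pow_eq_zero_iff hd).mp ((mem_nthRoots (Nat.pos_of_ne_zero hd)).mp hx)
    rw [zero_pow hℓ, h0, Multiset.map_replicate, zero_pow hℓ]
  · have hsep : ∀ b : K, b ≠ 0 → (nthRoots d b).Nodup := fun b hb => by
      rw [nthRoots]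
      exact nodup_roots (separable_X_pow_sub_C b (Nat.cast_ne_zero.mpr hd) hb)
    refine Multiset.eq_of_le_of_card_le ?_ ?_
    · rw [Multiset.le_iff_subset (Multiset.Nodup.map_on (fun v hv w hw h => ?_) (hsep c hc))]
      · intro x hx
        obtain ⟨v, hv, rfl⟩ := Multiset.mem_map.mp hx
        rw [mem_nthRoots (Nat.pos_of_ne_zero hd)] at hv ⊢
        rw [← pow_mul, mul_comm, pow_mul, hv]
      · rw [mem_nthRoots (Nat.pos_of_ne_zero hd)] at hv hw
        have hw0 : w ≠ 0 := fun h0 => hc (by rw [← hw, h0, zero_pow hd])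
        have h1 : (v / w) ^ ℓ = 1 := by rw [div_pow, h, div_self (pow_ne_zero _ hw0)]
        have h2 : (v / w) ^ d = 1 := by rw [div_pow, hv, hw, div_self hc]
        have := (pow_gcd_eq_one).mpr ⟨h1, h2⟩
        rw [hcop, pow_one] at this
        exact (div_eq_one_iff_eq hw0).mp this
    · rw [card_nthRoots_eq, Multiset.card_map, card_nthRoots_eq]

end Fermat.Agent.Mazur.Immersion
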