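import Fermat.Agent.Mazur.Immersion.Subst
import Fermat.Agent.Mazur.Immersion.Closedness
import Fermat.Agent.Mazur.Immersion.RootSets

/-!
# Series with prescribed zeros in the disc

An integral series congruent to `γ X ^ D`, vanishing at the roots of the `X ^ d = s ^ a`, has
`D - i` coefficient congruent to `-γ s #{(1, i)}` modulo `s 𝔪`.
-/

set_option autoImplicit false
set_option linter.unusedSectionVars false

noncomputable section

namespace Fermat.Agent.Mazur.Immersion

open PowerSeries Finset.HasAntidiagonal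

variable {K : Type*} [NormedField K] [IsUltrametricDist K] [CompleteSpace K]

theorem muAt_ofPS_xSub {u a : K} (hu : ‖u‖ < 1) (ha : ‖a‖ < 1) [DecidableEq K] :
    muAt u (ofPS (xSub a)) = if u = a then 1 else 0 := by
  split_ifs with h
  · subst h
    exact (hasMu_xSub hu).muAt_eq hu
  · refine (hasMu_of_valAt_ne_zero (regularAt_ofPS u (intSeries_xSub ha)) ?_).muAt_eq hu
    rw [valAt_ofPS hu (intSeries_xSub ha), evalAt_xSub hu a ha]
    exact sub_ne_zero.mpr h

/-- Splitting off prescribed zeros. -/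
theorem exists_eq_prod_xSub_mul [DecidableEq K] (R : Multiset K) :
    ∀ {G : K⟦X⟧}, IntSeries G → G ≠ 0 → (∀ u ∈ R, ‖u‖ < 1) →
      (∀ u ∈ R, (R.count u : ℤ) ≤ muAt u (ofPS G)) →
      ∃ U, IntSeries U ∧ G = (R.map xSub).prod * U := by
  induction R using Multiset.induction_on with
  | empty => exact fun {G} hG _ _ _ => ⟨G, hG, by simp⟩
  | cons a T ih =>
    intro G hG hG0 hdisc hcount
    have ha := hdisc a (Multiset.mem_cons_self _ _)
    have hev : evalAt a G = 0 := by
      by_contra hne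
      rw [← valAt_ofPS ha hG] at hne
      have h := hcount a (Multiset.mem_cons_self _ _)
      rw [(valAt_ne_zero_iff ha (regularAt_ofPS a hG) (ofPS_ne_zero hG0)).mp hne,
        Multiset.count_cons_self] at h
      omega
    obtain ⟨G₁, hG₁, rfl⟩ : ∃ G₁, IntSeries G₁ ∧ G = xSub a * G₁ := by
      refine ⟨divXSub a G, intSeries_divXSub ha hG, ?_⟩
      conv_lhs => rw [← evalAt_add_xSub_mul_divXSub ha hG, hev, map_zero, zero_add]
    have hG₁0 : G₁ ≠ 0 := fun h => hG0 (by rw [h, mul_zero])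
    have hmu : ∀ u, ‖u‖ < 1 →
        muAt u (ofPS (xSub a * G₁)) = (if u = a then 1 else 0) + muAt u (ofPS G₁) := by
      intro u hu
      rw [map_mul, muAt_mul hu (regularAt_ofPS u (intSeries_xSub ha)).isBdd
        (regularAt_ofPS u hG₁).isBdd (ofPS_xSub_ne_zero a) (ofPS_ne_zero hG₁0),
        muAt_ofPS_xSub hu ha]
    obtain ⟨U, hU, rfl⟩ := ih hG₁ hG₁0 (fun u hu => hdisc u (Multiset.mem_cons_of_mem hu))
      (fun u hu => by
        have h := hcount u (Multiset.mem_cons_of_mem hu)
        rw [hmu u (hdisc u (Multiset.mem_cons_of_mem hu)), Multiset.count_cons] at h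
        split_ifs at h with he
        · push_cast at h
          linarith
        · simpa using h)
    exact ⟨U, hU, by rw [Multiset.map_cons, Multiset.prod_cons, mul_assoc]⟩

/-- The product of `X ^ d - s ^ a`. -/
def msW (s : K) (M : Multiset (ℕ × ℕ)) : K⟦X⟧ :=
  (M.map fun p => (X : K⟦X⟧) ^ p.2 - C (s ^ p.1)).prod

theorem prod_map_xSub_nthRoots [IsAlgClosed K] {d : ℕ} (hd : d ≠ 0) (c : K) :
    ((Polynomial.nthRoots d c).map xSub).prod = (X : K⟦X⟧) ^ d - C c := by
  have h := congrArg (Polynomial.coeToPowerSeries.ringHom (R := K))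
    (Polynomial.prod_multiset_X_sub_C_of_monic_of_roots_card_eq
      (Polynomial.monic_X_pow_sub_C c hd)
      (IsAlgClosed.card_roots_eq_natDegree (p := Polynomial.X ^ d - Polynomial.C c)))
  rw [map_multiset_prod, Multiset.map_map] at h
  rw [show (xSub : K → K⟦X⟧) = fun v => X - C v from rfl]
  simpa [Polynomial.nthRoots, Function.comp_def] using h

theorem prod_map_xSub_bind [IsAlgClosed K] (s : K) {M : Multiset (ℕ × ℕ)}
    (hM : ∀ p ∈ M, 1 ≤ p.2) :
    ((M.bind fun p => Polynomial.nthRoots p.2 (s ^ p.1)).map xSub).prod = msW s M := by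
  induction M using Multiset.induction_on with
  | empty => simp [msW]
  | cons p M ih =>
    rw [Multiset.cons_bind, Multiset.map_add, Multiset.prod_add,
      prod_map_xSub_nthRoots (by have := hM p (Multiset.mem_cons_self _ _); omega),
      ih fun r hr => hM r (Multiset.mem_cons_of_mem hr), msW, msW, Multiset.map_cons,
      Multiset.prod_cons]

/-- The part of `msW` linear in `s`. -/
def msLin (M : Multiset (ℕ × ℕ)) : K⟦X⟧ :=
  -(M.map fun p => if p.1 = 1 then (X : K⟦X⟧) ^ ((M.map Prod.snd).sum - p.2) else 0).sum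

theorem intSeries_msLin (M : Multiset (ℕ × ℕ)) : IntSeries (msLin M : K⟦X⟧) := by
  refine IntSeries.neg (mem_intSubring.mp (multiset_sum_mem _ fun g hg => ?_))
  obtain ⟨p, -, rfl⟩ := Multiset.mem_map.mp hg
  split_ifs
  · exact IntSeries.X.pow _
  · exact IntSeries.zero

theorem msLin_cons (p : ℕ × ℕ) (M : Multiset (ℕ × ℕ)) :
    (msLin (p ::ₘ M) : K⟦X⟧) =
      X ^ p.2 * msLin M - if p.1 = 1 then X ^ (M.map Prod.snd).sum else 0 := by
  have hcongr : M.map (fun r : ℕ × ℕ =>
      if r.1 = 1 then (X : K⟦X⟧) ^ (p.2 + (M.map Prod.snd).sum - r.2) else 0) =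
      M.map fun r => X ^ p.2 * if r.1 = 1 then X ^ ((M.map Prod.snd).sum - r.2) else 0 := by
    refine Multiset.map_congr rfl fun r hr => ?_
    have hle : r.2 ≤ (M.map Prod.snd).sum :=
      Multiset.le_sum_of_mem (Multiset.mem_map_of_mem _ hr)
    rw [mul_ite, mul_zero, ← pow_add, Nat.add_sub_assoc hle]
  rw [msLin, msLin, Multiset.map_cons, Multiset.map_cons, Multiset.sum_cons, Multiset.sum_cons,
    mul_neg, hcongr, Multiset.sum_map_mul_left, Nat.add_sub_cancel_left, neg_add]
  ring

theorem exists_msW_eq (s : K) (hs : ‖s‖ < 1) {M : Multiset (ℕ × ℕ)} (hM : ∀ p ∈ M, 1 ≤ p.1) :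
    ∃ R : K⟦X⟧, IntSeries R ∧
      msW s M = X ^ (M.map Prod.snd).sum + C s * msLin M + C s ^ 2 * R := by
  have hsC : IntSeries (C s) := IntSeries.C hs.le
  induction M using Multiset.induction_on with
  | empty => exact ⟨0, IntSeries.zero, by simp [msW, msLin]⟩
  | cons p M ih =>
    obtain ⟨R, hR, he⟩ := ih fun r hr => hM r (Multiset.mem_cons_of_mem hr)
    have hW : msW s (p ::ₘ M) = (X ^ p.2 - C (s ^ p.1)) * msW s M := by
      rw [msW, msW, Multiset.map_cons, Multiset.prod_cons]
    rw [hW, he, msLin_cons, Multiset.map_cons, Multiset.sum_cons, map_pow]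
    obtain h1 | ⟨a, ha⟩ : p.1 = 1 ∨ ∃ a, p.1 = a + 2 := by
      rcases Nat.lt_or_ge p.1 2 with h | h
      · exact Or.inl (by have := hM p (Multiset.mem_cons_self _ _); omega)
      · exact Or.inr ⟨p.1 - 2, by omega⟩
    · refine ⟨X ^ p.2 * R - msLin M - C s * R,
        (((IntSeries.X.pow _).mul hR).sub (intSeries_msLin M)).sub (hsC.mul hR), ?_⟩
      rw [if_pos h1, h1, pow_one, pow_add]
      ring
    · refine ⟨X ^ p.2 * R - C s ^ a * (X ^ (M.map Prod.snd).sum + C s * msLin M + C s ^ 2 * R),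
        ((IntSeries.X.pow _).mul hR).sub ((hsC.pow a).mul
          (((IntSeries.X.pow _).add (hsC.mul (intSeries_msLin M))).add ((hsC.pow 2).mul hR))), ?_⟩
      rw [if_neg (show p.1 ≠ 1 by omega), ha]
      ring

theorem norm_coeff_mul_lt {a b : K⟦X⟧} (ha : IntSeries a) (hb : ∀ n, ‖coeff n b‖ < 1) (n : ℕ) :
    ‖coeff n (a * b)‖ < 1 := by
  rw [coeff_mul]
  obtain ⟨i, -, hle⟩ := IsUltrametricDist.exists_norm_finsetSum_le_of_nonempty
    (t := antidiagonal n) ⟨(0, n), mem_antidiagonal.mpr (zero_add n)⟩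
    fun p => coeff p.1 a * coeff p.2 b
  refine hle.trans_lt ?_
  rw [norm_mul]
  exact (mul_le_of_le_one_left (norm_nonneg _) (ha _)).trans_lt (hb _)

/-- The congruence behind the formal immersion. -/
theorem norm_sum_lt_of_vanishing {s γ : K} (hs : ‖s‖ < 1) (hs0 : s ≠ 0) (hγ : ‖γ‖ = 1)
    {M : Multiset (ℕ × ℕ)} (hM : ∀ p ∈ M, 1 ≤ p.1 ∧ 1 ≤ p.2) {G U : K⟦X⟧}
    (hU : IntSeries U) (hG : G = msW s M * U)
    (hcongr : ∀ k, ‖coeff k G - coeff k (C γ * X ^ (M.map Prod.snd).sum)‖ < 1)
    (A : ℕ → K) (hA : ∀ i, ‖A i‖ ≤ 1)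
    (hsum : ∑ i ∈ Finset.Icc 1 (M.map Prod.snd).sum,
      A i * coeff ((M.map Prod.snd).sum - i) G = 0) :
    ‖(M.map fun p => if p.1 = 1 then A p.2 else 0).sum‖ < 1 := by
  obtain ⟨R, hR, hW⟩ := exists_msW_eq s hs fun p hp => (hM p hp).1
  set D := (M.map Prod.snd).sum with hDdef
  have hinner : IntSeries (msLin M * U + C s * (R * U)) :=
    ((intSeries_msLin M).mul hU).add ((IntSeries.C hs.le).mul (hR.mul hU))
  have hGeq : G = X ^ D * U + C s * (msLin M * U + C s * (R * U)) := by
    rw [hG, hW]; ring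
  have hUγ : ∀ n, ‖coeff n (U - C γ)‖ < 1 := by
    intro n
    have h1 := hcongr (n + D)
    rw [hGeq, map_add, coeff_X_pow_mul, coeff_C_mul, coeff_C_mul, coeff_X_pow] at h1
    have h2 : ‖s * coeff (n + D) (msLin M * U + C s * (R * U))‖ < 1 := by
      rw [norm_mul]
      exact (mul_le_of_le_one_right (norm_nonneg _) (hinner _)).trans_lt hs
    have h3 : coeff n (U - C γ) =
        (coeff n U + s * coeff (n + D) (msLin M * U + C s * (R * U)) -
          γ * if n + D = D then 1 else 0) -
        s * coeff (n + D) (msLin M * U + C s * (R * U)) := by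
      rw [map_sub, coeff_C]
      rcases eq_or_ne n 0 with rfl | hn
      · simp only [zero_add, if_true]
        ring
      · rw [if_neg hn, if_neg (by omega)]
        ring
    rw [h3, sub_eq_add_neg]
    exact (IsUltrametricDist.norm_add_le_max _ _).trans_lt (max_lt h1 (by rw [norm_neg]; exact h2))
  have hlow : ∀ i ∈ Finset.Icc 1 D, ∃ δ : K, ‖δ‖ < 1 ∧
      coeff (D - i) G = s * (γ * coeff (D - i) (msLin M) + δ) := by
    intro i hi
    rw [Finset.mem_Icc] at hi
    refine ⟨coeff (D - i) (msLin M * (U - C γ)) + s * coeff (D - i) (R * U),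
      (IsUltrametricDist.norm_add_le_max _ _).trans_lt
        (max_lt (norm_coeff_mul_lt (intSeries_msLin M) hUγ _) ?_), ?_⟩
    · rw [norm_mul]
      exact (mul_le_of_le_one_right (norm_nonneg _) (hR.mul hU _)).trans_lt hs
    · rw [hGeq, map_add, coeff_X_pow_mul', if_neg (by omega), zero_add, coeff_C_mul, map_add,
        coeff_C_mul, mul_sub, map_sub, coeff_mul_C]
      ring
  choose! δ hδ hδeq using hlow
  rw [Finset.sum_congr rfl (g := fun i => s * (γ * (A i * coeff (D - i) (msLin M)) + A i * δ i))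
    fun i hi => by rw [hδeq i hi]; ring, ← Finset.mul_sum, Finset.sum_add_distrib,
    ← Finset.mul_sum, mul_eq_zero] at hsum
  have hL : ∑ i ∈ Finset.Icc 1 D, A i * coeff (D - i) (msLin M) =
      -(M.map fun p => if p.1 = 1 then A p.2 else 0).sum := by
    simp only [msLin, map_neg, map_multiset_sum, mul_neg, Finset.sum_neg_distrib,
      Multiset.map_map, Function.comp_def, ← hDdef, ← Multiset.sum_map_mul_left]
    rw [neg_inj, ← Multiset.sum_map_sum]
    refine congrArg Multiset.sum (Multiset.map_congr rfl fun p hp => ?_)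
    have hle : p.2 ≤ D := Multiset.le_sum_of_mem (Multiset.mem_map_of_mem _ hp)
    by_cases h1 : p.1 = 1
    · simp only [if_pos h1, coeff_X_pow, mul_ite, mul_one, mul_zero]
      rw [Finset.sum_eq_single p.2]
      · rw [if_pos rfl]
      · intro i hi hne
        rw [Finset.mem_Icc] at hi
        rw [if_neg (by omega)]
      · intro hn
        exact absurd (Finset.mem_Icc.mpr ⟨(hM p hp).2, hle⟩) hn
    · simp [if_neg h1]
  have h0 := hsum.resolve_left hs0
  rw [hL, mul_neg, neg_add_eq_zero] at h0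
  have h1 := congrArg norm h0
  rw [norm_mul, hγ, one_mul] at h1
  rw [h1]
  rcases (Finset.Icc 1 D).eq_empty_or_nonempty with he | hne
  · simp [he]
  obtain ⟨i, hi, hle⟩ := IsUltrametricDist.exists_norm_finsetSum_le_of_nonempty hne
    fun i => A i * δ i
  refine hle.trans_lt ?_
  rw [norm_mul]
  exact (mul_le_of_le_one_left (norm_nonneg _) (hA i)).trans_lt (hδ i hi)

end Fermat.Agent.Mazur.Immersion
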