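import Fermat.Agent.Mazur.Immersion.PowerEval
import Fermat.Prelude.Def_ModularCurve_X0
import Fermat.Prelude.Def_ModularCurve_LaurentCoeff

/-!
# Germs of bounded Laurent series at a point of the open disc

A Laurent series which is a quotient of integral series has, at each `u` with `‖u‖ < 1`, a
multiplicity and, when this is nonnegative, a value.
-/

set_option autoImplicit false
set_option linter.unusedSectionVars false

noncomputable section

namespace Fermat.Agent.Mazur.Immersion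

open PowerSeries

variable {K : Type*} [NormedField K] [IsUltrametricDist K] [CompleteSpace K]

/-- A power series as a Laurent series. -/
abbrev ofPS : K⟦X⟧ →+* LaurentSeries K := HahnSeries.ofPowerSeries ℤ K

theorem ofPS_injective : Function.Injective (ofPS : K⟦X⟧ → LaurentSeries K) :=
  HahnSeries.ofPowerSeries_injective

theorem ofPS_ne_zero {b : K⟦X⟧} (hb : b ≠ 0) : ofPS b ≠ 0 :=
  (map_ne_zero_iff _ ofPS_injective).mpr hb

theorem ne_zero_of_evalAt_ne_zero {u : K} {b : K⟦X⟧} (hb : evalAt u b ≠ 0) : b ≠ 0 :=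
  fun h => hb (by rw [h, evalAt_zero_series])

/-- A quotient of integral series. -/
def IsBdd (f : LaurentSeries K) : Prop :=
  ∃ a b : K⟦X⟧, IntSeries a ∧ IntSeries b ∧ b ≠ 0 ∧ f * ofPS b = ofPS a

/-- A quotient of integral series whose denominator does not vanish at `u`. -/
def RegularAt (u : K) (f : LaurentSeries K) : Prop :=
  ∃ a b : K⟦X⟧, IntSeries a ∧ IntSeries b ∧ evalAt u b ≠ 0 ∧ f * ofPS b = ofPS a

theorem RegularAt.isBdd {u : K} {f : LaurentSeries K} (h : RegularAt u f) : IsBdd f :=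
  let ⟨a, b, ha, hb, h0, he⟩ := h
  ⟨a, b, ha, hb, ne_zero_of_evalAt_ne_zero h0, he⟩

theorem regularAt_ofPS (u : K) {a : K⟦X⟧} (ha : IntSeries a) : RegularAt u (ofPS a) :=
  ⟨a, 1, ha, IntSeries.one, by simp, by simp⟩

theorem exists_pair_const (c : K) :
    ∃ x y : K, ‖x‖ ≤ 1 ∧ ‖y‖ ≤ 1 ∧ y ≠ 0 ∧ c * y = x := by
  rcases le_or_gt ‖c‖ 1 with h | h
  · exact ⟨c, 1, h, by simp, one_ne_zero, mul_one c⟩
  · have hc : c ≠ 0 := fun h0 => by simp [h0] at h; linarith
    exact ⟨1, c⁻¹, by simp, by rw [norm_inv]; exact inv_le_one_of_one_le₀ h.le, inv_ne_zero hc,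
      mul_inv_cancel₀ hc⟩

theorem regularAt_single (u c : K) : RegularAt u (HahnSeries.single (0 : ℤ) c) := by
  obtain ⟨x, y, hx, hy, hy0, he⟩ := exists_pair_const c
  refine ⟨C x, C y, IntSeries.C hx, IntSeries.C hy, by simpa using hy0, ?_⟩
  rw [HahnSeries.ofPowerSeries_C, HahnSeries.ofPowerSeries_C, ← he]
  exact HahnSeries.single_mul_single.trans (by simp [HahnSeries.C_apply])

theorem IsBdd.add {f g : LaurentSeries K} (hf : IsBdd f) (hg : IsBdd g) : IsBdd (f + g) := by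
  obtain ⟨a, b, ha, hb, h0, he⟩ := hf
  obtain ⟨a', b', ha', hb', h0', he'⟩ := hg
  refine ⟨a * b' + a' * b, b * b', (ha.mul hb').add (ha'.mul hb), hb.mul hb', mul_ne_zero h0 h0', ?_⟩
  rw [map_add, map_mul, map_mul, map_mul, ← he, ← he']
  ring

theorem IsBdd.mul {f g : LaurentSeries K} (hf : IsBdd f) (hg : IsBdd g) : IsBdd (f * g) := by
  obtain ⟨a, b, ha, hb, h0, he⟩ := hf
  obtain ⟨a', b', ha', hb', h0', he'⟩ := hg
  refine ⟨a * a', b * b', ha.mul ha', hb.mul hb', mul_ne_zero h0 h0', ?_⟩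
  rw [map_mul, map_mul, ← he, ← he']
  ring

theorem IsBdd.neg {f : LaurentSeries K} (hf : IsBdd f) : IsBdd (-f) := by
  obtain ⟨a, b, ha, hb, h0, he⟩ := hf
  exact ⟨-a, b, ha.neg, hb, h0, by rw [map_neg, ← he, neg_mul]⟩

theorem IsBdd.inv {f : LaurentSeries K} (hf : IsBdd f) : IsBdd f⁻¹ := by
  rcases eq_or_ne f 0 with rfl | hne
  · exact ⟨0, 1, IntSeries.zero, IntSeries.one, one_ne_zero, by simp⟩
  obtain ⟨a, b, ha, hb, h0, he⟩ := hf
  refine ⟨b, a, hb, ha, fun h => ?_, ?_⟩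
  · rw [h, map_zero, mul_eq_zero] at he
    exact he.elim hne (ofPS_ne_zero h0)
  · rw [← he, inv_mul_cancel_left₀ hne]

theorem RegularAt.add {u : K} (hu : ‖u‖ < 1) {f g : LaurentSeries K} (hf : RegularAt u f)
    (hg : RegularAt u g) : RegularAt u (f + g) := by
  obtain ⟨a, b, ha, hb, h0, he⟩ := hf
  obtain ⟨a', b', ha', hb', h0', he'⟩ := hg
  refine ⟨a * b' + a' * b, b * b', (ha.mul hb').add (ha'.mul hb), hb.mul hb', ?_, ?_⟩
  · rw [evalAt_mul hu hb hb']; exact mul_ne_zero h0 h0'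
  · rw [map_add, map_mul, map_mul, map_mul, ← he, ← he']
    ring

theorem RegularAt.mul {u : K} (hu : ‖u‖ < 1) {f g : LaurentSeries K} (hf : RegularAt u f)
    (hg : RegularAt u g) : RegularAt u (f * g) := by
  obtain ⟨a, b, ha, hb, h0, he⟩ := hf
  obtain ⟨a', b', ha', hb', h0', he'⟩ := hg
  refine ⟨a * a', b * b', ha.mul ha', hb.mul hb', ?_, ?_⟩
  · rw [evalAt_mul hu hb hb']; exact mul_ne_zero h0 h0'
  · rw [map_mul, map_mul, ← he, ← he']
    ring

theorem RegularAt.neg {u : K} {f : LaurentSeries K} (hf : RegularAt u f) : RegularAt u (-f) := by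
  obtain ⟨a, b, ha, hb, h0, he⟩ := hf
  exact ⟨-a, b, ha.neg, hb, h0, by rw [map_neg, ← he, neg_mul]⟩

open Classical in
/-- The value at `u` of a regular germ. -/
def valAt (u : K) (f : LaurentSeries K) : K :=
  if h : RegularAt u f then evalAt u h.choose / evalAt u h.choose_spec.choose else 0

theorem valAt_eq {u : K} (hu : ‖u‖ < 1) {f : LaurentSeries K} {a b : K⟦X⟧} (ha : IntSeries a)
    (hb : IntSeries b) (h0 : evalAt u b ≠ 0) (he : f * ofPS b = ofPS a) :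
    valAt u f = evalAt u a / evalAt u b := by
  have h : RegularAt u f := ⟨a, b, ha, hb, h0, he⟩
  rw [valAt, dif_pos h]
  have hs := h.choose_spec.choose_spec
  generalize h.choose_spec.choose = b' at hs ⊢
  generalize h.choose = a' at hs ⊢
  obtain ⟨ha', hb', h0', he'⟩ := hs
  rw [div_eq_div_iff h0' h0, ← evalAt_mul hu ha' hb, ← evalAt_mul hu ha hb']
  congr 1
  apply ofPS_injective
  rw [map_mul, map_mul, ← he', ← he]
  ring

theorem valAt_ofPS {u : K} (hu : ‖u‖ < 1) {a : K⟦X⟧} (ha : IntSeries a) :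
    valAt u (ofPS a) = evalAt u a := by
  rw [valAt_eq hu ha IntSeries.one (by simp) (by simp), evalAt_one, div_one]

@[simp]
theorem valAt_zero {u : K} (hu : ‖u‖ < 1) : valAt u (0 : LaurentSeries K) = 0 := by
  simpa using valAt_ofPS hu (IntSeries.zero (K := K))

theorem valAt_one {u : K} (hu : ‖u‖ < 1) : valAt u (1 : LaurentSeries K) = 1 := by
  simpa using valAt_ofPS hu (IntSeries.one (K := K))

theorem valAt_single {u : K} (hu : ‖u‖ < 1) (c : K) :
    valAt u (HahnSeries.single (0 : ℤ) c) = c := by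
  obtain ⟨x, y, hx, hy, hy0, he⟩ := exists_pair_const c
  rw [valAt_eq hu (IntSeries.C hx) (IntSeries.C hy) (by simpa using hy0), evalAt_C, evalAt_C, ← he,
    mul_div_cancel_right₀ c hy0]
  rw [HahnSeries.ofPowerSeries_C, HahnSeries.ofPowerSeries_C, ← he]
  exact HahnSeries.single_mul_single.trans (by simp [HahnSeries.C_apply])

theorem valAt_add {u : K} (hu : ‖u‖ < 1) {f g : LaurentSeries K} (hf : RegularAt u f)
    (hg : RegularAt u g) : valAt u (f + g) = valAt u f + valAt u g := by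
  obtain ⟨a, b, ha, hb, h0, he⟩ := hf
  obtain ⟨a', b', ha', hb', h0', he'⟩ := hg
  rw [valAt_eq hu ((ha.mul hb').add (ha'.mul hb)) (hb.mul hb')
      (by rw [evalAt_mul hu hb hb']; exact mul_ne_zero h0 h0')
      (by rw [map_add, map_mul, map_mul, map_mul, ← he, ← he']; ring),
    valAt_eq hu ha hb h0 he, valAt_eq hu ha' hb' h0' he',
    evalAt_add hu (ha.mul hb') (ha'.mul hb), evalAt_mul hu ha hb', evalAt_mul hu ha' hb,
    evalAt_mul hu hb hb']
  field_simp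

theorem valAt_mul {u : K} (hu : ‖u‖ < 1) {f g : LaurentSeries K} (hf : RegularAt u f)
    (hg : RegularAt u g) : valAt u (f * g) = valAt u f * valAt u g := by
  obtain ⟨a, b, ha, hb, h0, he⟩ := hf
  obtain ⟨a', b', ha', hb', h0', he'⟩ := hg
  rw [valAt_eq hu (ha.mul ha') (hb.mul hb')
      (by rw [evalAt_mul hu hb hb']; exact mul_ne_zero h0 h0')
      (by rw [map_mul, map_mul, ← he, ← he']; ring),
    valAt_eq hu ha hb h0 he, valAt_eq hu ha' hb' h0' he', evalAt_mul hu ha ha',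
    evalAt_mul hu hb hb', div_mul_div_comm]

theorem RegularAt.inv {u : K} (hu : ‖u‖ < 1) {f : LaurentSeries K} (hf : RegularAt u f)
    (h : valAt u f ≠ 0) : RegularAt u f⁻¹ ∧ valAt u f⁻¹ = (valAt u f)⁻¹ := by
  have hne : f ≠ 0 := fun h0 => h (by rw [h0, valAt_zero hu])
  obtain ⟨a, b, ha, hb, h0, he⟩ := hf
  rw [valAt_eq hu ha hb h0 he] at h ⊢
  have ha0 : evalAt u a ≠ 0 := fun h' => h (by rw [h', zero_div])
  have he' : f⁻¹ * ofPS a = ofPS b := by rw [← he, inv_mul_cancel_left₀ hne]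
  exact ⟨⟨b, a, hb, ha, ha0, he'⟩, by rw [valAt_eq hu hb ha ha0 he', inv_div]⟩

/-- `f` is `(X - u) ^ k` times a germ which is regular and nonzero at `u`. -/
def HasMu (u : K) (f : LaurentSeries K) (k : ℤ) : Prop :=
  ∃ g, RegularAt u g ∧ valAt u g ≠ 0 ∧ f = ofPS (xSub u) ^ k * g

theorem ofPS_xSub_ne_zero (u : K) : ofPS (xSub u) ≠ 0 := ofPS_ne_zero (xSub_ne_zero u)

theorem valAt_xSub {u : K} (hu : ‖u‖ < 1) : valAt u (ofPS (xSub u)) = 0 := by
  rw [valAt_ofPS hu (intSeries_xSub hu), evalAt_xSub hu u hu, sub_self]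

theorem regularAt_xSub_pow {u : K} (hu : ‖u‖ < 1) (n : ℕ) :
    RegularAt u (ofPS (xSub u) ^ n) := by
  rw [← map_pow]
  exact regularAt_ofPS u ((intSeries_xSub hu).pow n)

theorem valAt_xSub_pow_succ_mul {u : K} (hu : ‖u‖ < 1) (n : ℕ) {g : LaurentSeries K}
    (hg : RegularAt u g) : valAt u (ofPS (xSub u) ^ (n + 1) * g) = 0 := by
  rw [valAt_mul hu (regularAt_xSub_pow hu _) hg, pow_succ',
    valAt_mul hu (regularAt_ofPS u (intSeries_xSub hu)) (regularAt_xSub_pow hu _), valAt_xSub hu,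
    zero_mul, zero_mul]

theorem exists_hasMu {u : K} (hu : ‖u‖ < 1) {f : LaurentSeries K} (hf : IsBdd f) (hne : f ≠ 0) :
    ∃ k, HasMu u f k := by
  obtain ⟨a, b, ha, hb, h0, he⟩ := hf
  have ha0 : a ≠ 0 := fun h => (mul_ne_zero hne (ofPS_ne_zero h0)) (by rw [he, h, map_zero])
  obtain ⟨n, a', ha', hea, rfl⟩ := exists_xSub_pow_mul hu ha ha0
  obtain ⟨m, b', hb', heb, rfl⟩ := exists_xSub_pow_mul hu hb h0
  have hb0 := ofPS_ne_zero (ne_zero_of_evalAt_ne_zero heb)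
  refine ⟨(n : ℤ) - m, ofPS a' / ofPS b', ⟨a', b', ha', hb', heb, div_mul_cancel₀ _ hb0⟩, ?_, ?_⟩
  · rw [valAt_eq hu ha' hb' heb (div_mul_cancel₀ _ hb0)]
    exact div_ne_zero hea heb
  · rw [map_mul, map_mul, map_pow, map_pow] at he
    rw [zpow_sub₀ (ofPS_xSub_ne_zero u), zpow_natCast, zpow_natCast]
    field_simp [ofPS_xSub_ne_zero u, hb0]
    rw [← he]
    ring

theorem HasMu.unique {u : K} (hu : ‖u‖ < 1) {f : LaurentSeries K} {k k' : ℤ} (h : HasMu u f k)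
    (h' : HasMu u f k') : k = k' := by
  wlog hle : k ≤ k' generalizing k k'
  · exact (this h' h (le_of_not_ge hle)).symm
  obtain ⟨g, hg, hg0, rfl⟩ := h
  obtain ⟨g', hg', -, he⟩ := h'
  obtain ⟨d, rfl⟩ := Int.le.dest hle
  rw [zpow_add₀ (ofPS_xSub_ne_zero u), mul_assoc, zpow_natCast] at he
  have h1 := mul_left_cancel₀ (zpow_ne_zero k (ofPS_xSub_ne_zero u)) he
  rcases d with _ | d
  · simp
  · exact absurd (by rw [h1, valAt_xSub_pow_succ_mul hu d hg']) hg0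

theorem HasMu.ne_zero {u : K} (hu : ‖u‖ < 1) {f : LaurentSeries K} {k : ℤ} (h : HasMu u f k) :
    f ≠ 0 := by
  obtain ⟨g, -, hg0, rfl⟩ := h
  exact mul_ne_zero (zpow_ne_zero k (ofPS_xSub_ne_zero u)) fun h => hg0 (by rw [h, valAt_zero hu])

theorem HasMu.mul {u : K} (hu : ‖u‖ < 1) {f f' : LaurentSeries K} {k k' : ℤ} (h : HasMu u f k)
    (h' : HasMu u f' k') : HasMu u (f * f') (k + k') := by
  obtain ⟨g, hg, hg0, rfl⟩ := h
  obtain ⟨g', hg', hg0', rfl⟩ := h'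
  refine ⟨g * g', hg.mul hu hg', by rw [valAt_mul hu hg hg']; exact mul_ne_zero hg0 hg0', ?_⟩
  rw [zpow_add₀ (ofPS_xSub_ne_zero u)]
  ring

theorem HasMu.inv {u : K} (hu : ‖u‖ < 1) {f : LaurentSeries K} {k : ℤ} (h : HasMu u f k) :
    HasMu u f⁻¹ (-k) := by
  obtain ⟨g, hg, hg0, rfl⟩ := h
  obtain ⟨hi, hv⟩ := hg.inv hu hg0
  exact ⟨g⁻¹, hi, by rw [hv]; exact inv_ne_zero hg0, by rw [mul_inv, zpow_neg]⟩

theorem hasMu_of_valAt_ne_zero {u : K} {f : LaurentSeries K} (hf : RegularAt u f)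
    (h : valAt u f ≠ 0) : HasMu u f 0 :=
  ⟨f, hf, h, by rw [zpow_zero, one_mul]⟩

theorem hasMu_one {u : K} (hu : ‖u‖ < 1) : HasMu u (1 : LaurentSeries K) 0 :=
  hasMu_of_valAt_ne_zero (by simpa using regularAt_ofPS u (IntSeries.one (K := K)))
    (by rw [valAt_one hu]; exact one_ne_zero)

theorem hasMu_xSub {u : K} (hu : ‖u‖ < 1) : HasMu u (ofPS (xSub u)) 1 :=
  ⟨1, by simpa using regularAt_ofPS u (IntSeries.one (K := K)),
    by rw [valAt_one hu]; exact one_ne_zero, by rw [zpow_one, mul_one]⟩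

open Classical in
/-- The multiplicity of `f` at `u`. -/
def muAt (u : K) (f : LaurentSeries K) : ℤ :=
  if h : ∃ k, HasMu u f k then h.choose else 0

theorem HasMu.muAt_eq {u : K} (hu : ‖u‖ < 1) {f : LaurentSeries K} {k : ℤ} (h : HasMu u f k) :
    muAt u f = k := by
  have hex : ∃ k, HasMu u f k := ⟨k, h⟩
  rw [muAt, dif_pos hex]
  exact hex.choose_spec.unique hu h

theorem hasMu_muAt {u : K} (hu : ‖u‖ < 1) {f : LaurentSeries K} (hf : IsBdd f) (hne : f ≠ 0) :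
    HasMu u f (muAt u f) := by
  obtain ⟨k, hk⟩ := exists_hasMu hu hf hne
  rwa [hk.muAt_eq hu]

theorem muAt_mul {u : K} (hu : ‖u‖ < 1) {f g : LaurentSeries K} (hf : IsBdd f) (hg : IsBdd g)
    (hf0 : f ≠ 0) (hg0 : g ≠ 0) : muAt u (f * g) = muAt u f + muAt u g :=
  ((hasMu_muAt hu hf hf0).mul hu (hasMu_muAt hu hg hg0)).muAt_eq hu

theorem muAt_inv {u : K} (hu : ‖u‖ < 1) {f : LaurentSeries K} (hf : IsBdd f) (hf0 : f ≠ 0) :
    muAt u f⁻¹ = -muAt u f :=
  ((hasMu_muAt hu hf hf0).inv hu).muAt_eq hu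

theorem HasMu.regularAt {u : K} (hu : ‖u‖ < 1) {f : LaurentSeries K} {k : ℕ}
    (h : HasMu u f k) : RegularAt u f := by
  obtain ⟨g, hg, -, rfl⟩ := h
  rw [zpow_natCast]
  exact (regularAt_xSub_pow hu k).mul hu hg

theorem regularAt_iff_muAt {u : K} (hu : ‖u‖ < 1) {f : LaurentSeries K} (hf : IsBdd f)
    (hne : f ≠ 0) : RegularAt u f ↔ 0 ≤ muAt u f := by
  refine ⟨fun hr => ?_, fun h => ?_⟩
  · by_contra hlt
    obtain ⟨g, hg, hg0, he⟩ := hasMu_muAt hu hf hne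
    obtain ⟨d, hd⟩ : ∃ d : ℕ, muAt u f = -((d : ℤ) + 1) := ⟨(-muAt u f - 1).toNat, by omega⟩
    rw [hd, zpow_neg, ← Nat.cast_succ, zpow_natCast] at he
    refine hg0 ?_
    have : g = ofPS (xSub u) ^ (d + 1) * f := by
      rw [he, mul_inv_cancel_left₀ (pow_ne_zero _ (ofPS_xSub_ne_zero u))]
    rw [this, valAt_xSub_pow_succ_mul hu d hr]
  · obtain ⟨k, hk⟩ := Int.eq_ofNat_of_zero_le h
    exact (hk ▸ hasMu_muAt hu hf hne : HasMu u f k).regularAt hu

theorem valAt_ne_zero_iff {u : K} (hu : ‖u‖ < 1) {f : LaurentSeries K} (hr : RegularAt u f)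
    (hne : f ≠ 0) : valAt u f ≠ 0 ↔ muAt u f = 0 := by
  refine ⟨fun h => (hasMu_of_valAt_ne_zero hr h).muAt_eq hu, fun h => ?_⟩
  obtain ⟨g, -, hg0, he⟩ := hasMu_muAt hu hr.isBdd hne
  rw [h, zpow_zero, one_mul] at he
  rwa [he]

theorem regularAt_or_inv {u : K} (hu : ‖u‖ < 1) {f : LaurentSeries K} (hf : IsBdd f) :
    RegularAt u f ∨ RegularAt u f⁻¹ := by
  rcases eq_or_ne f 0 with rfl | hne
  · exact Or.inl (by simpa using regularAt_ofPS u (IntSeries.zero (K := K)))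
  rw [regularAt_iff_muAt hu hf hne, regularAt_iff_muAt hu hf.inv (inv_ne_zero hne),
    muAt_inv hu hf hne]
  omega

end Fermat.Agent.Mazur.Immersion
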