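import Fermat.Agent.Mazur.Immersion.Germ
import Fermat.Agent.FF.Approximation
import Fermat.Agent.FF.Degree
import Fermat.Agent.RED.PlaceValue
import Fermat.Prelude.Def_AlgebraicCurve_Correspondence

/-!
# Places cut out by germs

An embedding of a function field in bounded Laurent series gives, at each point of the disc, the
valuation "multiplicity at `u`"; when nontrivial it is a place.
-/

set_option autoImplicit false
set_option linter.unusedSectionVars false

noncomputable section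

namespace Fermat.Agent.Mazur.Immersion

open AlgebraicCurve

/-- An embedding of `F / L` into bounded Laurent series over `K`. -/
structure GermMap (L F K : Type*) [Field L] [Field F] [Algebra L F] [NormedField K] where
  φ : F →+* LaurentSeries K
  e : L →+* K
  map_const : ∀ c : L, φ (algebraMap L F c) = HahnSeries.single (0 : ℤ) (e c)
  bdd : ∀ f : F, IsBdd (φ f)

variable {L F F' K : Type*} [Field L] [Field F] [Algebra L F] [Field F'] [Algebra L F']
  [NormedField K] [IsUltrametricDist K] [CompleteSpace K]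

namespace GermMap

variable (Φ : GermMap L F K)

/-- Composite with a morphism of function fields. -/
def comp (ψ : F' →ₐ[L] F) : GermMap L F' K where
  φ := Φ.φ.comp ψ.toRingHom
  e := Φ.e
  map_const c := by simp [Φ.map_const]
  bdd f := Φ.bdd (ψ f)

@[simp]
theorem comp_apply (ψ : F' →ₐ[L] F) (f : F') : (Φ.comp ψ).φ f = Φ.φ (ψ f) := rfl

/-- `P` is the place at `u`. -/
def IsPlaceAt (P : Place L F) (u : K) : Prop :=
  ‖u‖ < 1 ∧ ∀ f : F, f ∈ P.toValuationSubring ↔ RegularAt u (Φ.φ f)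

/-- The functions regular at `u`. -/
def regularRing {u : K} (hu : ‖u‖ < 1) : ValuationSubring F where
  carrier := {f | RegularAt u (Φ.φ f)}
  zero_mem' := by simpa using regularAt_single u (0 : K)
  one_mem' := by simpa using regularAt_ofPS u (IntSeries.one (K := K))
  add_mem' ha hb := by simpa using RegularAt.add hu ha hb
  mul_mem' ha hb := by simpa using RegularAt.mul hu ha hb
  neg_mem' ha := by simpa using RegularAt.neg ha
  mem_or_inv_mem' f := by simpa [map_inv₀] using regularAt_or_inv hu (Φ.bdd f)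

theorem mem_regularRing {u : K} (hu : ‖u‖ < 1) {f : F} :
    f ∈ Φ.regularRing hu ↔ RegularAt u (Φ.φ f) := Iff.rfl

theorem regularAt_algebraMap (u : K) (c : L) : RegularAt u (Φ.φ (algebraMap L F c)) := by
  rw [Φ.map_const]
  exact regularAt_single u _

theorem valAt_algebraMap {u : K} (hu : ‖u‖ < 1) (c : L) :
    valAt u (Φ.φ (algebraMap L F c)) = Φ.e c := by
  rw [Φ.map_const, valAt_single hu]

theorem map_ne_zero_iff' {f : F} : Φ.φ f ≠ 0 ↔ f ≠ 0 := map_ne_zero Φ.φ

/-- A function with nonzero multiplicity gives the place. -/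
theorem exists_isPlaceAt [FF.IsFunctionField L F] {u : K} (hu : ‖u‖ < 1) {f : F} (hf : f ≠ 0)
    (h : muAt u (Φ.φ f) ≠ 0) : ∃ P : Place L F, Φ.IsPlaceAt P u := by
  refine ⟨FF.placeOfValuationSubring (Φ.regularRing hu) (Φ.regularAt_algebraMap u) ?_, hu,
    fun g => Iff.rfl⟩
  intro htop
  have h0 := Φ.map_ne_zero_iff'.mpr hf
  have h1 : RegularAt u (Φ.φ f) := by
    rw [← Φ.mem_regularRing hu, htop]
    exact ValuationSubring.mem_top f
  have h2 : RegularAt u (Φ.φ f⁻¹) := by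
    rw [← Φ.mem_regularRing hu, htop]
    exact ValuationSubring.mem_top _
  rw [regularAt_iff_muAt hu (Φ.bdd f) h0] at h1
  rw [map_inv₀, regularAt_iff_muAt hu (Φ.bdd f).inv (inv_ne_zero h0), muAt_inv hu (Φ.bdd f) h0]
    at h2
  omega

namespace IsPlaceAt

variable {Φ} {P : Place L F} {u : K}

theorem norm_lt (h : Φ.IsPlaceAt P u) : ‖u‖ < 1 := h.1

theorem regularAt (h : Φ.IsPlaceAt P u) {f : F} (hf : f ∈ P.toValuationSubring) :
    RegularAt u (Φ.φ f) :=
  (h.2 f).mp hf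

theorem eq {Q : Place L F} (h : Φ.IsPlaceAt P u) (h' : Φ.IsPlaceAt Q u) : P = Q :=
  Place.ext (SetLike.ext fun f => (h.2 f).trans (h'.2 f).symm)

theorem muAt_nonneg_iff (h : Φ.IsPlaceAt P u) {f : F} (hf : f ≠ 0) :
    0 ≤ muAt u (Φ.φ f) ↔ 0 ≤ P.ord f := by
  rw [← regularAt_iff_muAt h.1 (Φ.bdd f) (Φ.map_ne_zero_iff'.mpr hf), ← h.2 f,
    FF.mem_iff_ord_nonneg]

theorem muAt_eq_zero (h : Φ.IsPlaceAt P u) {f : F} (hf : f ≠ 0) (h0 : P.ord f = 0) :
    muAt u (Φ.φ f) = 0 := by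
  have h1 := (h.muAt_nonneg_iff hf).mpr h0.ge
  have h2 := (h.muAt_nonneg_iff (inv_ne_zero hf)).mpr (by rw [P.ord_inv, h0, neg_zero])
  rw [map_inv₀, muAt_inv h.1 (Φ.bdd f) (Φ.map_ne_zero_iff'.mpr hf)] at h2
  omega

theorem muAt_pos (h : Φ.IsPlaceAt P u) {f : F} (hf : f ≠ 0) (h0 : 0 < P.ord f) :
    0 < muAt u (Φ.φ f) := by
  by_contra hle
  have := (h.muAt_nonneg_iff (inv_ne_zero hf)).mp (by
    rw [map_inv₀, muAt_inv h.1 (Φ.bdd f) (Φ.map_ne_zero_iff'.mpr hf)]; omega)
  rw [P.ord_inv] at this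
  omega

/-- The multiplicity is a positive multiple of the order. -/
theorem exists_muAt_eq_mul (h : Φ.IsPlaceAt P u) :
    ∃ ε : ℤ, 0 < ε ∧ ∀ f : F, f ≠ 0 → muAt u (Φ.φ f) = ε * P.ord f := by
  obtain ⟨t, ht, ht1⟩ := FF.exists_ord_eq_one P
  refine ⟨muAt u (Φ.φ t), h.muAt_pos ht (by omega), fun f hf => ?_⟩
  have key : ∀ (n : ℕ), muAt u (Φ.φ (t ^ n)) = n * muAt u (Φ.φ t) := by
    intro n
    induction n with
    | zero =>
      rw [pow_zero, map_one, (hasMu_one h.1).muAt_eq h.1, Nat.cast_zero, zero_mul]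
    | succ n ih =>
      rw [pow_succ, map_mul, muAt_mul h.1 (Φ.bdd _) (Φ.bdd t)
        (Φ.map_ne_zero_iff'.mpr (pow_ne_zero n ht)) (Φ.map_ne_zero_iff'.mpr ht), ih]
      push_cast
      ring
  obtain ⟨n, hn | hn⟩ := Int.eq_nat_or_neg (P.ord f)
  · have hg : f / t ^ n ≠ 0 := div_ne_zero hf (pow_ne_zero n ht)
    have h0 := h.muAt_eq_zero hg (by
      rw [FF.ord_div P hf (pow_ne_zero n ht), FF.ord_pow, ht1, hn]; ring)
    rw [← div_mul_cancel₀ f (pow_ne_zero n ht), map_mul, muAt_mul h.1 (Φ.bdd _) (Φ.bdd _)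
      (Φ.map_ne_zero_iff'.mpr hg) (Φ.map_ne_zero_iff'.mpr (pow_ne_zero n ht)), h0, key,
      div_mul_cancel₀ f (pow_ne_zero n ht), hn]
    ring
  · have hg : f * t ^ n ≠ 0 := mul_ne_zero hf (pow_ne_zero n ht)
    have h0 := h.muAt_eq_zero hg (by
      rw [P.ord_mul hf (pow_ne_zero n ht), FF.ord_pow, ht1, hn]; ring)
    rw [map_mul, muAt_mul h.1 (Φ.bdd f) (Φ.bdd _) (Φ.map_ne_zero_iff'.mpr hf)
      (Φ.map_ne_zero_iff'.mpr (pow_ne_zero n ht)), key] at h0
    rw [hn]
    linarith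

/-- With a function of multiplicity one, the multiplicity is the order. -/
theorem muAt_eq_ord (h : Φ.IsPlaceAt P u) {g : F} (hg : g ≠ 0) (hg1 : muAt u (Φ.φ g) = 1)
    {f : F} (hf : f ≠ 0) : muAt u (Φ.φ f) = P.ord f := by
  obtain ⟨ε, hε, hεf⟩ := h.exists_muAt_eq_mul
  have h1 : ε * P.ord g = 1 := (hεf g hg).symm.trans hg1
  have : ε = 1 := Int.eq_one_of_mul_eq_one_right hε.le h1
  rw [hεf f hf, this, one_mul]

theorem valAt_eq_zero (h : Φ.IsPlaceAt P u) {f : F} (h0 : f = 0 ∨ 0 < P.ord f) :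
    valAt u (Φ.φ f) = 0 := by
  rcases eq_or_ne f 0 with rfl | hf
  · rw [map_zero, valAt_zero h.1]
  have h0' := h0.resolve_left hf
  by_contra hne
  have hr : RegularAt u (Φ.φ f) := h.regularAt ((FF.mem_iff_ord_nonneg P).mpr h0'.le)
  exact (h.muAt_pos hf h0').ne'
    ((valAt_ne_zero_iff h.1 hr (Φ.map_ne_zero_iff'.mpr hf)).mp hne)

/-- The value at the place is the value at `u`. -/
theorem valAt_eq_pval [FF.IsFunctionField L F] [IsAlgClosed L] (h : Φ.IsPlaceAt P u) {f : F}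
    (hf : f ∈ P.toValuationSubring) : valAt u (Φ.φ f) = Φ.e (RED.pval P f) := by
  have hv := FF.deg_eq_one P
  have h1 := h.valAt_eq_zero (RED.pval_sub_algebraMap hv hf)
  have h2 := h.regularAt (sub_mem hf (P.algebraMap_mem' (RED.pval P f)))
  rw [← sub_add_cancel f (algebraMap L F (RED.pval P f)), map_add,
    valAt_add h.1 h2 (Φ.regularAt_algebraMap u _), h1, zero_add, Φ.valAt_algebraMap h.1,
    sub_add_cancel]

/-- Places at `u` restrict to places at `u`. -/
theorem restrictAlong (h : Φ.IsPlaceAt P u) (ψ : F' →ₐ[L] F) (hψ : ψ.toRingHom.IsIntegral) :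
    (Φ.comp ψ).IsPlaceAt (P.restrictAlong ψ hψ) u :=
  ⟨h.1, fun f => h.2 (ψ f)⟩

end IsPlaceAt

end GermMap

end Fermat.Agent.Mazur.Immersion
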