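import Fermat.Agent.Mazur.Immersion.Swap
import Fermat.Agent.HK.HeckeFinal

/-!
# Hecke correspondences on the points `ev(u)`

`T_ℓ ev(u)` is the sum of the `ev(v)`, `v ^ ℓ = u`, plus `ev(u ^ ℓ)` when `ℓ ∤ N`.
-/

set_option autoImplicit false
set_option linter.unusedSectionVars false
set_option linter.style.haveILetI false

noncomputable section

namespace Fermat.Agent.Mazur.Immersion

open AlgebraicCurve ModularCurve

local notation "ℚbar" => AlgebraicClosure ℚ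

variable {q : ℕ} [Fact q.Prime] {N : ℕ} [NeZero N] {ℓ : ℕ} [NeZero ℓ]

/-- The degree of `β`. -/
theorem finrankAlong_beta (hℓ : ℓ.Prime) :
    finrankAlong ℚbar (heckeBetaBar ℚbar N ℓ) = if ℓ ∣ N then ℓ else ℓ + 1 := by
  split_ifs with h
  · have h1 := HK.Corr.finrankAlong_heckeBetaBar (L := ℚbar) N ℓ (HK.Corr.degreeInput _)
      (MF.Coeff.functionFieldGeneration ℓ)
    rw [HK.Corr.psi_mul_prime_of_dvd hℓ h, mul_comm ℓ] at h1
    exact Nat.eq_of_mul_eq_mul_left (HK.Corr.psi_pos N) h1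
  · exact HK.Corr.finrankAlong_heckeBetaBar_eq_succ ℚbar N ℓ hℓ h

/-- Over `ev(u)` and a root `v` of `u`: a place with images `ev(u)`, `ev(v)`. -/
theorem exists_rootPlace {u v : ℂ_[q]} (hu : AlgPt q N u) (hv : v ^ ℓ = u) (hv1 : ‖v‖ < 1)
    (hα : HeckeAlphaBarIntegral ℚbar N ℓ) (hβ : HeckeBetaBarIntegral ℚbar N ℓ) :
    ∃ Q : Place ℚbar (modularFunctionFieldBar (N * ℓ)), IsEvalPlace q (N * ℓ) Q v ∧
      Q.restrictAlong (heckeBetaBar ℚbar N ℓ) hβ = evPlace q N u ∧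
      IsEvalPlace q N (Q.restrictAlong (heckeAlphaBar ℚbar N ℓ) hα) v ∧
      (u = 0 → Q.ramificationIndexAlong (heckeBetaBar ℚbar N ℓ) = ℓ) := by
  haveI := isFunctionField_bar (N := N * ℓ)
  haveI := isFunctionField_bar (N := N)
  have hμ := muAt_jInv_sub (N := N) hu.norm_lt hu.isEvalPlace.cEmb_pval
  have hg := jInv_sub_ne_zero (N := N) (RED.pval (evPlace q N u) (jInvElem N))
  generalize jInvElem N - algebraMap ℚbar (modularFunctionFieldBar N)
    (RED.pval (evPlace q N u) (jInvElem N)) = g at hμ hg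
  subst hv
  obtain ⟨Q, hQ⟩ := GermMap.exists_root (Φ := stdMap q N) (Φ' := stdMap q (N * ℓ))
    (ψ := heckeBetaBar ℚbar N ℓ) stdMap_heckeBetaBar hv1 hg hμ
  have hQβ : Q.restrictAlong (heckeBetaBar ℚbar N ℓ) hβ = evPlace q N (v ^ ℓ) :=
    (isEvalPlace_iff.mpr (hQ.restrict_qExpand stdMap_heckeBetaBar)).eq_evPlace
  refine ⟨Q, isEvalPlace_iff.mpr hQ, hQβ,
    isEvalPlace_iff.mpr (hQ.restrict_same stdMap_heckeAlphaBar), fun h0 => ?_⟩
  have hv0 : v = 0 := (pow_eq_zero_iff (NeZero.ne ℓ)).mp h0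
  have hord : (evPlace q N (v ^ ℓ)).ord g = 1 :=
    (hu.isEvalPlace.muAt_eq_ord hg).symm.trans (by rw [← stdMap_apply]; exact hμ)
  have he := ramificationIndexAlong_eq_of_ord (heckeBetaBar ℚbar N ℓ) hβ hQβ hord
  rw [← (isEvalPlace_iff.mpr hQ).muAt_eq_ord ((map_ne_zero (heckeBetaBar ℚbar N ℓ)).mpr hg),
    ← stdMap_apply, stdMap_heckeBetaBar] at he
  have hgn : (stdMap q N).φ g ≠ 0 := (stdMap q N).map_ne_zero_iff'.mpr hg
  rw [h0] at hμ
  rw [hv0, muAt_zero_qExpand ℓ ((stdMap q N).bdd g) hgn, hμ, mul_one] at he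
  exact_mod_cast he

/-- The place over `ev(u)` with other image `ev(u ^ ℓ)`. -/
theorem exists_swapPlace (hℓ : ℓ.Prime) (hℓN : ¬ ℓ ∣ N) {u : ℂ_[q]} (hu : AlgPt q N u)
    (hα : HeckeAlphaBarIntegral ℚbar N ℓ) (hβ : HeckeBetaBarIntegral ℚbar N ℓ) :
    ∃ R : Place ℚbar (modularFunctionFieldBar (N * ℓ)),
      R.restrictAlong (heckeBetaBar ℚbar N ℓ) hβ = evPlace q N u ∧
      IsEvalPlace q N (R.restrictAlong (heckeAlphaBar ℚbar N ℓ) hα) (u ^ ℓ) ∧
      R.ramificationIndexAlong (heckeBetaBar ℚbar N ℓ) = 1 := by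
  haveI := isFunctionField_bar (N := N * ℓ)
  haveI := isFunctionField_bar (N := N)
  obtain ⟨Φ, hΦα, hΦβ⟩ := exists_swapMap (q := q) (N := N) hℓ hℓN
  have hμ := muAt_jInv_sub (N := N) hu.norm_lt hu.isEvalPlace.cEmb_pval
  have hg := jInv_sub_ne_zero (N := N) (RED.pval (evPlace q N u) (jInvElem N))
  generalize jInvElem N - algebraMap ℚbar (modularFunctionFieldBar N)
    (RED.pval (evPlace q N u) (jInvElem N)) = g at hμ hg
  obtain ⟨R, hR, hR1⟩ := GermMap.exists_same (Φ := stdMap q N) (Φ' := Φ) hΦβ hu.norm_lt hg hμ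
  have hRβ : R.restrictAlong (heckeBetaBar ℚbar N ℓ) hβ = evPlace q N u :=
    (isEvalPlace_iff.mpr (hR.restrict_same hΦβ)).eq_evPlace
  refine ⟨R, hRβ, isEvalPlace_iff.mpr (hR.restrict_qExpand hΦα), ?_⟩
  have hord : (evPlace q N u).ord g = 1 :=
    (hu.isEvalPlace.muAt_eq_ord hg).symm.trans (by rw [← stdMap_apply]; exact hμ)
  have he := ramificationIndexAlong_eq_of_ord (heckeBetaBar ℚbar N ℓ) hβ hRβ hord
  rw [hR1] at he
  exact_mod_cast he

/-- The points over `ev(u)` under `T_ℓ`. -/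
def stepPts (N ℓ : ℕ) (u : ℂ_[q]) : Multiset ℂ_[q] :=
  Polynomial.nthRoots ℓ u + if ℓ ∣ N then 0 else {u ^ ℓ}

/-- The sum of the points with given parameters. -/
def ptsDiv (N : ℕ) [NeZero N] (S : Multiset ℂ_[q]) : Divisor ℚbar (modularFunctionFieldBar N) :=
  (S.map fun v => Finsupp.single (evPlace q N v) (1 : ℤ)).sum

theorem ptsDiv_add (S T : Multiset ℂ_[q]) : ptsDiv N (S + T) = ptsDiv N S + ptsDiv N T := by
  rw [ptsDiv, ptsDiv, ptsDiv, Multiset.map_add, Multiset.sum_add]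

theorem nthRoots_norm_lt {u v : ℂ_[q]} (hu : ‖u‖ < 1) (hℓ : 0 < ℓ)
    (hv : v ∈ Polynomial.nthRoots ℓ u) : v ^ ℓ = u ∧ ‖v‖ < 1 := by
  rw [Polynomial.mem_nthRoots hℓ] at hv
  refine ⟨hv, ?_⟩
  by_contra hge
  rw [← hv, norm_pow] at hu
  exact absurd hu (not_lt.mpr (one_le_pow₀ (not_lt.mp hge)))

theorem card_nthRoots_complex (u : ℂ_[q]) : Multiset.card (Polynomial.nthRoots ℓ u) = ℓ := by
  rw [Polynomial.nthRoots, IsAlgClosed.card_roots_eq_natDegree, Polynomial.natDegree_X_pow_sub_C]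

theorem algPt_stepPts (hℓ : ℓ.Prime) (hα : HeckeAlphaBarIntegral ℚbar N ℓ)
    (hβ : HeckeBetaBarIntegral ℚbar N ℓ) {u : ℂ_[q]} (hu : AlgPt q N u) :
    ∀ v ∈ stepPts N ℓ u, AlgPt q N v := by
  intro v hv
  rw [stepPts, Multiset.mem_add] at hv
  rcases hv with hv | hv
  · obtain ⟨hvu, hv1⟩ := nthRoots_norm_lt hu.norm_lt hℓ.pos hv
    obtain ⟨Q, -, -, h, -⟩ := exists_rootPlace hu hvu hv1 hα hβ
    exact h.algPt
  · split_ifs at hv with hℓN
    · exact absurd hv (Multiset.notMem_zero v)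
    · obtain ⟨R, -, h, -⟩ := exists_swapPlace hℓ hℓN hu hα hβ
      rw [Multiset.mem_singleton.mp hv]
      exact h.algPt

/-- A root and the `ℓ`-th power of the parameter give different places. -/
theorem rootPlace_ne (hℓ : ℓ.Prime) {u v : ℂ_[q]} (hvu : v ^ ℓ = u) (hv1 : ‖v‖ < 1)
    {hα : HeckeAlphaBarIntegral ℚbar N ℓ}
    {Q R : Place ℚbar (modularFunctionFieldBar (N * ℓ))}
    (hQ : IsEvalPlace q N (Q.restrictAlong (heckeAlphaBar ℚbar N ℓ) hα) v)
    (hQ0 : u = 0 → Q.ramificationIndexAlong (heckeBetaBar ℚbar N ℓ) = ℓ)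
    (hR : IsEvalPlace q N (R.restrictAlong (heckeAlphaBar ℚbar N ℓ) hα) (u ^ ℓ))
    (hR1 : R.ramificationIndexAlong (heckeBetaBar ℚbar N ℓ) = 1) : Q ≠ R := by
  intro hQR
  subst hQR
  rcases eq_or_ne u 0 with hu0 | hu0
  · rw [hQ0 hu0] at hR1
    exact hℓ.ne_one hR1
  · have h1 := hQ.param_unique hR
    rw [← hvu, ← pow_mul] at h1
    have h2 : ‖v‖ = ‖v‖ ^ (ℓ * ℓ) := by
      conv_lhs => rw [h1]
      exact norm_pow v _
    have hv0 : 0 < ‖v‖ := norm_pos_iff.mpr fun h => hu0 (by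
      rw [← hvu, h, zero_pow (NeZero.ne ℓ)])
    have h3 : ‖v‖ ^ (ℓ * ℓ) < ‖v‖ ^ 1 :=
      pow_lt_pow_right_of_lt_one₀ hv0 hv1 (by nlinarith [hℓ.two_le])
    rw [pow_one, ← h2] at h3
    exact lt_irrefl _ h3

variable [HasPrincipalDivisors ℚbar (modularFunctionFieldBar (N * ℓ))]

/-- The correspondence `T_ℓ` on a point `ev(u)`. -/
theorem heckeDivBar_evPlace (hℓ : ℓ.Prime) (hα : HeckeAlphaBarIntegral ℚbar N ℓ)
    (hβ : HeckeBetaBarIntegral ℚbar N ℓ) {u : ℂ_[q]} (hu : AlgPt q N u) :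
    heckeDivBar hα hβ (Finsupp.single (evPlace q N u) 1) = ptsDiv N (stepPts N ℓ u) := by
  classical
  haveI := isFunctionField_bar (N := N * ℓ)
  haveI := isFunctionField_bar (N := N)
  haveI : Nonempty (Place ℚbar (modularFunctionFieldBar (N * ℓ))) := ⟨inftyPlace q (N * ℓ)⟩
  choose! Q hQ hQβ hQα hQ0 using fun (v : ℂ_[q]) (hv : v ∈ Polynomial.nthRoots ℓ u) =>
    exists_rootPlace hu (nthRoots_norm_lt hu.norm_lt hℓ.pos hv).1
      (nthRoots_norm_lt hu.norm_lt hℓ.pos hv).2 hα hβ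
  set T := (Polynomial.nthRoots ℓ u).toFinset with hTdef
  have hT : ∀ v ∈ T, v ∈ Polynomial.nthRoots ℓ u := fun v hv => Multiset.mem_toFinset.mp hv
  have hinj : Set.InjOn Q T := fun a ha b hb hab =>
    (hQ a (hT a ha)).param_unique (by rw [hab]; exact hQ b (hT b hb))
  have hmult : ∀ v ∈ T, (Polynomial.nthRoots ℓ u).count v ≤
      (Q v).ramificationIndexAlong (heckeBetaBar ℚbar N ℓ) := by
    intro v hv
    rcases eq_or_ne u 0 with hu0 | hu0
    · rw [hQ0 v (hT v hv) hu0]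
      exact (Multiset.count_le_card _ _).trans (card_nthRoots_complex u).le
    · have hnd : (Polynomial.nthRoots ℓ u).Nodup := by
        rw [Polynomial.nthRoots]
        exact Polynomial.nodup_roots (Polynomial.separable_X_pow_sub_C u
          (Nat.cast_ne_zero.mpr hℓ.ne_zero) hu0)
      exact (Multiset.nodup_iff_count_le_one.mp hnd v).trans
        (one_le_ramificationIndexAlong _ hβ _)
  have hTsum : ∑ v ∈ T, (Polynomial.nthRoots ℓ u).count v = ℓ := by
    rw [hTdef, Multiset.toFinset_sum_count_eq, card_nthRoots_complex]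
  have hroot : ptsDiv N (Polynomial.nthRoots ℓ u) =
      ∑ v ∈ T, Finsupp.single ((Q v).restrictAlong (heckeAlphaBar ℚbar N ℓ) hα)
        ((Polynomial.nthRoots ℓ u).count v : ℤ) := by
    rw [ptsDiv, Finset.sum_multiset_map_count]
    refine Finset.sum_congr rfl fun v hv => ?_
    rw [Finsupp.smul_single, nsmul_eq_mul, mul_one, (hQα v (hT v hv)).eq_evPlace]
  rw [stepPts, ptsDiv_add, hroot]
  unfold heckeDivBar
  by_cases hℓN : ℓ ∣ N
  · rw [if_pos hℓN, show ptsDiv N (0 : Multiset ℂ_[q]) = 0 from rfl, add_zero]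
    exact correspondence_single _ _ hβ hα _ T Q _ hinj (fun v hv => hQβ v (hT v hv)) hmult
      (by rw [finrankAlong_beta hℓ, if_pos hℓN, hTsum])
  · obtain ⟨R, hRβ, hRα, hRe⟩ := exists_swapPlace hℓ hℓN hu hα hβ
    have hRne : ∀ v ∈ T, Q v ≠ R := fun v hv =>
      rootPlace_ne hℓ (nthRoots_norm_lt hu.norm_lt hℓ.pos (hT v hv)).1
        (nthRoots_norm_lt hu.norm_lt hℓ.pos (hT v hv)).2 (hQα v (hT v hv)) (hQ0 v (hT v hv)) hRα hRe
    rw [if_neg hℓN, ptsDiv, Multiset.map_singleton, Multiset.sum_singleton, ← hRα.eq_evPlace]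
    refine (correspondence_single _ _ hβ hα _ (Finset.insertNone T) (fun o => o.elim R Q)
      (fun o => o.elim 1 fun v => (Polynomial.nthRoots ℓ u).count v) ?_ ?_ ?_ ?_).trans ?_
    · rintro (_ | a) ha (_ | b) hb hab
      · rfl
      · exact absurd hab.symm (hRne b (by simpa using hb))
      · exact absurd hab (hRne a (by simpa using ha))
      · exact congrArg some (hinj (by simpa using ha) (by simpa using hb) hab)
    · rintro (_ | v) hv
      · exact hRβ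
      · exact hQβ v (hT v (by simpa using hv))
    · rintro (_ | v) hv
      · exact hRe.ge
      · exact hmult v (by simpa using hv)
    · rw [finrankAlong_beta hℓ, if_neg hℓN, Finset.sum_insertNone]
      simp only [Option.elim_none, Option.elim_some, hTsum]
      omega
    · rw [Finset.sum_insertNone, add_comm]
      simp only [Option.elim_none, Option.elim_some, Nat.cast_one]

end Fermat.Agent.Mazur.Immersion
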