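import Fermat.Agent.Mazur.Component.Tate
import Fermat.Agent.Mazur.Defs
import Fermat.Agent.MW.JZeroFG
import Fermat.Agent.MW.DivisibleJZero
import Fermat.Agent.HK.HeckeGalois
import Fermat.Agent.MF.IntStruct.Main

/-!
# Operators vanishing on forms make rational points torsion

Such an operator kills every torsion point, so, `J₀(N)(ℚ̄)` being divisible and `J₀(N)(ℚ)` finitely
generated, the image of a rational point is infinitely divisible, hence torsion.
-/

set_option autoImplicit false
set_option linter.style.haveILetI false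

noncomputable section

namespace Fermat.Agent.Mazur.Immersion

open ModularCurve AlgebraicCurve

local notation "Gal" => (AlgebraicClosure ℚ ≃ₐ[ℚ] AlgebraicClosure ℚ)

variable {N : ℕ} [NeZero N]

theorem smul_primePow_torsion_eq_zero {t : HeckeAlg} (ht : CuspForm.heckeEvalForms N 2 t = 0)
    {ℓ : ℕ} [Fact ℓ.Prime] (R : ℕ) {z : JZero N} (hz : ℓ ^ R • z = 0) :
    (letI := heckeModuleBar N; t • z) = 0 := by
  obtain ⟨v, rfl⟩ := Component.exists_tau_eq R hz
  rw [Component.hecke_tau, Component.heckeMatT, RingHom.comp_apply, RingHom.comp_apply, ht,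
    map_zero, map_zero, Matrix.zero_mulVec, map_zero]

theorem smul_torsion_eq_zero {t : HeckeAlg} (ht : CuspForm.heckeEvalForms N 2 t = 0) (n : ℕ)
    (hn : n ≠ 0) {z : JZero N} (hz : n • z = 0) : (letI := heckeModuleBar N; t • z) = 0 := by
  letI := heckeModuleBar N
  induction n using Nat.recOnPrimeCoprime generalizing z with
  | zero => exact absurd rfl hn
  | prime_pow p k hp =>
    haveI : Fact p.Prime := ⟨hp⟩
    exact smul_primePow_torsion_eq_zero ht k hz
  | coprime a b ha hb hab iha ihb =>
    have hbez : (Nat.gcdA a b * a + Nat.gcdB a b * b : ℤ) = 1 := by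
      rw [mul_comm, mul_comm (Nat.gcdB a b), ← Nat.gcd_eq_gcd_ab, hab]
      rfl
    have h1 : t • (b • z) = 0 := iha (by omega) (by rw [← mul_nsmul', hz])
    have h2 : t • (a • z) = 0 := ihb (by omega) (by rw [← mul_nsmul', mul_comm b a, hz])
    have h3 : (Nat.gcdA a b) • (a • z) + (Nat.gcdB a b) • (b • z) = z := by
      rw [← natCast_zsmul z a, ← natCast_zsmul z b, smul_smul, smul_smul, ← add_zsmul, hbez,
        one_zsmul]
    rw [← h3, smul_add, smul_comm t (Nat.gcdA a b), smul_comm t (Nat.gcdB a b), h1, h2, smul_zero,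
      smul_zero, add_zero]

/-- An infinitely divisible element of a finitely generated abelian group is torsion. -/
theorem exists_nsmul_eq_zero_of_divisible {G : Type*} [AddCommGroup G] (hG : AddGroup.FG G)
    {g : G} (hdiv : ∀ n : ℕ, 0 < n → ∃ y, n • y = g) : ∃ m : ℕ, 0 < m ∧ m • g = 0 := by
  haveI : Module.Finite ℤ G := Module.Finite.iff_addGroup_fg.mpr hG
  haveI : Module.Free ℤ (G ⧸ Submodule.torsion ℤ G) := Module.free_of_finite_type_torsion_free'
  let b := Module.Free.chooseBasis ℤ (G ⧸ Submodule.torsion ℤ G)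
  have h0 : Submodule.Quotient.mk (p := Submodule.torsion ℤ G) g = 0 := by
    refine b.repr.injective (Finsupp.ext fun i => ?_)
    rw [map_zero, Finsupp.zero_apply]
    set c := b.repr (Submodule.Quotient.mk g) i with hc
    obtain ⟨y, hy⟩ := hdiv (c.natAbs + 1) (Nat.succ_pos _)
    have h1 : c = ((c.natAbs + 1 : ℕ) : ℤ) * b.repr (Submodule.Quotient.mk y) i := by
      conv_lhs => rw [hc, ← hy, ← natCast_zsmul, Submodule.Quotient.mk_smul, map_smul,
        Finsupp.smul_apply, smul_eq_mul]
    exact Int.eq_zero_of_dvd_of_natAbs_lt_natAbs ⟨_, h1⟩ (by rw [Int.natAbs_natCast]; omega)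
  obtain ⟨⟨a, ha⟩, hag⟩ := (Submodule.Quotient.mk_eq_zero _).mp h0
  refine ⟨a.natAbs, Int.natAbs_pos.mpr (nonZeroDivisors.ne_zero ha), ?_⟩
  have h2 : a • g = 0 := hag
  rcases Int.natAbs_eq a with h | h
  · rw [h, natCast_zsmul] at h2
    exact h2
  · rw [h, neg_smul, neg_eq_zero, natCast_zsmul] at h2
    exact h2

/-- An operator vanishing on forms makes every rational point torsion. -/
theorem torsion_of_heckeEvalForms_eq_zero {t : HeckeAlg}
    (ht : CuspForm.heckeEvalForms N 2 t = 0) {x : JZero N} (hx : ∀ σ : Gal, σ • x = x) :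
    ∃ m : ℕ, 0 < m ∧ m • (letI := heckeModuleBar N; t • x) = 0 := by
  letI := heckeModuleBar N
  haveI := HK.Corr.smulCommClass_heckeModuleBar N
  have htx : ∀ σ : Gal, σ • (t • x) = t • x := fun σ => by rw [smul_comm, hx σ]
  obtain ⟨m, hm, h⟩ := exists_nsmul_eq_zero_of_divisible (MW.fg_fixedPoints_jzero N)
    (g := (⟨t • x, htx⟩ : ↥(FixedPoints.addSubgroup Gal (JZero N)))) (fun n hn => by
      obtain ⟨y, hy⟩ := MW.exists_nsmul_eq_jzero N (Nat.pos_iff_ne_zero.mp hn) x
      refine ⟨⟨t • y, fun σ => ?_⟩, Subtype.ext ?_⟩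
      · have h0 : n • (σ • y - y) = 0 := by
          rw [nsmul_sub, smul_comm, hy, hx σ, sub_self]
        have h1 := smul_torsion_eq_zero ht n (Nat.pos_iff_ne_zero.mp hn) h0
        rw [smul_sub, ← smul_comm σ t y] at h1
        exact sub_eq_zero.mp h1
      · show n • (t • y) = t • x
        rw [smul_comm, hy])
  exact ⟨m, hm, congrArg Subtype.val h⟩

/-- An operator whose image on the integral lattice vanishes makes every rational point torsion. -/
theorem torsion_of_latticeEval_eq_zero {t : HeckeAlg} (ht : latticeEval N t = 0) {x : JZero N}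
    (hx : ∀ σ : Gal, σ • x = x) : ∃ m : ℕ, 0 < m ∧ m • (letI := heckeModuleBar N; t • x) = 0 := by
  refine torsion_of_heckeEvalForms_eq_zero ?_ hx
  refine (CuspForm.latticeRestrictHom_bijective N ∅ (MF.IntStruct.hasIntegralStructure N 2)).1 ?_
  rw [map_zero]
  exact ht

end Fermat.Agent.Mazur.Immersion
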