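import Mathlib

/-!
# Integer vectors spanning a cone equal to the whole space

If no nonzero real vector pairs nonnegatively with all `v m`, then the monoid generated by the
`v m` contains the opposite of each `v d`.
-/

set_option autoImplicit false

noncomputable section

namespace Fermat.Agent.Mazur.Immersion

open scoped BigOperators

variable {ι : Type*} [Fintype ι]

/-- A compactness bound: some of finitely many vectors pair very negatively with any vector. -/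
theorem exists_bound (v : ℕ → ι → ℤ)
    (h : ∀ x : ι → ℝ, x ≠ 0 → ∃ m, ∑ i, (v m i : ℝ) * x i < 0) :
    ∃ (δ : ℝ) (C : ℝ), 0 < δ ∧ ∀ x : ι → ℤ, ∀ i₀, ∃ m,
      ∑ i, (v m i : ℝ) * (x i : ℝ) ≤ -δ * |(x i₀ : ℝ)| ∧ ∑ i, (v m i : ℝ) ^ 2 ≤ C := by
  classical
  let U : ℕ × ℕ → Set (ι → ℝ) :=
    fun p => {x | ∑ i, (v p.1 i : ℝ) * x i < -(1 / ((p.2 : ℝ) + 1))}
  have hU : ∀ p, IsOpen (U p) := fun p =>
    isOpen_lt (continuous_finsetSum _ fun i _ => continuous_const.mul (continuous_apply i))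
      continuous_const
  have hcov : Metric.sphere (0 : ι → ℝ) 1 ⊆ ⋃ p, U p := by
    intro x hx
    have hx0 : x ≠ 0 := fun h0 => by simp [h0] at hx
    obtain ⟨m, hm⟩ := h x hx0
    obtain ⟨k, hk⟩ := exists_nat_one_div_lt (neg_pos.mpr hm)
    refine Set.mem_iUnion.mpr ⟨(m, k), ?_⟩
    show ∑ i, (v m i : ℝ) * x i < -(1 / ((k : ℝ) + 1))
    linarith
  obtain ⟨t, ht⟩ := (isCompact_sphere (0 : ι → ℝ) 1).elim_finite_subcover U hU hcov
  refine ⟨1 / ((t.sup Prod.snd : ℕ) + 1), ∑ p ∈ t, ∑ i, (v p.1 i : ℝ) ^ 2, by positivity,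
    fun x i₀ => ?_⟩
  set y : ι → ℝ := fun i => (x i : ℝ) with hy
  rcases eq_or_ne y 0 with hy0 | hy0
  · have hx0 : ∀ i, (x i : ℝ) = 0 := fun i => congrFun hy0 i
    obtain ⟨p, hp⟩ : t.Nonempty := by
      by_contra hne
      rw [Finset.not_nonempty_iff_eq_empty] at hne
      have := ht (show (Function.const ι (1 : ℝ)) ∈ Metric.sphere (0 : ι → ℝ) 1 by
        have : Nonempty ι := ⟨i₀⟩
        simp)
      simp [hne] at this
    exact ⟨p.1, by simp [hx0], Finset.single_le_sum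
      (f := fun p : ℕ × ℕ => ∑ i, (v p.1 i : ℝ) ^ 2) (fun q _ => by positivity) hp⟩
  have hn : 0 < ‖y‖ := norm_pos_iff.mpr hy0
  have hmem : ‖y‖⁻¹ • y ∈ Metric.sphere (0 : ι → ℝ) 1 := by
    simp [norm_smul, hn.ne']
  obtain ⟨p, hp⟩ := Set.mem_iUnion.mp (ht hmem)
  obtain ⟨hpt, hpu⟩ := Set.mem_iUnion.mp hp
  refine ⟨p.1, ?_, Finset.single_le_sum
    (f := fun p : ℕ × ℕ => ∑ i, (v p.1 i : ℝ) ^ 2) (fun q _ => by positivity) hpt⟩
  have h1 : ∑ i, (v p.1 i : ℝ) * (‖y‖⁻¹ • y) i < -(1 / ((p.2 : ℝ) + 1)) := hpu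
  have h2 : (1 : ℝ) / ((t.sup Prod.snd : ℕ) + 1) ≤ 1 / ((p.2 : ℝ) + 1) := by
    gcongr
    exact Finset.le_sup (f := Prod.snd) hpt
  have h3 : |(x i₀ : ℝ)| ≤ ‖y‖ := by simpa [hy] using norm_le_pi_norm y i₀
  have h4 : ∑ i, (v p.1 i : ℝ) * (‖y‖⁻¹ • y) i = ‖y‖⁻¹ * ∑ i, (v p.1 i : ℝ) * (x i : ℝ) := by
    rw [Finset.mul_sum]
    exact Finset.sum_congr rfl fun i _ => by simp [hy]; ring
  rw [h4, inv_mul_lt_iff₀ hn] at h1
  have h5 : (0 : ℝ) < 1 / ((t.sup Prod.snd : ℕ) + 1) := by positivity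
  nlinarith [abs_nonneg (x i₀ : ℝ)]

/-- Descent into a bounded box by adding generators. -/
theorem exists_add_mem_box (v : ℕ → ι → ℤ)
    (h : ∀ x : ι → ℝ, x ≠ 0 → ∃ m, ∑ i, (v m i : ℝ) * x i < 0) :
    ∃ R : ℤ, ∀ x : ι → ℤ,
      ∃ w ∈ AddSubmonoid.closure (Set.range v), ∀ i, -R ≤ x i + w i ∧ x i + w i ≤ R := by
  obtain ⟨δ, C, hδ, hb⟩ := exists_bound v h
  refine ⟨⌈C / (2 * δ)⌉, fun x => ?_⟩
  suffices H : ∀ (n : ℕ) (x : ι → ℤ), (∑ i, x i ^ 2).toNat = n →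
      ∃ w ∈ AddSubmonoid.closure (Set.range v),
        ∀ i, -⌈C / (2 * δ)⌉ ≤ x i + w i ∧ x i + w i ≤ ⌈C / (2 * δ)⌉ from
    H _ x rfl
  intro n
  induction n using Nat.strong_induction_on with
  | _ n ih =>
    intro x hx
    by_cases hbox : ∀ i, -⌈C / (2 * δ)⌉ ≤ x i ∧ x i ≤ ⌈C / (2 * δ)⌉
    · exact ⟨0, zero_mem _, fun i => by simpa using hbox i⟩
    · obtain ⟨i₀, hi₀⟩ := not_forall.mp hbox
      have hbig : C / (2 * δ) < |(x i₀ : ℝ)| := by
        have h1 : ⌈C / (2 * δ)⌉ < |x i₀| := by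
          by_contra hle
          exact hi₀ (abs_le.mp (not_lt.mp hle))
        calc C / (2 * δ) ≤ (⌈C / (2 * δ)⌉ : ℝ) := Int.le_ceil _
          _ < (|x i₀| : ℤ) := by exact_mod_cast h1
          _ = |(x i₀ : ℝ)| := by push_cast; ring
      obtain ⟨m, hm, hmC⟩ := hb x i₀
      rw [div_lt_iff₀ (by positivity)] at hbig
      have hlt : (((∑ i, (x i + v m i) ^ 2) : ℤ) : ℝ) < ((∑ i, x i ^ 2 : ℤ) : ℝ) := by
        push_cast
        have : ∑ i, ((x i : ℝ) + v m i) ^ 2 =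
            ∑ i, (x i : ℝ) ^ 2 + 2 * ∑ i, (v m i : ℝ) * (x i : ℝ) + ∑ i, (v m i : ℝ) ^ 2 := by
          rw [Finset.mul_sum, ← Finset.sum_add_distrib, ← Finset.sum_add_distrib]
          exact Finset.sum_congr rfl fun i _ => by ring
        rw [this]
        nlinarith
      have hlt' : (∑ i, (x i + v m i) ^ 2).toNat < n := by
        rw [← hx]
        have h0 : 0 ≤ ∑ i, (x i + v m i) ^ 2 := Finset.sum_nonneg fun i _ => sq_nonneg _
        have h1 : ∑ i, (x i + v m i) ^ 2 < ∑ i, x i ^ 2 := by exact_mod_cast hlt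
        omega
      obtain ⟨w, hw, hwb⟩ := ih _ hlt' (fun i => x i + v m i) rfl
      refine ⟨v m + w, add_mem (AddSubmonoid.subset_closure ⟨m, rfl⟩) hw, fun i => ?_⟩
      rw [Pi.add_apply, ← add_assoc]
      exact hwb i

/-- The monoid generated by the `v m` contains the opposites of its generators. -/
theorem neg_mem_closure (v : ℕ → ι → ℤ)
    (h : ∀ x : ι → ℝ, x ≠ 0 → ∃ m, ∑ i, (v m i : ℝ) * x i < 0) (d : ℕ) :
    -v d ∈ AddSubmonoid.closure (Set.range v) := by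
  classical
  obtain ⟨R, hR⟩ := exists_add_mem_box v h
  choose w hw hwb using hR
  let x : ℕ → ι → ℤ := fun k =>
    Nat.rec (motive := fun _ => ι → ℤ) 0 (fun _ p => p + v d + w (p + v d)) k
  have hxs : ∀ k, x (k + 1) = x k + v d + w (x k + v d) := fun k => rfl
  have hbox : ∀ k i, x (k + 1) i ∈ Finset.Icc (-R) R := fun k i => by
    rw [Finset.mem_Icc, hxs]
    exact hwb _ i
  obtain ⟨k, k', hne, he⟩ := Finite.exists_ne_map_eq_of_infinite
    (fun k => fun i => (⟨x (k + 1) i, hbox k i⟩ : Finset.Icc (-R) R))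
  have he' : x (k + 1) = x (k' + 1) :=
    funext fun i => congrArg Subtype.val (congrFun he i)
  have hstep : ∀ a b : ℕ, ∃ W ∈ AddSubmonoid.closure (Set.range v),
      x (a + b) = x a + b • v d + W := by
    intro a b
    induction b with
    | zero => exact ⟨0, zero_mem _, by simp⟩
    | succ b ih =>
      obtain ⟨W, hW, hxW⟩ := ih
      refine ⟨W + w (x (a + b) + v d), add_mem hW (hw _), ?_⟩
      rw [← add_assoc a b 1, hxs, succ_nsmul]
      conv_lhs => arg 1; arg 1; rw [hxW]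
      abel
  wlog hkk : k < k' generalizing k k'
  · exact this k' k hne.symm he.symm he'.symm (by omega)
  obtain ⟨j, rfl⟩ : ∃ j, k' = k + (j + 1) := ⟨k' - k - 1, by omega⟩
  obtain ⟨W, hW, hxW⟩ := hstep (k + 1) (j + 1)
  rw [show k + (j + 1) + 1 = k + 1 + (j + 1) by omega, hxW] at he'
  have h0 : (j + 1) • v d + W = 0 := by
    rw [add_assoc] at he'
    exact left_eq_add.mp he'
  have : -v d = j • v d + W := by
    rw [succ_nsmul] at h0
    rw [neg_eq_iff_add_eq_zero, ← h0]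
    abel
  rw [this]
  exact add_mem (nsmul_mem (AddSubmonoid.subset_closure (Set.mem_range_self d)) j) hW

end Fermat.Agent.Mazur.Immersion
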