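import Fermat.Agent.MF.LevelOneRatio
import Fermat.Agent.MF.ThetaJ

/-!
# Weakly holomorphic forms of weight two and level one have no constant term
-/

set_option autoImplicit false

noncomputable section

namespace Fermat.Agent.Mazur.Immersion

open UpperHalfPlane ModularForm EisensteinSeries MF
open scoped MatrixGroups

theorem thetaL_pow_succ (x : LaurentSeries ℂ) (n : ℕ) :
    thetaL (x ^ (n + 1)) = ((n + 1 : ℕ) : LaurentSeries ℂ) * (x ^ n * thetaL x) := by
  induction n with
  | zero => simp
  | succ n ih => rw [pow_succ, thetaL_mul, ih]; push_cast; ring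

theorem coeff_zero_thetaL_mul_pow (x : LaurentSeries ℂ) (n : ℕ) :
    (x ^ n * thetaL x).coeff 0 = 0 := by
  have h : (thetaL (x ^ (n + 1))).coeff 0 = 0 := by simp
  rw [thetaL_pow_succ, ← map_natCast (HahnSeries.C (Γ := ℤ) (R := ℂ)), HahnSeries.C_apply,
    HahnSeries.coeff_single_zero_mul] at h
  exact (mul_eq_zero.mp h).resolve_left (by exact_mod_cast n.succ_ne_zero)

/-- The constant term of `G / Δ ^ D` vanishes for a form `G` of weight `12 D + 2`. -/
theorem coeff_zero_div_discriminant_pow : ∀ (D : ℕ) {k : ℤ}, k = 12 * (D : ℤ) + 2 →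
    ∀ G : ModularForm 𝒮ℒ k, (qL G / qL ModularForm.discriminant ^ D).coeff 0 = 0 := by
  intro D
  induction D with
  | zero =>
    intro k hk G
    obtain rfl : k = 2 := by simpa using hk
    have h0 : G = 0 := rank_zero_iff_forall_zero.mp levelOne_weight_two_rank_zero G
    simp [h0, qL_zero]
  | succ D ih =>
    intro k hk G
    have hw : (4 : ℤ) + 4 + 6 + ((3 * D : ℕ) : ℤ) * 4 = k := by rw [hk]; push_cast; ring
    set E : ModularForm 𝒮ℒ k :=
      ModularForm.mcast hw (((E₄.mul E₄).mul E₆).mul (E₄.pow (3 * D))) with hE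
    set c := (qExpansion 1 G).coeff 0 with hc
    have hEcoe : (E : ℍ → ℂ) = ⇑E₄ * ⇑E₄ * ⇑E₆ * ⇑E₄ ^ (3 * D) := by
      rw [hE, ModularForm.coe_mcast, ModularForm.coe_mul, ModularForm.coe_mul, ModularForm.coe_mul,
        ModularForm.coe_pow]
    have h4 := mem_qFunctions_E4
    have h6 := mem_qFunctions_E6
    have hEq : qL E = qL (⇑E₄) ^ 2 * qL (⇑E₆) * qL (⇑E₄) ^ (3 * D) := by
      rw [hEcoe, qL_mul (mul_mem (mul_mem h4 h4) h6) (pow_mem h4 _), qL_mul (mul_mem h4 h4) h6,
        qL_mul h4 h4, qL_pow h4, sq]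
    have hE0 : (qExpansion 1 E).coeff 0 = 1 := by
      rw [← qL_coeff_natCast, hEq, qL, qL, ← map_pow, ← map_mul, ← map_pow, ← map_mul,
        HahnSeries.ofPowerSeries_apply_coeff]
      simp only [PowerSeries.coeff_zero_eq_constantCoeff, map_mul, map_pow]
      simp only [← PowerSeries.coeff_zero_eq_constantCoeff]
      rw [E_qExpansion_coeff_zero _ ⟨2, rfl⟩, E_qExpansion_coeff_zero _ ⟨3, rfl⟩]
      norm_num
    set G₀ : ModularForm 𝒮ℒ k := G - c • E with hG₀
    have hcusp : (qExpansion 1 G₀).coeff 0 = 0 := by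
      rw [hG₀, FunLike.coe_sub, ModularForm.qExpansion_sub one_pos one_mem_strictPeriods_SL G (c • E),
        FunLike.coe_smul, ModularForm.qExpansion_smul one_pos one_mem_strictPeriods_SL c E,
        map_sub, PowerSeries.coeff_smul, hE0, smul_eq_mul, mul_one, sub_self]
    set G' := CuspForm.discriminantEquiv (toCuspForm G₀ hcusp) with hG'
    have hfun : (G : ℍ → ℂ) = c • (E : ℍ → ℂ) + ModularForm.discriminant * (G' : ℍ → ℂ) := by
      funext τ
      have h1 := ModularForm.discriminant_mul_discriminantEquiv_apply (toCuspForm G₀ hcusp) τ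
      rw [show (toCuspForm G₀ hcusp) τ = G₀ τ from rfl,
        show G₀ τ = G τ - c * E τ from rfl] at h1
      simp only [Pi.add_apply, Pi.smul_apply, Pi.mul_apply, smul_eq_mul, hG']
      linear_combination -h1
    have hΔ := qL_discriminant_ne_zero
    have hr1 : qL E / qL ModularForm.discriminant ^ (D + 1) = -(jC ^ D * thetaL jC) := by
      rw [div_eq_iff (pow_ne_zero _ hΔ), hEq, pow_succ (qL ModularForm.discriminant) D,
        show -(jC ^ D * thetaL jC) * (qL ModularForm.discriminant ^ D *
          qL ModularForm.discriminant) = -((jC * qL ModularForm.discriminant) ^ D *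
          (thetaL jC * qL ModularForm.discriminant)) by ring,
        jC_mul_qL_discriminant, thetaL_jC_mul_discriminant, ← pow_mul]
      ring
    have hq : qL G / qL ModularForm.discriminant ^ (D + 1) =
        algebraMap ℂ (LaurentSeries ℂ) c * (qL E / qL ModularForm.discriminant ^ (D + 1)) +
          qL G' / qL ModularForm.discriminant ^ D := by
      rw [hfun, qL_add (qFunctions.smul_mem (coe_levelOne_mem_qFunctions E) c)
        (mul_mem mem_qFunctions_discriminant (coe_levelOne_mem_qFunctions G')),
        qL_smul c (coe_levelOne_mem_qFunctions E),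
        qL_mul mem_qFunctions_discriminant (coe_levelOne_mem_qFunctions G'), add_div, mul_div_assoc,
        pow_succ', mul_div_mul_left _ _ hΔ]
    rw [hq, HahnSeries.coeff_add, hr1, ModularCurve.algebraMap_laurentSeries_eq_single,
      HahnSeries.coeff_single_zero_mul, HahnSeries.coeff_neg, coeff_zero_thetaL_mul_pow, neg_zero,
      mul_zero, zero_add]
    exact ih (by rw [hk]; push_cast; ring) G'

end Fermat.Agent.Mazur.Immersion
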