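import Fermat.Agent.Mazur.Immersion.Germ
import Mathlib

/-!
# Germs under `X ↦ X ^ l` and at the origin
-/

set_option autoImplicit false
set_option linter.unusedSectionVars false

noncomputable section

namespace Fermat.Agent.Mazur.Immersion

open PowerSeries ModularCurve

variable {K : Type*} [NormedField K] [IsUltrametricDist K] [CompleteSpace K]

theorem qExpand_ofPS (l : ℕ) [NeZero l] (g : K⟦X⟧) :
    qExpand K l (ofPS g) = ofPS (PowerSeries.expand l (NeZero.ne l) g) := by
  have hl : (0 : ℤ) < l := by exact_mod_cast Nat.pos_of_ne_zero (NeZero.ne l)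
  ext k
  by_cases hk : (l : ℤ) ∣ k
  · obtain ⟨m, rfl⟩ := hk
    rw [qExpand_coeff_mul]
    rcases lt_or_ge m 0 with hm | hm
    · rw [ofPowerSeries_coeff_of_neg _ hm,
        ofPowerSeries_coeff_of_neg _ (mul_neg_of_pos_of_neg hl hm)]
    · lift m to ℕ using hm
      rw [← Nat.cast_mul, HahnSeries.ofPowerSeries_apply_coeff,
        HahnSeries.ofPowerSeries_apply_coeff, PowerSeries.coeff_expand_mul]
  · rw [qExpand_coeff_of_not_dvd _ _ hk]
    rcases lt_or_ge k 0 with hk0 | hk0
    · rw [ofPowerSeries_coeff_of_neg _ hk0]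
    · lift k to ℕ using hk0
      rw [HahnSeries.ofPowerSeries_apply_coeff, PowerSeries.coeff_expand_of_not_dvd]
      exact fun h => hk (by exact_mod_cast h)

theorem IntSeries.expand {g : K⟦X⟧} (hg : IntSeries g) {l : ℕ} (hl : l ≠ 0) :
    IntSeries (PowerSeries.expand l hl g) := fun n => by
  rw [PowerSeries.coeff_expand]
  split_ifs
  · exact hg _
  · simp

theorem evalAt_expand (u : K) (g : K⟦X⟧) {l : ℕ} (hl : l ≠ 0) :
    evalAt u (PowerSeries.expand l hl g) = evalAt (u ^ l) g := by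
  rw [evalAt, evalAt, ← Function.Injective.tsum_eq (g := fun k => l * k)
    (mul_right_injective₀ hl)]
  · exact tsum_congr fun k => by rw [PowerSeries.coeff_expand_mul, pow_mul]
  · intro n hn
    by_contra h
    refine hn ?_
    show coeff n (PowerSeries.expand l hl g) * u ^ n = 0
    rw [PowerSeries.coeff_expand_of_not_dvd _ _ g (fun ⟨k, hk⟩ => h ⟨k, hk.symm⟩), zero_mul]

theorem norm_pow_lt_one {u : K} (hu : ‖u‖ < 1) {l : ℕ} (hl : l ≠ 0) : ‖u ^ l‖ < 1 := by
  rw [norm_pow]
  exact pow_lt_one₀ (norm_nonneg u) hu hl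

theorem RegularAt.qExpand {u : K} (hu : ‖u‖ < 1) (l : ℕ) [NeZero l] {f : LaurentSeries K}
    (hf : RegularAt (u ^ l) f) :
    RegularAt u (ModularCurve.qExpand K l f) ∧
      valAt u (ModularCurve.qExpand K l f) = valAt (u ^ l) f := by
  obtain ⟨a, b, ha, hb, h0, he⟩ := hf
  have hl := NeZero.ne l
  have h0' : evalAt u (PowerSeries.expand l hl b) ≠ 0 := by rwa [evalAt_expand]
  have he' : ModularCurve.qExpand K l f * ofPS (PowerSeries.expand l hl b) =
      ofPS (PowerSeries.expand l hl a) := by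
    rw [← qExpand_ofPS, ← qExpand_ofPS, ← map_mul, he]
  refine ⟨⟨_, _, ha.expand hl, hb.expand hl, h0', he'⟩, ?_⟩
  rw [valAt_eq hu (ha.expand hl) (hb.expand hl) h0' he',
    valAt_eq (norm_pow_lt_one hu hl) ha hb h0 he, evalAt_expand, evalAt_expand]

theorem IsBdd.qExpand (l : ℕ) [NeZero l] {f : LaurentSeries K} (hf : IsBdd f) :
    IsBdd (ModularCurve.qExpand K l f) := by
  obtain ⟨a, b, ha, hb, h0, he⟩ := hf
  have hl := NeZero.ne l
  refine ⟨_, _, ha.expand hl, hb.expand hl, fun h => h0 ?_, ?_⟩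
  · apply ofPS_injective (K := K)
    apply ModularCurve.qExpand_injective (R := K) l
    rw [qExpand_ofPS, h, map_zero, map_zero]
  · rw [← qExpand_ofPS, ← qExpand_ofPS, ← map_mul, he]

/-- Regularity of `f(X ^ l)` at `u` is regularity of `f` at `u ^ l`. -/
theorem regularAt_qExpand_iff {u : K} (hu : ‖u‖ < 1) (l : ℕ) [NeZero l] {f : LaurentSeries K}
    (hf : IsBdd f) :
    RegularAt u (ModularCurve.qExpand K l f) ↔ RegularAt (u ^ l) f := by
  refine ⟨fun h => ?_, fun h => (h.qExpand hu l).1⟩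
  have hw := norm_pow_lt_one hu (NeZero.ne l)
  rcases eq_or_ne f 0 with rfl | hne
  · simpa using regularAt_single (u ^ l) (0 : K)
  by_contra hnot
  have hi := (regularAt_or_inv hw hf).resolve_left hnot
  have h0 : valAt (u ^ l) f⁻¹ = 0 := by
    by_contra h0
    exact hnot (by simpa using (hi.inv hw h0).1)
  obtain ⟨hq, hv⟩ := hi.qExpand hu l
  have hne' : ModularCurve.qExpand K l f ≠ 0 :=
    (map_ne_zero (ModularCurve.qExpand K l)).mpr hne
  have h1 := valAt_mul hu h hq
  rw [hv, h0, mul_zero, map_inv₀, mul_inv_cancel₀ hne', valAt_one hu] at h1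
  exact one_ne_zero h1

theorem xSub_zero : xSub (0 : K) = X := by simp [xSub]

theorem evalAt_zero (g : K⟦X⟧) : evalAt 0 g = coeff 0 g := by
  rw [evalAt, tsum_eq_single 0 fun n hn => by simp [zero_pow hn]]
  simp

theorem order_ofPS_of_coeff_zero_ne_zero {g : K⟦X⟧} (hg : coeff 0 g ≠ 0) :
    (ofPS g).order = 0 := by
  have hne : ofPS g ≠ 0 := ofPS_ne_zero fun h => hg (by simp [h])
  refine le_antisymm (HahnSeries.order_le_of_coeff_ne_zero ?_) ?_
  · rw [show (0 : ℤ) = ((0 : ℕ) : ℤ) from rfl, HahnSeries.ofPowerSeries_apply_coeff]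
    exact hg
  · by_contra hlt
    exact hne (HahnSeries.coeff_order_eq_zero.mp
      (ofPowerSeries_coeff_of_neg g (not_le.mp hlt)))

/-- At the origin the multiplicity is the order of the series. -/
theorem muAt_zero_eq_order {f : LaurentSeries K} (hf : IsBdd f) (hne : f ≠ 0) :
    muAt 0 f = f.order := by
  have h0 : ‖(0 : K)‖ < 1 := by simp
  obtain ⟨g, ⟨a, b, ha, hb, hb0, he⟩, hg0, hfg⟩ := hasMu_muAt h0 hf hne
  rw [valAt_eq h0 ha hb hb0 he] at hg0
  rw [evalAt_zero] at hb0 hg0
  have ha0 : coeff 0 a ≠ 0 := fun h => hg0 (by rw [evalAt_zero, h, zero_div])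
  have hg : g ≠ 0 := fun h => by
    rw [h, zero_mul] at he
    exact ofPS_ne_zero (fun h' => ha0 (by simp [h'])) he.symm
  have hord : g.order = 0 := by
    have hb' : b ≠ 0 := fun h' => hb0 (by rw [h', map_zero])
    have h1 := HahnSeries.order_mul hg (ofPS_ne_zero hb')
    rw [he, order_ofPS_of_coeff_zero_ne_zero ha0, order_ofPS_of_coeff_zero_ne_zero hb0,
      add_zero] at h1
    exact h1.symm
  have hX : ofPS (xSub (0 : K)) = HahnSeries.single (1 : ℤ) 1 := by
    rw [xSub_zero, HahnSeries.ofPowerSeries_X]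
  have hpow : ∀ k : ℤ, (ofPS (xSub (0 : K))) ^ k = HahnSeries.single k 1 := fun k => by
    rw [hX]
    rcases Int.eq_nat_or_neg k with ⟨n, rfl | rfl⟩ <;>
      simp [zpow_natCast, HahnSeries.single_pow, HahnSeries.inv_single]
  conv_rhs => rw [hfg, hpow, HahnSeries.order_mul (HahnSeries.single_ne_zero one_ne_zero) hg,
    HahnSeries.order_single one_ne_zero, hord, add_zero]

end Fermat.Agent.Mazur.Immersion
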