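import Fermat.Agent.Mazur.Immersion.Defs
import Fermat.Agent.Mazur.Immersion.GermMap
import Fermat.Agent.Mazur.Immersion.Subst

/-!
# Points `ev(u)` of `X₀(N)`

The parameter of a point is determined by the value of `1/j`, and every `u` at which `1/j` has an
algebraic value gives a point.
-/

set_option autoImplicit false

noncomputable section

namespace Fermat.Agent.Mazur.Immersion

open AlgebraicCurve ModularCurve

local notation "ℚbar" => AlgebraicClosure ℚ

variable (q : ℕ) [Fact q.Prime]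

/-- The expansion of `1/j` over `ℤ`. -/
def jInvZ : PowerSeries ℤ := PowerSeries.X * PowerSeries.invOfUnit jNum 1

theorem jNum_mul_invOfUnit : jNum * PowerSeries.invOfUnit jNum 1 = 1 :=
  PowerSeries.mul_invOfUnit _ _ (by rw [constantCoeff_jNum]; rfl)

/-- The expansion of `1/j` in `ℂ_[q]`. -/
def jInvSer : PowerSeries ℂ_[q] := jInvZ.map (Int.castRingHom ℂ_[q])

theorem norm_intCast_le_one' (n : ℤ) : ‖(n : ℂ_[q])‖ ≤ 1 :=
  IsUltrametricDist.norm_intCast_le_one ℂ_[q] n

theorem intSeries_map_int (g : PowerSeries ℤ) :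
    IntSeries (g.map (Int.castRingHom ℂ_[q])) := fun n => by
  rw [PowerSeries.coeff_map]
  exact norm_intCast_le_one' q _

theorem intSeries_jInvSer : IntSeries (jInvSer q) := intSeries_map_int q _

theorem coeff_zero_jInvSer : PowerSeries.coeff 0 (jInvSer q) = 0 := by
  simp [jInvSer, jInvZ]

theorem coeff_one_jInvSer : PowerSeries.coeff 1 (jInvSer q) = 1 := by
  rw [jInvSer, PowerSeries.coeff_map, jInvZ, PowerSeries.coeff_succ_X_mul]
  simp

theorem inv_jqModC {R : Type*} [Field R] :
    (jqModC R)⁻¹ =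
      HahnSeries.ofPowerSeries ℤ R (jInvZ.map (Int.castRingHom R)) := by
  apply inv_eq_of_mul_eq_one_right
  rw [jqModC, jInvZ, map_mul, PowerSeries.map_X, map_mul, HahnSeries.ofPowerSeries_X,
    mul_mul_mul_comm, HahnSeries.single_mul_single, ← map_mul, ← map_mul, jNum_mul_invOfUnit]
  simp

theorem germ_jqModC : germ q (jqModC ℚbar) = jqModC ℂ_[q] :=
  coeffMap_jqModC (cEmb q)

theorem germ_inv_jqModC : germ q (jqModC ℚbar)⁻¹ = ofPS (jInvSer q) := by
  rw [map_inv₀, germ_jqModC, inv_jqModC]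
  rfl

theorem isBdd_jqModC : IsBdd (jqModC ℂ_[q]) := by
  refine ⟨jNum.map (Int.castRingHom ℂ_[q]), PowerSeries.X, intSeries_map_int q _, IntSeries.X,
    PowerSeries.X_ne_zero, ?_⟩
  rw [jqModC, HahnSeries.ofPowerSeries_X, mul_right_comm, HahnSeries.single_mul_single]
  simp

theorem isBdd_single (c : ℂ_[q]) : IsBdd (HahnSeries.single (0 : ℤ) c) :=
  (regularAt_single (0 : ℂ_[q]) c).isBdd

/-- The series with bounded germs form a subfield. -/
def bddGerms : Subfield (LaurentSeries ℚbar) where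
  carrier := {f | IsBdd (germ q f)}
  zero_mem' := by
    show IsBdd (germ q 0)
    simpa using isBdd_single q 0
  one_mem' := by
    show IsBdd (germ q 1)
    simpa using isBdd_single q 1
  add_mem' ha hb := by
    show IsBdd (germ q _)
    rw [map_add]; exact IsBdd.add ha hb
  mul_mem' ha hb := by
    show IsBdd (germ q _)
    rw [map_mul]; exact IsBdd.mul ha hb
  neg_mem' ha := by
    show IsBdd (germ q _)
    rw [map_neg]; exact IsBdd.neg ha
  inv_mem' x ha := by
    show IsBdd (germ q _)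
    rw [map_inv₀]; exact IsBdd.inv ha

theorem germ_algebraMap (c : ℚbar) :
    germ q (algebraMap ℚbar (LaurentSeries ℚbar) c) = HahnSeries.single (0 : ℤ) (cEmb q c) := by
  rw [algebraMap_laurentSeries_eq_single, germ, coeffMap_single]

theorem coeffMap_qExpand_comm {R S : Type*} [CommRing R] [CommRing S] (f : R →+* S) (l : ℕ)
    [NeZero l] (x : LaurentSeries R) :
    coeffMap f (qExpand R l x) = qExpand S l (coeffMap f x) := by
  ext k
  by_cases hk : (l : ℤ) ∣ k
  · obtain ⟨m, rfl⟩ := hk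
    simp
  · simp [qExpand_coeff_of_not_dvd _ _ hk]

theorem germ_qExpand (l : ℕ) [NeZero l] (f : LaurentSeries ℚbar) :
    germ q (qExpand ℚbar l f) = qExpand ℂ_[q] l (germ q f) :=
  coeffMap_qExpand_comm _ l f

theorem coeffEmb_mem_bddGerms {N : ℕ} [NeZero N] {x : LaurentSeries ℚ}
    (hx : x ∈ modularFunctionFieldFull N) : coeffEmb ℚbar x ∈ bddGerms q := by
  rw [modularFunctionFieldFull] at hx
  induction hx using IntermediateField.adjoin_induction with
  | mem y hy =>
    obtain ⟨d, hd, -, rfl⟩ := hy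
    show IsBdd (germ q _)
    rw [coeffEmb, coeffMap_qExpand_comm, germ_qExpand,
      show coeffMap (algebraMap ℚ ℚbar) jq = jqModC ℚbar from coeffMap_jqModC _, germ_jqModC]
    exact (isBdd_jqModC q).qExpand d
  | algebraMap c =>
    show IsBdd (germ q _)
    rw [algebraMap_apply_eq_single, coeffEmb, coeffMap_single, germ, coeffMap_single]
    exact isBdd_single q _
  | add a b _ _ ha hb => rw [map_add]; exact add_mem ha hb
  | inv a _ ha => rw [map_inv₀]; exact inv_mem ha
  | mul a b _ _ ha hb => rw [map_mul]; exact mul_mem ha hb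

theorem mem_bddGerms {N : ℕ} [NeZero N] {f : LaurentSeries ℚbar}
    (hf : f ∈ modularFunctionFieldBar N) : IsBdd (germ q f) := by
  have hle : Subfield.closure (Set.range (algebraMap ℚbar (LaurentSeries ℚbar)) ∪
      (⇑(coeffEmb ℚbar) '' (modularFunctionFieldFull N : Set (LaurentSeries ℚ)))) ≤
      bddGerms q := by
    refine Subfield.closure_le.mpr ?_
    rintro x (⟨c, rfl⟩ | ⟨y, hy, rfl⟩)
    · show IsBdd (germ q _)
      rw [germ_algebraMap]
      exact isBdd_single q _
    · exact coeffEmb_mem_bddGerms q hy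
  exact hle (mem_laurentBaseChange_iff.mp hf)

variable (N : ℕ) [NeZero N]

/-- The expansion at `∞` as a germ map. -/
def stdMap : GermMap ℚbar (modularFunctionFieldBar N) ℂ_[q] where
  φ := (germ q).comp (modularFunctionFieldBar N).val.toRingHom
  e := cEmb q
  map_const c := germ_algebraMap q c
  bdd f := mem_bddGerms q f.2

theorem stdMap_apply (f : modularFunctionFieldBar N) :
    (stdMap q N).φ f = germ q (f : LaurentSeries ℚbar) := rfl

variable {q N}

theorem isEvalPlace_iff {P : Place ℚbar (modularFunctionFieldBar N)} {s : ℂ_[q]} :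
    IsEvalPlace q N P s ↔ (stdMap q N).IsPlaceAt P s := Iff.rfl

/-- The value of `1/j` at `u`. -/
def jInvVal (u : ℂ_[q]) : ℂ_[q] := evalAt u (jInvSer q)

/-- `1/j` in the function field. -/
abbrev jInvElem (N : ℕ) [NeZero N] : modularFunctionFieldBar N := (MF.Coeff.jElem ℚbar N)⁻¹

theorem stdMap_jInvElem : (stdMap q N).φ (jInvElem N) = ofPS (jInvSer q) := by
  rw [stdMap_apply, IntermediateField.coe_inv, MF.Coeff.coe_jElem, germ_inv_jqModC]

theorem norm_divXSub_jInv_eval {u : ℂ_[q]} (hu : ‖u‖ < 1) :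
    ‖evalAt u (divXSub u (jInvSer q))‖ = 1 := by
  set D := divXSub u (jInvSer q) with hD
  have hDint : IntSeries D := intSeries_divXSub hu (intSeries_jInvSer q)
  have h0 : ‖PowerSeries.coeff 0 D - 1‖ ≤ ‖u‖ := by
    have hshift : IntSeries (PowerSeries.mk fun k => PowerSeries.coeff (k + 1) (jInvSer q)) :=
      fun k => by simpa using intSeries_jInvSer q (k + 1)
    have := norm_evalAt_sub_coeff_zero_le hu hshift
    rw [PowerSeries.coeff_mk, coeff_one_jInvSer] at this
    simpa [hD, divXSub, evalAt, add_comm 1] using this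
  have h1 : ‖evalAt u D - 1‖ < 1 := by
    have := IsUltrametricDist.norm_add_le_max (evalAt u D - PowerSeries.coeff 0 D)
      (PowerSeries.coeff 0 D - 1)
    rw [sub_add_sub_cancel] at this
    exact this.trans_lt (max_lt ((norm_evalAt_sub_coeff_zero_le hu hDint).trans_lt hu)
      (h0.trans_lt hu))
  have h2 : evalAt u D = (evalAt u D - 1) + 1 := by ring
  rw [h2, IsUltrametricDist.norm_add_eq_max_of_norm_ne_norm (by rw [norm_one]; exact h1.ne),
    norm_one, max_eq_right h1.le]

theorem jInvVal_sub {u u' : ℂ_[q]} (hu : ‖u‖ < 1) (hu' : ‖u'‖ < 1) :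
    jInvVal u' - jInvVal u = (u' - u) * evalAt u' (divXSub u (jInvSer q)) := by
  have hD := intSeries_divXSub hu (intSeries_jInvSer q)
  have he := evalAt_add_xSub_mul_divXSub hu (intSeries_jInvSer q)
  have hC : IntSeries (PowerSeries.C (evalAt u (jInvSer q))) :=
    IntSeries.C (norm_evalAt_le hu (intSeries_jInvSer q))
  unfold jInvVal
  nth_rw 1 [← he]
  rw [evalAt_add hu' hC ((intSeries_xSub hu).mul hD), evalAt_C,
    evalAt_mul hu' (intSeries_xSub hu) hD, evalAt_xSub hu' u hu]
  ring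

theorem norm_jInvVal_sub {u u' : ℂ_[q]} (hu : ‖u‖ < 1) (hu' : ‖u'‖ < 1) :
    ‖jInvVal u' - jInvVal u‖ = ‖u' - u‖ := by
  have hD : IntSeries (divXSub u (jInvSer q)) := intSeries_divXSub hu (intSeries_jInvSer q)
  rw [jInvVal_sub hu hu', norm_mul]
  have h1 := norm_evalAt_sub_coeff_zero_le hu' hD
  have h2 := norm_evalAt_sub_coeff_zero_le hu hD
  set a := evalAt u' (divXSub u (jInvSer q))
  set b := evalAt u (divXSub u (jInvSer q))
  set c := PowerSeries.coeff 0 (divXSub u (jInvSer q))
  have hb : ‖b‖ = 1 := norm_divXSub_jInv_eval hu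
  have hlt : ‖a - b‖ < 1 := by
    have := IsUltrametricDist.norm_add_le_max (a - c) (-(b - c))
    rw [show a - c + -(b - c) = a - b by ring, norm_neg] at this
    exact this.trans_lt (max_lt (h1.trans_lt hu') (h2.trans_lt hu))
  have ha : ‖a‖ = 1 := by
    rw [show a = a - b + b by ring,
      IsUltrametricDist.norm_add_eq_max_of_norm_ne_norm (by rw [hb]; exact hlt.ne), hb,
      max_eq_right hlt.le]
  rw [ha, mul_one]

theorem jInvVal_injective {u u' : ℂ_[q]} (hu : ‖u‖ < 1) (hu' : ‖u'‖ < 1)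
    (h : jInvVal u = jInvVal u') : u = u' := by
  have := norm_jInvVal_sub hu hu'
  rw [h, sub_self, norm_zero] at this
  exact (sub_eq_zero.mp (norm_eq_zero.mp this.symm)).symm

theorem jInvVal_zero : jInvVal (0 : ℂ_[q]) = 0 := by
  rw [jInvVal, evalAt_zero, coeff_zero_jInvSer]

theorem norm_jInvVal {u : ℂ_[q]} (hu : ‖u‖ < 1) : ‖jInvVal u‖ = ‖u‖ := by
  simpa [jInvVal_zero] using norm_jInvVal_sub (norm_zero.trans_lt one_pos) hu

theorem muAt_jInv_sub {u : ℂ_[q]} (hu : ‖u‖ < 1) {c : ℚbar} (hc : cEmb q c = jInvVal u) :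
    muAt u ((stdMap q N).φ (jInvElem N - algebraMap ℚbar _ c)) = 1 := by
  have hD := intSeries_divXSub hu (intSeries_jInvSer q)
  rw [map_sub, stdMap_jInvElem, (stdMap q N).map_const]
  refine HasMu.muAt_eq hu ⟨ofPS (divXSub u (jInvSer q)), regularAt_ofPS u hD, ?_, ?_⟩
  · rw [valAt_ofPS hu hD]
    intro h
    simpa [h] using (norm_divXSub_jInv_eval (q := q) hu)
  · show ofPS (jInvSer q) - HahnSeries.single (0 : ℤ) (cEmb q c) = _
    rw [hc, jInvVal, zpow_one, ← map_mul, ← HahnSeries.C_apply, ← HahnSeries.ofPowerSeries_C,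
      ← map_sub]
    congr 1
    rw [sub_eq_iff_eq_add', evalAt_add_xSub_mul_divXSub hu (intSeries_jInvSer q)]

theorem isFunctionField_bar : FF.IsFunctionField ℚbar (modularFunctionFieldBar N) :=
  MF.Coeff.isFunctionField_laurentBaseChange ℚbar N

theorem jInv_sub_ne_zero (c : ℚbar) :
    jInvElem N - algebraMap ℚbar (modularFunctionFieldBar N) c ≠ 0 := fun h => by
  refine MF.Coeff.transcendental_jElem ℚbar N ?_
  have := (isAlgebraic_algebraMap (A := modularFunctionFieldBar N) c).inv
  rwa [← sub_eq_zero.mp h, inv_inv] at this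

/-- An algebraic value of `1/j` gives a point. -/
theorem exists_isEvalPlace {u : ℂ_[q]} (hu : ‖u‖ < 1) {c : ℚbar} (hc : cEmb q c = jInvVal u) :
    ∃ P, IsEvalPlace q N P u :=
  haveI := isFunctionField_bar (N := N)
  (stdMap q N).exists_isPlaceAt hu (jInv_sub_ne_zero c)
    (by rw [muAt_jInv_sub hu hc]; exact one_ne_zero)

theorem IsEvalPlace.jInv_mem {P : Place ℚbar (modularFunctionFieldBar N)} {u : ℂ_[q]}
    (h : IsEvalPlace q N P u) : jInvElem N ∈ P.toValuationSubring := by
  refine (h.2 _).mpr ?_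
  rw [← stdMap_apply, stdMap_jInvElem]
  exact regularAt_ofPS u (intSeries_jInvSer q)

theorem IsEvalPlace.cEmb_pval {P : Place ℚbar (modularFunctionFieldBar N)} {u : ℂ_[q]}
    (h : IsEvalPlace q N P u) : cEmb q (RED.pval P (jInvElem N)) = jInvVal u := by
  haveI := isFunctionField_bar (N := N)
  have h1 := GermMap.IsPlaceAt.valAt_eq_pval (isEvalPlace_iff.mp h) h.jInv_mem
  rw [stdMap_jInvElem, valAt_ofPS h.1 (intSeries_jInvSer q)] at h1
  exact h1.symm

theorem IsEvalPlace.param_unique {P : Place ℚbar (modularFunctionFieldBar N)} {u u' : ℂ_[q]}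
    (h : IsEvalPlace q N P u) (h' : IsEvalPlace q N P u') : u = u' :=
  jInvVal_injective h.1 h'.1 (h.cEmb_pval.symm.trans h'.cEmb_pval)

theorem IsEvalPlace.muAt_eq_ord {P : Place ℚbar (modularFunctionFieldBar N)} {u : ℂ_[q]}
    (h : IsEvalPlace q N P u) {f : modularFunctionFieldBar N} (hf : f ≠ 0) :
    muAt u (germ q (f : LaurentSeries ℚbar)) = P.ord f :=
  haveI := isFunctionField_bar (N := N)
  GermMap.IsPlaceAt.muAt_eq_ord (isEvalPlace_iff.mp h) (jInv_sub_ne_zero _)
    (muAt_jInv_sub h.1 h.cEmb_pval) hf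

end Fermat.Agent.Mazur.Immersion
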