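import Fermat.Agent.Mazur.Immersion.GermMap
import Fermat.Agent.Mazur.Immersion.Subst
import Fermat.Agent.FF.Along
import Fermat.Agent.FF.Curve

/-!
# Places at points of the disc above places at points of the disc

For a morphism `ψ : F → F'` compatible with germ maps, either by `f ↦ f` or by `f ↦ f(X ^ l)`, and
a correspondence evaluated on one place from enough places of a fibre.
-/

set_option autoImplicit false
set_option linter.unusedSectionVars false

noncomputable section

namespace Fermat.Agent.Mazur.Immersion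

open AlgebraicCurve

theorem bdd_of_adjoin {L K : Type*} [Field L] [NormedField K] [IsUltrametricDist K]
    [CompleteSpace K] {E : IntermediateField L (LaurentSeries L)} {S : Set (LaurentSeries L)}
    (hE : E = IntermediateField.adjoin L S) (φ : E →+* LaurentSeries K)
    (hconst : ∀ (c : L) (h : algebraMap L (LaurentSeries L) c ∈ E), IsBdd (φ ⟨_, h⟩))
    (hgen : ∀ (x : LaurentSeries L) (_ : x ∈ S) (h : x ∈ E), IsBdd (φ ⟨x, h⟩)) (f : E) :
    IsBdd (φ f) := by
  subst hE
  obtain ⟨x, hx⟩ := f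
  induction hx using IntermediateField.adjoin_induction with
  | mem y hy => exact hgen y hy _
  | algebraMap c => exact hconst c _
  | add a b ha hb iha ihb =>
    rw [show (⟨a + b, add_mem ha hb⟩ : IntermediateField.adjoin L S) = ⟨a, ha⟩ + ⟨b, hb⟩ from rfl,
      map_add]
    exact iha.add ihb
  | inv a ha iha =>
    rw [show (⟨a⁻¹, inv_mem ha⟩ : IntermediateField.adjoin L S) = (⟨a, ha⟩ :
      IntermediateField.adjoin L S)⁻¹ from rfl, map_inv₀]
    exact iha.inv
  | mul a b ha hb iha ihb =>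
    rw [show (⟨a * b, mul_mem ha hb⟩ : IntermediateField.adjoin L S) = ⟨a, ha⟩ * ⟨b, hb⟩ from rfl,
      map_mul]
    exact iha.mul ihb

variable {L F F' K : Type*} [Field L] [Field F] [Algebra L F] [Field F'] [Algebra L F']
  [NormedField K] [IsUltrametricDist K] [CompleteSpace K]

theorem mem_restrictAlong_iff (ψ : F →ₐ[L] F') (hψ : ψ.toRingHom.IsIntegral) (Q : Place L F')
    (f : F) : f ∈ (Q.restrictAlong ψ hψ).toValuationSubring ↔ ψ f ∈ Q.toValuationSubring :=
  Iff.rfl

namespace GermMap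

variable {Φ : GermMap L F K} {Φ' : GermMap L F' K} {ψ : F →ₐ[L] F'}
  {hψ : ψ.toRingHom.IsIntegral}

theorem IsPlaceAt.restrict_same (h : ∀ f, Φ'.φ (ψ f) = Φ.φ f) {Q : Place L F'} {u : K}
    (hQ : Φ'.IsPlaceAt Q u) : Φ.IsPlaceAt (Q.restrictAlong ψ hψ) u :=
  ⟨hQ.1, fun f => by rw [mem_restrictAlong_iff, hQ.2, h]⟩

theorem IsPlaceAt.restrict_qExpand {l : ℕ} [NeZero l]
    (h : ∀ f, Φ'.φ (ψ f) = ModularCurve.qExpand K l (Φ.φ f)) {Q : Place L F'} {v : K}
    (hQ : Φ'.IsPlaceAt Q v) : Φ.IsPlaceAt (Q.restrictAlong ψ hψ) (v ^ l) :=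
  ⟨norm_pow_lt_one hQ.1 (NeZero.ne l), fun f => by
    rw [mem_restrictAlong_iff, hQ.2, h, regularAt_qExpand_iff hQ.1 l (Φ.bdd f)]⟩

/-- A root of the parameter gives a place. -/
theorem exists_root [FF.IsFunctionField L F'] {l : ℕ} [NeZero l]
    (h : ∀ f, Φ'.φ (ψ f) = ModularCurve.qExpand K l (Φ.φ f)) {v : K} (hv : ‖v‖ < 1) {g : F}
    (hg : g ≠ 0) (hμ : muAt (v ^ l) (Φ.φ g) = 1) : ∃ Q, Φ'.IsPlaceAt Q v := by
  have hw := norm_pow_lt_one hv (NeZero.ne l)
  have hgn : Φ.φ g ≠ 0 := Φ.map_ne_zero_iff'.mpr hg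
  have hr : RegularAt (v ^ l) (Φ.φ g) :=
    (regularAt_iff_muAt hw (Φ.bdd g) hgn).mpr (by rw [hμ]; exact zero_le_one)
  refine Φ'.exists_isPlaceAt hv ((map_ne_zero ψ).mpr hg) fun h0 => ?_
  rw [h] at h0
  obtain ⟨hq, hval⟩ := hr.qExpand hv l
  have h1 := (valAt_ne_zero_iff hv hq ((map_ne_zero _).mpr hgn)).mpr h0
  rw [hval, valAt_ne_zero_iff hw hr hgn, hμ] at h1
  exact one_ne_zero h1

/-- The same parameter gives an unramified place. -/
theorem exists_same [FF.IsFunctionField L F'] (h : ∀ f, Φ'.φ (ψ f) = Φ.φ f) {u : K} (hu : ‖u‖ < 1)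
    {g : F} (hg : g ≠ 0) (hμ : muAt u (Φ.φ g) = 1) :
    ∃ Q, Φ'.IsPlaceAt Q u ∧ Q.ord (ψ g) = 1 := by
  have hg' : ψ g ≠ 0 := (map_ne_zero ψ).mpr hg
  have hμ' : muAt u (Φ'.φ (ψ g)) = 1 := by rw [h]; exact hμ
  obtain ⟨Q, hQ⟩ := Φ'.exists_isPlaceAt hu hg' (by rw [hμ']; exact one_ne_zero)
  exact ⟨Q, hQ, (hQ.muAt_eq_ord hg' hμ' hg').symm.trans hμ'⟩

end GermMap

theorem ramificationIndexAlong_eq_of_ord (ψ : F →ₐ[L] F') (hψ : ψ.toRingHom.IsIntegral)
    {Q : Place L F'} {P : Place L F} (hQ : Q.restrictAlong ψ hψ = P) {g : F} (hP : P.ord g = 1) :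
    (Q.ramificationIndexAlong ψ : ℤ) = Q.ord (ψ g) := by
  rw [Place.ord_restrictAlong ψ hψ Q g, hQ, hP, mul_one]

theorem one_le_ramificationIndexAlong (ψ : F →ₐ[L] F') (hψ : ψ.toRingHom.IsIntegral)
    (Q : Place L F') : 1 ≤ Q.ramificationIndexAlong ψ := by
  letI := algebraAlong ψ
  haveI := isScalarTower_along ψ
  haveI := isIntegral_along ψ hψ
  exact Q.ramificationIndex_pos

/-- A correspondence on one place, from enough places of the fibre. -/
theorem correspondence_single [IsAlgClosed L] [CharZero L] [FF.IsFunctionField L F]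
    [FF.IsFunctionField L F'] [HasPrincipalDivisors L F']
    (φ ψ : F →ₐ[L] F') (hφ : φ.toRingHom.IsIntegral) (hψ : ψ.toRingHom.IsIntegral)
    (v : Place L F) {ι : Type*} (S : Finset ι) (Q : ι → Place L F') (m : ι → ℕ)
    (hinj : Set.InjOn Q S) (hover : ∀ i ∈ S, (Q i).restrictAlong φ hφ = v)
    (hm : ∀ i ∈ S, m i ≤ (Q i).ramificationIndexAlong φ)
    (hsum : finrankAlong L φ ≤ ∑ i ∈ S, m i) :
    Divisor.correspondence φ ψ hφ hψ (Finsupp.single v 1) =
      ∑ i ∈ S, Finsupp.single ((Q i).restrictAlong ψ hψ) (m i : ℤ) := by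
  classical
  have h := FF.sum_ramificationIndexAlong_mul_inertiaDegAlong φ hφ
    (FF.finiteAlong_of_isFunctionField φ) (FF.separableAlong_of_isFunctionField φ) v
  simp only [FF.inertiaDegAlong_eq_one, Nat.cast_one, mul_one] at h
  have h' : ∑ w ∈ Place.fiberAlong φ hφ v, w.ramificationIndexAlong φ = finrankAlong L φ := by
    exact_mod_cast h
  have hsub : S.image Q ⊆ Place.fiberAlong φ hφ v := fun w hw => by
    obtain ⟨i, hi, rfl⟩ := Finset.mem_image.mp hw
    exact Place.mem_fiberAlong.mpr (hover i hi)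
  have hle : ∑ i ∈ S, (Q i).ramificationIndexAlong φ ≤ finrankAlong L φ := by
    rw [← h', ← Finset.sum_image hinj (f := fun w : Place L F' => w.ramificationIndexAlong φ)]
    exact Finset.sum_le_sum_of_subset hsub
  have heq : ∀ i ∈ S, (Q i).ramificationIndexAlong φ = m i := by
    intro i hi
    refine le_antisymm ?_ (hm i hi)
    by_contra hlt
    have h1 := Finset.sum_lt_sum hm ⟨i, hi, not_le.mp hlt⟩
    exact absurd (hsum.trans_lt h1) (not_lt.mpr hle)
  have hall : S.image Q = Place.fiberAlong φ hφ v := by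
    refine Finset.Subset.antisymm hsub fun w hw => ?_
    by_contra hwS
    have h1 := Finset.sum_lt_sum_of_subset hsub hw hwS (one_le_ramificationIndexAlong φ hφ w)
      (f := fun w => w.ramificationIndexAlong φ) fun x _ _ => Nat.zero_le _
    rw [Finset.sum_image hinj, Finset.sum_congr rfl heq, h'] at h1
    exact absurd h1 (not_lt.mpr hsum)
  unfold Divisor.correspondence
  rw [AddMonoidHom.comp_apply, Divisor.pullbackAlong_single, ← hall, Finset.sum_image hinj, map_sum]
  refine Finset.sum_congr rfl fun i hi => ?_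
  rw [Divisor.pushforwardAlong_single, FF.inertiaDegAlong_eq_one, Nat.cast_one, mul_one, one_mul,
    heq i hi]

theorem order_qExpand {R : Type*} [Field R] (l : ℕ) [NeZero l] {f : LaurentSeries R}
    (hf : f ≠ 0) : (ModularCurve.qExpand R l f).order = l * f.order := by
  have hne : ModularCurve.qExpand R l f ≠ 0 := (map_ne_zero (ModularCurve.qExpand R l)).mpr hf
  refine le_antisymm (HahnSeries.order_le_of_coeff_ne_zero ?_) ?_
  · rw [ModularCurve.qExpand_coeff_mul]
    exact fun h => hf (HahnSeries.coeff_order_eq_zero.mp h)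
  · have hk : (ModularCurve.qExpand R l f).coeff (ModularCurve.qExpand R l f).order ≠ 0 :=
      fun h => hne (HahnSeries.coeff_order_eq_zero.mp h)
    by_cases hdvd : (l : ℤ) ∣ (ModularCurve.qExpand R l f).order
    · obtain ⟨m, hm⟩ := hdvd
      rw [hm, ModularCurve.qExpand_coeff_mul] at hk
      rw [hm]
      exact mul_le_mul_of_nonneg_left (HahnSeries.order_le_of_coeff_ne_zero hk)
        (Int.natCast_nonneg l)
    · exact absurd (ModularCurve.qExpand_coeff_of_not_dvd l f hdvd) hk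

/-- At the origin, `f(X ^ l)` has `l` times the multiplicity of `f`. -/
theorem muAt_zero_qExpand (l : ℕ) [NeZero l] {f : LaurentSeries K} (hf : IsBdd f) (hne : f ≠ 0) :
    muAt 0 (ModularCurve.qExpand K l f) = l * muAt 0 f := by
  rw [muAt_zero_eq_order (hf.qExpand l) ((map_ne_zero _).mpr hne), muAt_zero_eq_order hf hne,
    order_qExpand l hne]

end Fermat.Agent.Mazur.Immersion
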