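import Mathlib

/-!
# Evaluation of power series with integral coefficients

Over a complete ultrametric field, power series with coefficients in the closed unit ball can be
evaluated in the open unit disc, and divided by `X - u` there.
-/

set_option autoImplicit false
set_option linter.unusedSectionVars false

noncomputable section

namespace Fermat.Agent.Mazur.Immersion

open PowerSeries Filter Topology

variable {K : Type*} [NormedField K]

/-- All coefficients lie in the closed unit ball. -/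
def IntSeries (g : K⟦X⟧) : Prop := ∀ n, ‖coeff n g‖ ≤ 1

theorem IntSeries.zero : IntSeries (0 : K⟦X⟧) := fun n => by simp

theorem IntSeries.one : IntSeries (1 : K⟦X⟧) := fun n => by
  rcases eq_or_ne n 0 with rfl | h <;> simp [coeff_one, *]

theorem IntSeries.C {a : K} (ha : ‖a‖ ≤ 1) : IntSeries (C a) := fun n => by
  rw [coeff_C]
  split_ifs <;> simp [ha]

theorem IntSeries.X : IntSeries (X : K⟦X⟧) := fun n => by
  rw [coeff_X]
  split_ifs <;> simp

theorem IntSeries.neg {f : K⟦X⟧} (hf : IntSeries f) : IntSeries (-f) := fun n => by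
  simpa using hf n

variable [IsUltrametricDist K]

theorem IntSeries.add {f g : K⟦X⟧} (hf : IntSeries f) (hg : IntSeries g) : IntSeries (f + g) :=
  fun n => by
    rw [map_add]
    exact (IsUltrametricDist.norm_add_le_max _ _).trans (max_le (hf n) (hg n))

theorem IntSeries.sub {f g : K⟦X⟧} (hf : IntSeries f) (hg : IntSeries g) : IntSeries (f - g) :=
  sub_eq_add_neg f g ▸ hf.add hg.neg

theorem IntSeries.mul {f g : K⟦X⟧} (hf : IntSeries f) (hg : IntSeries g) : IntSeries (f * g) :=
  fun n => by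
    rw [coeff_mul]
    refine IsUltrametricDist.norm_sum_le_of_forall_le_of_nonneg zero_le_one fun p _ => ?_
    rw [norm_mul]
    exact mul_le_one₀ (hf _) (norm_nonneg _) (hg _)

theorem IntSeries.pow {f : K⟦X⟧} (hf : IntSeries f) (k : ℕ) : IntSeries (f ^ k) := by
  induction k with
  | zero => simpa using IntSeries.one
  | succ k ih => rw [pow_succ]; exact ih.mul hf

theorem IntSeries.prod {ι : Type*} {s : Finset ι} {f : ι → K⟦X⟧}
    (h : ∀ i ∈ s, IntSeries (f i)) : IntSeries (∏ i ∈ s, f i) := by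
  induction s using Finset.cons_induction with
  | empty => simpa using IntSeries.one
  | cons a s ha ih =>
    rw [Finset.prod_cons]
    exact (h a (Finset.mem_cons_self a s)).mul (ih fun i hi => h i (Finset.mem_cons_of_mem hi))

/-- The linear series `X - u`. -/
def xSub (u : K) : K⟦X⟧ := X - C u

theorem intSeries_xSub {u : K} (hu : ‖u‖ < 1) : IntSeries (xSub u) :=
  IntSeries.X.sub (IntSeries.C hu.le)

theorem xSub_ne_zero (u : K) : xSub u ≠ 0 := fun h => by
  simpa [xSub, coeff_C] using congrArg (coeff 1) h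

/-- The value of a series at `u`. -/
def evalAt (u : K) (g : K⟦X⟧) : K := ∑' n, coeff n g * u ^ n

theorem summable_norm_eval {u : K} (hu : ‖u‖ < 1) {g : K⟦X⟧} (hg : IntSeries g) :
    Summable fun n => ‖coeff n g * u ^ n‖ := by
  refine Summable.of_nonneg_of_le (fun n => norm_nonneg _) (fun n => ?_)
    (summable_geometric_of_lt_one (norm_nonneg u) hu)
  rw [norm_mul, norm_pow]
  exact mul_le_of_le_one_left (pow_nonneg (norm_nonneg u) n) (hg n)

variable [CompleteSpace K]

theorem summable_eval {u : K} (hu : ‖u‖ < 1) {g : K⟦X⟧} (hg : IntSeries g) :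
    Summable fun n => coeff n g * u ^ n :=
  (summable_norm_eval hu hg).of_norm

@[simp]
theorem evalAt_C (u a : K) : evalAt u (C a) = a := by
  rw [evalAt, tsum_eq_single 0 fun n hn => by simp [coeff_C, hn]]
  simp

@[simp]
theorem evalAt_one (u : K) : evalAt u 1 = 1 := by
  rw [← map_one (C (R := K)), evalAt_C]

@[simp]
theorem evalAt_X (u : K) : evalAt u X = u := by
  rw [evalAt, tsum_eq_single 1 fun n hn => by simp [coeff_X, hn]]
  simp

@[simp]
theorem evalAt_zero_series (u : K) : evalAt u (0 : K⟦X⟧) = 0 := by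
  simp [evalAt]

theorem evalAt_add {u : K} (hu : ‖u‖ < 1) {f g : K⟦X⟧} (hf : IntSeries f) (hg : IntSeries g) :
    evalAt u (f + g) = evalAt u f + evalAt u g := by
  rw [evalAt, evalAt, evalAt, ← (summable_eval hu hf).tsum_add (summable_eval hu hg)]
  simp [add_mul]

theorem evalAt_neg (u : K) (f : K⟦X⟧) : evalAt u (-f) = -evalAt u f := by
  rw [evalAt, evalAt, ← tsum_neg]
  simp

theorem evalAt_sub {u : K} (hu : ‖u‖ < 1) {f g : K⟦X⟧} (hf : IntSeries f) (hg : IntSeries g) :
    evalAt u (f - g) = evalAt u f - evalAt u g := by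
  rw [sub_eq_add_neg, evalAt_add hu hf hg.neg, evalAt_neg, sub_eq_add_neg]

theorem evalAt_mul {u : K} (hu : ‖u‖ < 1) {f g : K⟦X⟧} (hf : IntSeries f) (hg : IntSeries g) :
    evalAt u (f * g) = evalAt u f * evalAt u g := by
  rw [evalAt, evalAt, evalAt, tsum_mul_tsum_eq_tsum_sum_antidiagonal_of_summable_norm
    (summable_norm_eval hu hf) (summable_norm_eval hu hg)]
  refine tsum_congr fun n => ?_
  rw [coeff_mul, Finset.sum_mul]
  refine Finset.sum_congr rfl fun p hp => ?_
  rw [← Finset.HasAntidiagonal.mem_antidiagonal.mp hp, pow_add]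
  ring

theorem evalAt_eq_coeff_zero_add {u : K} (hu : ‖u‖ < 1) {g : K⟦X⟧} (hg : IntSeries g) :
    evalAt u g = coeff 0 g + u * ∑' n, coeff (n + 1) g * u ^ n := by
  rw [evalAt, (summable_eval hu hg).tsum_eq_zero_add, ← tsum_mul_left, pow_zero, mul_one]
  congr 1
  exact tsum_congr fun n => by rw [pow_succ]; ring

theorem norm_tsum_coeff_le {u : K} (hu : ‖u‖ < 1) {g : K⟦X⟧} (hg : IntSeries g) (m : ℕ) :
    ‖∑' n, coeff (m + n) g * u ^ n‖ ≤ 1 := by
  refine IsUltrametricDist.norm_tsum_le_of_forall_le_of_nonneg zero_le_one fun n => ?_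
  rw [norm_mul, norm_pow]
  exact mul_le_one₀ (hg _) (pow_nonneg (norm_nonneg u) n) (pow_le_one₀ (norm_nonneg u) hu.le)

theorem norm_evalAt_le {u : K} (hu : ‖u‖ < 1) {g : K⟦X⟧} (hg : IntSeries g) :
    ‖evalAt u g‖ ≤ 1 := by
  simpa [evalAt] using norm_tsum_coeff_le hu hg 0

theorem norm_evalAt_sub_coeff_zero_le {u : K} (hu : ‖u‖ < 1) {g : K⟦X⟧} (hg : IntSeries g) :
    ‖evalAt u g - coeff 0 g‖ ≤ ‖u‖ := by
  rw [evalAt_eq_coeff_zero_add hu hg, add_sub_cancel_left, norm_mul]
  refine mul_le_of_le_one_right (norm_nonneg u) ?_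
  simpa [add_comm] using norm_tsum_coeff_le hu hg 1

/-- The quotient of `g - g(u)` by `X - u`. -/
def divXSub (u : K) (g : K⟦X⟧) : K⟦X⟧ := mk fun n => ∑' k, coeff (n + 1 + k) g * u ^ k

theorem intSeries_divXSub {u : K} (hu : ‖u‖ < 1) {g : K⟦X⟧} (hg : IntSeries g) :
    IntSeries (divXSub u g) := fun n => by
  rw [divXSub, coeff_mk]
  exact norm_tsum_coeff_le hu hg _

theorem evalAt_add_xSub_mul_divXSub {u : K} (hu : ‖u‖ < 1) {g : K⟦X⟧} (hg : IntSeries g) :
    C (evalAt u g) + xSub u * divXSub u g = g := by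
  have hs : ∀ m, Summable fun k => coeff (m + k) g * u ^ k := fun m => by
    have : IntSeries (mk fun k => coeff (m + k) g) := fun k => by simpa using hg (m + k)
    simpa using summable_eval hu this
  ext n
  rcases n with _ | n
  · rw [map_add, coeff_C, if_pos rfl, xSub, sub_mul, map_sub, coeff_zero_X_mul, coeff_C_mul,
      divXSub, coeff_mk, evalAt_eq_coeff_zero_add hu hg, zero_add, zero_sub]
    simp only [add_comm 1]
    ring
  · rw [map_add, coeff_C, if_neg (Nat.succ_ne_zero n), xSub, sub_mul, map_sub,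
      coeff_succ_X_mul, coeff_C_mul, divXSub, coeff_mk, coeff_mk, (hs (n + 1)).tsum_eq_zero_add,
      zero_add, add_zero, pow_zero, mul_one, ← tsum_mul_left,
      tsum_congr fun k => show coeff (n + 1 + (k + 1)) g * u ^ (k + 1) =
        u * (coeff (n + 1 + 1 + k) g * u ^ k) by rw [pow_succ, show n + 1 + (k + 1) = n + 1 + 1 + k by omega]; ring]
    ring

theorem evalAt_xSub {u : K} (hu : ‖u‖ < 1) (v : K) (hv : ‖v‖ < 1) : evalAt u (xSub v) = u - v := by
  rw [xSub, evalAt_sub hu IntSeries.X (IntSeries.C hv.le), evalAt_X, evalAt_C]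

/-- Series divisible by every power of `X - u` vanish. -/
theorem coeff_xSub_pow_mul_norm_le {u : K} (hu : ‖u‖ < 1) {h : K⟦X⟧} (hh : IntSeries h)
    (n m : ℕ) : ‖coeff m (xSub u ^ n * h)‖ ≤ ‖u‖ ^ (n - m) := by
  induction n generalizing m with
  | zero => simpa using hh m
  | succ n ih =>
    have hpos := norm_nonneg u
    rw [pow_succ', mul_assoc, xSub, sub_mul, map_sub, coeff_C_mul]
    rw [sub_eq_add_neg]
    refine (IsUltrametricDist.norm_add_le_max _ _).trans (max_le ?_ ?_)
    · rcases m with _ | m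
      · simp
      · rw [coeff_succ_X_mul]
        refine (ih m).trans (le_of_eq ?_)
        congr 1
        omega
    · rw [norm_neg, norm_mul]
      refine (mul_le_mul_of_nonneg_left (ih m) hpos).trans ?_
      rw [← pow_succ']
      exact pow_le_pow_of_le_one hpos hu.le (by omega)

/-- Every nonzero integral series is a power of `X - u` times a series not vanishing at `u`. -/
theorem exists_xSub_pow_mul {u : K} (hu : ‖u‖ < 1) {g : K⟦X⟧} (hg : IntSeries g) (hg0 : g ≠ 0) :
    ∃ (n : ℕ) (h : K⟦X⟧), IntSeries h ∧ evalAt u h ≠ 0 ∧ g = xSub u ^ n * h := by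
  by_contra hcon
  push Not at hcon
  have hall : ∀ n, ∃ h, IntSeries h ∧ g = xSub u ^ n * h := by
    intro n
    induction n with
    | zero => exact ⟨g, hg, by simp⟩
    | succ n ih =>
      obtain ⟨h, hh, rfl⟩ := ih
      have h0 : evalAt u h = 0 := by
        by_contra h0
        exact hcon n h hh h0 rfl
      refine ⟨divXSub u h, intSeries_divXSub hu hh, ?_⟩
      have he := evalAt_add_xSub_mul_divXSub hu hh
      rw [h0, map_zero, zero_add] at he
      rw [pow_succ, mul_assoc, he]
  refine hg0 (PowerSeries.ext fun m => ?_)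
  rw [map_zero]
  have hlim : Tendsto (fun k : ℕ => ‖u‖ ^ k) atTop (𝓝 0) :=
    tendsto_pow_atTop_nhds_zero_of_lt_one (norm_nonneg u) hu
  refine norm_le_zero_iff.mp (ge_of_tendsto hlim (Eventually.of_forall fun k => ?_))
  obtain ⟨h, hh, rfl⟩ := hall (m + k)
  simpa using coeff_xSub_pow_mul_norm_le hu hh (m + k) m

theorem xSub_pow_mul_inj {u : K} (hu : ‖u‖ < 1) {h h' : K⟦X⟧} (hh : IntSeries h)
    (hh' : IntSeries h') (h0 : evalAt u h ≠ 0) (h0' : evalAt u h' ≠ 0) {n n' : ℕ}
    (he : xSub u ^ n * h = xSub u ^ n' * h') : n = n' ∧ h = h' := by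
  wlog hle : n ≤ n' generalizing n n' h h'
  · exact (this hh' hh h0' h0 he.symm (le_of_not_ge hle)).imp Eq.symm Eq.symm
  obtain ⟨d, rfl⟩ := Nat.exists_eq_add_of_le hle
  rw [pow_add, mul_assoc] at he
  have h1 := mul_left_cancel₀ (pow_ne_zero n (xSub_ne_zero u)) he
  rcases d with _ | d
  · exact ⟨rfl, by simpa using h1⟩
  · refine absurd ?_ h0
    rw [h1, evalAt_mul hu ((intSeries_xSub hu).pow _) hh', pow_succ',
      evalAt_mul hu (intSeries_xSub hu) ((intSeries_xSub hu).pow _), evalAt_xSub hu u hu,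
      sub_self, zero_mul, zero_mul]

end Fermat.Agent.Mazur.Immersion
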