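import Fermat.Agent.Mazur.Immersion.WeightForms
import Fermat.Agent.Mazur.Immersion.KernelAction
import Fermat.Agent.MF.IntStruct.Hecke

/-!
# An operator making rational points torsion which is nonzero modulo `q`

The pairing `(F, t) ↦ a₁(t F)` between the integral lattice and the Hecke algebra is perfect over
`ℤ`, so an operator all of whose `a₁(t F)` are divisible by `q` is `q` times an operator.
-/

set_option autoImplicit false
set_option linter.style.haveILetI false

noncomputable section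

namespace Fermat.Agent.Mazur.Immersion

open ModularCurve ModularFormClass CongruenceSubgroup

variable {N : ℕ} [NeZero N]

theorem heckeEvalForms_surjective : Function.Surjective (CuspForm.heckeEvalForms N 2) := by
  rintro ⟨t, ht⟩
  suffices h : ∃ x, formOp N x = t by
    obtain ⟨x, hx⟩ := h
    exact ⟨x, Subtype.ext hx⟩
  induction ht using Algebra.adjoin_induction with
  | mem T hT =>
    rcases hT with ⟨ℓ, hℓ, hℓN, -, rfl⟩ | ⟨ℓ, hℓN, hℓ, -, rfl⟩
    · exact ⟨heckeGen ⟨ℓ, hℓ⟩, by
        rw [formOp, CuspForm.heckeEvalForms_heckeGen_of_not_dvd (ℓ := ⟨ℓ, hℓ⟩) hℓN]; rfl⟩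
    · exact ⟨heckeGen ⟨ℓ, hℓ⟩, by
        rw [formOp, CuspForm.heckeEvalForms_heckeGen_of_dvd (q := ⟨ℓ, hℓ⟩) hℓN]; rfl⟩
  | algebraMap r => exact ⟨MvPolynomial.C r, by rw [formOp_C, Algebra.algebraMap_eq_smul_one]⟩
  | add a b _ _ ha hb =>
    obtain ⟨x, rfl⟩ := ha
    obtain ⟨y, rfl⟩ := hb
    exact ⟨x + y, formOp_add x y⟩
  | mul a b _ _ ha hb =>
    obtain ⟨x, rfl⟩ := ha
    obtain ⟨y, rfl⟩ := hb
    exact ⟨x * y, formOp_mul x y⟩

theorem exists_pairing_value (F : ↥(CuspForm.intLattice N 2)) (t : ↥(CuspForm.heckeAlgebra N 2 ∅)) :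
    ∃ m : ℤ, qCoeff ((t : Module.End ℂ (CuspForm (Gamma0 N) 2)) F.1) 1 = m :=
  MF.IntStruct.exists_int_qCoeff (MF.IntStruct.apply_mem_intLattice t.2 F.2) 1

/-- The integral pairing. -/
def intPair (N : ℕ) [NeZero N] : ↥(CuspForm.intLattice N 2) →ₗ[ℤ]
    Module.Dual ℤ ↥(CuspForm.heckeAlgebra N 2 ∅) :=
  LinearMap.mk₂ ℤ (fun F t => (exists_pairing_value F t).choose)
    (fun F G t => Int.cast_injective (α := ℂ) (by
      push_cast
      rw [← (exists_pairing_value (F + G) t).choose_spec,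
        ← (exists_pairing_value F t).choose_spec, ← (exists_pairing_value G t).choose_spec,
        Submodule.coe_add, map_add, Eigen.qCoeff_add]))
    (fun c F t => Int.cast_injective (α := ℂ) (by
      rw [smul_eq_mul, Int.cast_mul, ← (exists_pairing_value (c • F) t).choose_spec,
        ← (exists_pairing_value F t).choose_spec, Submodule.coe_smul_of_tower, map_zsmul,
        ← Eigen.qCoeffLin_apply, map_zsmul, Eigen.qCoeffLin_apply, zsmul_eq_mul]))
    (fun F s t => Int.cast_injective (α := ℂ) (by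
      push_cast
      rw [← (exists_pairing_value F (s + t)).choose_spec,
        ← (exists_pairing_value F s).choose_spec, ← (exists_pairing_value F t).choose_spec,
        Subalgebra.coe_add, LinearMap.add_apply, Eigen.qCoeff_add]))
    (fun c F t => Int.cast_injective (α := ℂ) (by
      rw [smul_eq_mul, Int.cast_mul, ← (exists_pairing_value F (c • t)).choose_spec,
        ← (exists_pairing_value F t).choose_spec, SetLike.val_smul, LinearMap.smul_apply,
        ← Eigen.qCoeffLin_apply, map_zsmul, Eigen.qCoeffLin_apply, zsmul_eq_mul]))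

theorem intPair_spec (F : ↥(CuspForm.intLattice N 2)) (t : ↥(CuspForm.heckeAlgebra N 2 ∅)) :
    ((intPair N F t : ℤ) : ℂ) = qCoeff ((t : Module.End ℂ (CuspForm (Gamma0 N) 2)) F.1) 1 :=
  (exists_pairing_value F t).choose_spec.symm

theorem intPair_bijective (hT : ∀ n : ℕ, ∃ s : ↥(CuspForm.heckeAlgebra N 2 ∅), ∀ f : CuspForm (Gamma0 N) 2,
    qCoeff ((s : Module.End ℂ (CuspForm (Gamma0 N) 2)) f) 1 = qCoeff f n) :
    Function.Bijective (intPair N) := by
  constructor
  · refine (injective_iff_map_eq_zero _).mpr fun F hF => Subtype.ext ?_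
    refine MF.IntStruct.eq_zero_of_forall_qCoeff_one _ fun t ht => ?_
    have h := intPair_spec F ⟨t, ht⟩
    rw [hF, LinearMap.zero_apply, Int.cast_zero] at h
    exact h.symm
  · intro φ
    haveI := MF.IntStruct.moduleFree_heckeAlgebra N 2 ∅
    let b := Module.Free.chooseBasis ℤ ↥(CuspForm.heckeAlgebra N 2 ∅)
    let v : Module.Free.ChooseBasisIndex ℤ ↥(CuspForm.heckeAlgebra N 2 ∅) →
        ↥(MF.IntStruct.heckeSpan N 2) := fun i => ⟨(b i).1, Submodule.subset_span (b i).2⟩
    have hv : LinearIndependent ℂ v :=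
      LinearIndependent.of_comp (MF.IntStruct.heckeSpan N 2).subtype
        (MF.IntStruct.linearIndependent_complex _ b.linearIndependent)
    have hsp : ⊤ ≤ Submodule.span ℂ (Set.range v) := by
      rintro ⟨x, hx⟩ -
      induction hx using Submodule.span_induction with
      | mem y hy =>
        have h : (⟨y, Submodule.subset_span hy⟩ : ↥(MF.IntStruct.heckeSpan N 2)) =
            ∑ i ∈ (b.repr ⟨y, hy⟩).support, ((b.repr ⟨y, hy⟩ i : ℤ) : ℂ) • v i := by
          refine Subtype.ext ?_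
          have h2 := congrArg Subtype.val (b.linearCombination_repr ⟨y, hy⟩)
          simp only [Finsupp.linearCombination_apply, Finsupp.sum, AddSubmonoidClass.coe_finsetSum,
            SetLike.val_smul] at h2
          simp only [v, AddSubmonoidClass.coe_finsetSum, SetLike.val_smul, Int.cast_smul_eq_zsmul]
          exact h2.symm
        rw [h]
        exact Submodule.sum_mem _ fun i _ =>
          Submodule.smul_mem _ _ (Submodule.subset_span ⟨i, rfl⟩)
      | zero => exact Submodule.zero_mem _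
      | add y z hy hz ihy ihz => exact Submodule.add_mem _ ihy ihz
      | smul c y hy ihy => exact Submodule.smul_mem _ c ihy
    haveI := MF.IntStruct.finiteDimensional_cuspForm N 2
    obtain ⟨f, hf⟩ := (MF.IntStruct.heckePairing_isPerfPair (N := N) (k := 2)).bijective_left.2
      ((Module.Basis.mk hv hsp).constr ℂ fun i => ((φ (b i) : ℤ) : ℂ))
    have hval : ∀ s : ↥(CuspForm.heckeAlgebra N 2 ∅), qCoeff ((s : Module.End ℂ (CuspForm (Gamma0 N) 2)) f) 1 = (φ s : ℂ) := by
      let g : ↥(CuspForm.heckeAlgebra N 2 ∅) →ₗ[ℤ] ℂ :=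
        { toFun := fun s => qCoeff ((s : Module.End ℂ (CuspForm (Gamma0 N) 2)) f) 1
          map_add' := fun s s' => by rw [Subalgebra.coe_add, LinearMap.add_apply, Eigen.qCoeff_add]
          map_smul' := fun c s => by
            rw [SetLike.val_smul, LinearMap.smul_apply, ← Eigen.qCoeffLin_apply, map_zsmul,
              Eigen.qCoeffLin_apply, RingHom.id_apply] }
      have hg : g = (Algebra.linearMap ℤ ℂ).comp φ := b.ext fun i => by
        have h1 := LinearMap.congr_fun hf (v i)
        rw [show v i = Module.Basis.mk hv hsp i by rw [Module.Basis.mk_apply],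
          Module.Basis.constr_basis, Module.Basis.mk_apply] at h1
        simpa [g, v] using h1
      intro s
      exact LinearMap.congr_fun hg s
    have hmem : f ∈ CuspForm.intLattice N 2 := by
      refine Submodule.subset_span fun n => ?_
      obtain ⟨s, hs⟩ := hT n
      exact ⟨φ s, by rw [← hs f, hval]⟩
    refine ⟨⟨f, hmem⟩, LinearMap.ext fun s => Int.cast_injective (α := ℂ) ?_⟩
    rw [intPair_spec, hval]

/-- Divisibility of all `a₁(t F)` gives divisibility of `t`. -/
theorem exists_eq_smul_of_dvd (hT : ∀ n : ℕ, ∃ s : ↥(CuspForm.heckeAlgebra N 2 ∅), ∀ f : CuspForm (Gamma0 N) 2,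
    qCoeff ((s : Module.End ℂ (CuspForm (Gamma0 N) 2)) f) 1 = qCoeff f n)
    {q : ℕ} (t : ↥(CuspForm.heckeAlgebra N 2 ∅)) (h : ∀ F : ↥(CuspForm.intLattice N 2), (q : ℤ) ∣ intPair N F t) : ∃ s : ↥(CuspForm.heckeAlgebra N 2 ∅), (q : ℤ) • s = t := by
  haveI := MF.IntStruct.moduleFree_heckeAlgebra N 2 ∅
  haveI := MF.IntStruct.moduleFinite_heckeAlgebra N 2 ∅
  let e := LinearEquiv.ofBijective (intPair N) (intPair_bijective hT)
  let ψ : ↥(CuspForm.intLattice N 2) →ₗ[ℤ] ℤ :=
    { toFun := fun F => intPair N F t / q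
      map_add' := fun F G => by
        rw [map_add, LinearMap.add_apply, Int.add_ediv_of_dvd_left (h F)]
      map_smul' := fun c F => by
        rw [map_smul, LinearMap.smul_apply, RingHom.id_apply, smul_eq_mul, smul_eq_mul,
          Int.mul_ediv_assoc _ (h F)] }
  obtain ⟨s, hs⟩ := (Module.evalEquiv ℤ ↥(CuspForm.heckeAlgebra N 2 ∅)).surjective (ψ.comp e.symm.toLinearMap)
  refine ⟨s, (Module.evalEquiv ℤ ↥(CuspForm.heckeAlgebra N 2 ∅)).injective (LinearMap.ext fun φ => ?_)⟩
  obtain ⟨F, rfl⟩ := e.surjective φ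
  have h1 := LinearMap.congr_fun hs (e F)
  simp only [Module.evalEquiv_apply, Module.Dual.eval_apply, LinearMap.coe_comp,
    LinearEquiv.coe_coe, Function.comp_apply, LinearEquiv.symm_apply_apply] at h1 ⊢
  rw [map_smul, h1, smul_eq_mul]
  exact Int.mul_ediv_cancel' (h F)

/-- Some operator making rational points torsion has some `a₁(t F)` prime to `q`. -/
theorem exists_torsion_not_dvd (hT : ∀ n : ℕ, ∃ s : ↥(CuspForm.heckeAlgebra N 2 ∅), ∀ f : CuspForm (Gamma0 N) 2,
    qCoeff ((s : Module.End ℂ (CuspForm (Gamma0 N) 2)) f) 1 = qCoeff f n)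
    (hrk : RankZeroElement N) {q : ℕ} (hq : 2 ≤ q) :
    ∃ t : HeckeAlg, (∃ F : ↥(CuspForm.intLattice N 2), ¬ (q : ℤ) ∣ intPair N F (CuspForm.heckeEvalForms N 2 t)) ∧
      ∀ x : JZero N, (∀ σ : AlgebraicClosure ℚ ≃ₐ[ℚ] AlgebraicClosure ℚ, σ • x = x) →
        ∃ m : ℕ, 0 < m ∧ m • (letI := heckeModuleBar N; t • x) = 0 := by
  letI := heckeModuleBar N
  obtain ⟨t₀, ht₀, htor₀⟩ := hrk
  have h0 : CuspForm.heckeEvalForms N 2 t₀ ≠ 0 := fun h0 => ht₀ (by
    rw [latticeEval, RingHom.comp_apply, h0, map_zero])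
  obtain ⟨F₀, hF₀⟩ : ∃ F : ↥(CuspForm.intLattice N 2), intPair N F (CuspForm.heckeEvalForms N 2 t₀) ≠ 0 := by
    by_contra hall
    push Not at hall
    haveI := MF.IntStruct.moduleFree_heckeAlgebra N 2 ∅
    haveI := MF.IntStruct.moduleFinite_heckeAlgebra N 2 ∅
    refine h0 ((Module.evalEquiv ℤ ↥(CuspForm.heckeAlgebra N 2 ∅)).injective (LinearMap.ext fun φ => ?_))
    obtain ⟨F, rfl⟩ := (intPair_bijective hT).2 φ
    simpa using hall F
  clear ht₀ h0
  induction hn : (intPair N F₀ (CuspForm.heckeEvalForms N 2 t₀)).natAbs using Nat.strong_induction_on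
    generalizing t₀ with
  | _ n ih =>
    by_cases hdvd : ∀ F : ↥(CuspForm.intLattice N 2),
        (q : ℤ) ∣ intPair N F (CuspForm.heckeEvalForms N 2 t₀)
    · obtain ⟨s, hs⟩ := exists_eq_smul_of_dvd hT _ hdvd
      obtain ⟨t₁, rfl⟩ := heckeEvalForms_surjective s
      have hker : CuspForm.heckeEvalForms N 2 (t₀ - MvPolynomial.C (q : ℤ) * t₁) = 0 := by
        rw [map_sub, map_mul, CuspForm.heckeEvalForms_C, ← Algebra.smul_def, hs, sub_self]
      have hval : intPair N F₀ (CuspForm.heckeEvalForms N 2 t₀) =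
          (q : ℤ) * intPair N F₀ (CuspForm.heckeEvalForms N 2 t₁) := by
        rw [← hs, map_smul, smul_eq_mul]
      have h1 : intPair N F₀ (CuspForm.heckeEvalForms N 2 t₁) ≠ 0 := fun h => hF₀ (by
        rw [hval, h, mul_zero])
      have htor₁ : ∀ x : JZero N, (∀ σ : AlgebraicClosure ℚ ≃ₐ[ℚ] AlgebraicClosure ℚ, σ • x = x) →
          ∃ m : ℕ, 0 < m ∧ m • (t₁ • x) = 0 := by
        intro x hx
        obtain ⟨a, ha, hax⟩ := htor₀ x hx
        obtain ⟨c, hc, hcx⟩ := torsion_of_heckeEvalForms_eq_zero hker hx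
        refine ⟨a * c * q, by positivity, ?_⟩
        rw [sub_smul, mul_smul, heckeModuleBar_C_smul, nsmul_sub, natCast_zsmul, sub_eq_zero]
          at hcx
        rw [mul_assoc, mul_nsmul', mul_nsmul', ← hcx, ← mul_nsmul', mul_comm a c, mul_nsmul', hax,
          smul_zero]
      have hlt : (intPair N F₀ (CuspForm.heckeEvalForms N 2 t₁)).natAbs < n := by
        rw [← hn, hval, Int.natAbs_mul, Int.natAbs_natCast]
        exact lt_mul_of_one_lt_left (Int.natAbs_pos.mpr h1) (by omega)
      exact ih _ hlt t₁ htor₁ h1 rfl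
    · exact ⟨t₀, not_forall.mp hdvd, htor₀⟩

end Fermat.Agent.Mazur.Immersion
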