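import Fermat.Agent.Mazur.Immersion.Closedness
import Fermat.Agent.Mazur.Immersion.EvPlace

/-!
# Points of the disc specialise like the cusp `∞`

A function integral over `A[1/j]` has an integral expansion, so its values at the points of the disc
are congruent to its value at `∞`.
-/

set_option autoImplicit false
set_option linter.style.haveILetI false
set_option synthInstance.maxHeartbeats 400000

noncomputable section

namespace Fermat.Agent.Mazur.Immersion

open AlgebraicCurve ModularCurve

local notation "ℚbar" => AlgebraicClosure ℚ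

variable (q : ℕ) [Fact q.Prime]

theorem norm_cEmb (x : ℚbar) : ‖cEmb q x‖ = ‖padicEmbedding q x‖ :=
  UniformSpace.Completion.norm_coe _

variable {q}

theorem mem_padicPlace_iff_norm {x : ℚbar} : x ∈ padicPlace q ↔ ‖cEmb q x‖ ≤ 1 := by
  rw [norm_cEmb, mem_padicPlace_iff]
  exact Iff.rfl

theorem residue_eq_zero_iff_norm (a : padicPlace q) :
    IsLocalRing.residue (padicPlace q) a = 0 ↔ ‖cEmb q (a : ℚbar)‖ < 1 := by
  rw [IsLocalRing.residue_eq_zero_iff, IsLocalRing.mem_maximalIdeal, mem_nonunits_iff]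
  have hle := mem_padicPlace_iff_norm.mp a.2
  refine ⟨fun h => lt_of_le_of_ne hle fun h1 => h ?_, fun h hu => ?_⟩
  · have ha : (a : ℚbar) ≠ 0 := fun h0 => by rw [h0, map_zero, norm_zero] at h1; exact zero_ne_one h1
    exact IsUnit.of_mul_eq_one
      ⟨(a : ℚbar)⁻¹, mem_padicPlace_iff_norm.mpr (by rw [map_inv₀, norm_inv, h1, inv_one])⟩
      (Subtype.ext (mul_inv_cancel₀ ha))
  · obtain ⟨b, hb⟩ := hu.exists_right_inv
    have h1 := congrArg (fun z : padicPlace q => ‖cEmb q (z : ℚbar)‖) hb
    simp only [MulMemClass.coe_mul, OneMemClass.coe_one, map_mul, map_one, norm_mul, norm_one]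
      at h1
    have := mul_le_of_le_one_right (norm_nonneg (cEmb q (a : ℚbar)))
      (mem_padicPlace_iff_norm.mp b.2)
    linarith

variable (q) (N : ℕ) [NeZero N]

/-- The functions with integral expansion. -/
def intGerms : Subring (modularFunctionFieldBar N) :=
  ((intSubring ℂ_[q]).map ofPS).comap (stdMap q N).φ

variable {q N}

theorem mem_intGerms {f : modularFunctionFieldBar N} :
    f ∈ intGerms q N ↔ ∃ s, IntSeries s ∧ ofPS s = germ q (f : LaurentSeries ℚbar) := Iff.rfl

theorem algebraMap_mem_intGerms (a : padicPlace q) :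
    algebraMap ℚbar (modularFunctionFieldBar N) a ∈ intGerms q N := by
  refine ⟨PowerSeries.C (cEmb q a), IntSeries.C (mem_padicPlace_iff_norm.mp a.2), ?_⟩
  rw [(stdMap q N).map_const, HahnSeries.ofPowerSeries_C]
  rfl

theorem jInvElem_mem_intGerms : jInvElem N ∈ intGerms q N :=
  ⟨_, intSeries_jInvSer q, stdMap_jInvElem.symm⟩

theorem isIntegralPlace_jInv {P : Place ℚbar (modularFunctionFieldBar N)} {u : ℂ_[q]}
    (h : IsEvalPlace q N P u) : RED.IsIntegralPlace (padicPlace q) (jInvElem N) P := by
  refine ⟨h.jInv_mem, mem_padicPlace_iff_norm.mpr ?_⟩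
  rw [h.cEmb_pval, norm_jInvVal h.1]
  exact h.1.le

theorem not_isIntegralPlace_jElem {P : Place ℚbar (modularFunctionFieldBar N)} {u : ℂ_[q]}
    (h : IsEvalPlace q N P u) :
    ¬ RED.IsIntegralPlace (padicPlace q) (MF.Coeff.jElem ℚbar N) P := by
  rintro ⟨hj, hjA⟩
  haveI := isFunctionField_bar (N := N)
  have hv := FF.deg_eq_one P
  have hne : MF.Coeff.jElem ℚbar N ≠ 0 := fun h0 =>
    MF.Coeff.transcendental_jElem ℚbar N (h0 ▸ isAlgebraic_zero)
  have h1 := RED.pval_mul hv hj h.jInv_mem
  rw [mul_inv_cancel₀ hne, RED.pval_one hv] at h1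
  have h2 := congrArg (fun z => ‖cEmb q z‖) h1
  simp only [map_one, norm_one, map_mul, norm_mul, h.cEmb_pval, norm_jInvVal h.1] at h2
  have := mul_le_of_le_one_left (norm_nonneg u) (mem_padicPlace_iff_norm.mp hjA)
  linarith [h.1]

/-- Regular at `∞` means a power series expansion. -/
theorem exists_ofPS_eq_germ {f : modularFunctionFieldBar N}
    (hf : f ∈ (inftyPlace q N).toValuationSubring) :
    ∃ g, ofPS g = germ q (f : LaurentSeries ℚbar) := by
  rw [mem_inftyPlace_iff] at hf
  refine ⟨PowerSeries.mk fun i => (germ q (f : LaurentSeries ℚbar)).coeff i, ?_⟩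
  ext k
  rcases lt_or_ge k 0 with hk | hk
  · rw [ofPowerSeries_coeff_of_neg _ hk]
    show 0 = cEmb q _
    rw [hf k hk, map_zero]
  · obtain ⟨i, rfl⟩ := Int.eq_ofNat_of_zero_le hk
    rw [HahnSeries.ofPowerSeries_apply_coeff, PowerSeries.coeff_mk]

/-- A function integral over `A[1/j]` has an integral expansion. -/
theorem intRing_le_intGerms {D : RED.ReductionDatum (padicPlace q)
      (IsLocalRing.residue (padicPlace q)) (modularFunctionFieldBar N)
      (modularFunctionFieldFullC (IsLocalRing.ResidueField (padicPlace q)) N)}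
    {xb : modularFunctionFieldFullC (IsLocalRing.ResidueField (padicPlace q)) N} {n : ℕ}
    (h : RED.ReductionChart D (jInvElem N) xb n)
    {f : modularFunctionFieldBar N} (hf : f ∈ RED.intRing (padicPlace q) (jInvElem N)) :
    f ∈ intGerms q N := by
  obtain ⟨g, hg⟩ :=
    exists_ofPS_eq_germ (h.mem_place (isIntegralPlace_jInv isEvalPlace_inftyPlace) hf)
  obtain ⟨a, b, ha, hb, hb0, hab⟩ := mem_bddGerms q f.2
  rw [← hg, ← map_mul] at hab
  obtain ⟨p, hp, hroot⟩ := hf
  have hmem : ∀ r, RED.intEval (padicPlace q) (jInvElem N) r ∈ intGerms q N := by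
    intro r
    induction r using Polynomial.induction_on' with
    | add r r' hr hr' => rw [map_add]; exact add_mem hr hr'
    | monomial i c =>
      simp only [RED.intEval, Polynomial.coe_eval₂RingHom, Polynomial.eval₂_monomial]
      exact mul_mem (algebraMap_mem_intGerms c) (pow_mem jInvElem_mem_intGerms i)
  choose s hs hse using fun r => mem_intGerms.mp (hmem r)
  let φ : Polynomial (padicPlace q) →+* PowerSeries ℂ_[q] :=
    { toFun := s
      map_one' := ofPS_injective (by rw [hse, map_one, map_one, OneMemClass.coe_one, map_one])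
      map_mul' := fun x y => ofPS_injective (by
        rw [hse, map_mul, map_mul, hse, hse, MulMemClass.coe_mul, map_mul])
      map_zero' := ofPS_injective (by rw [hse, map_zero, map_zero, ZeroMemClass.coe_zero, map_zero])
      map_add' := fun x y => ofPS_injective (by
        rw [hse, map_add, map_add, hse, hse, AddMemClass.coe_add, map_add]) }
  refine ⟨g, intSeries_of_monic hb0 ha hb (ofPS_injective hab) (hp.map φ)
    (fun i => by rw [Polynomial.coeff_map]; exact hs _) (ofPS_injective ?_), hg⟩
  have hcomp : (ofPS.comp φ) = (stdMap q N).φ.comp (RED.intEval (padicPlace q) (jInvElem N)) :=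
    RingHom.ext hse
  rw [map_zero, Polynomial.eval_map, Polynomial.hom_eval₂, hg, hcomp, ← stdMap_apply,
    ← Polynomial.hom_eval₂, hroot, map_zero]

/-- Values at points of the disc are congruent to the value at `∞`. -/
theorem norm_cEmb_pval_sub_lt {f : modularFunctionFieldBar N} (hf : f ∈ intGerms q N)
    {P : Place ℚbar (modularFunctionFieldBar N)} {u : ℂ_[q]} (hP : IsEvalPlace q N P u) :
    ‖cEmb q (RED.pval P f) - cEmb q (RED.pval (inftyPlace q N) f)‖ < 1 := by
  haveI := isFunctionField_bar (N := N)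
  obtain ⟨g, hg, he⟩ := mem_intGerms.mp hf
  have key : ∀ {Q : Place ℚbar (modularFunctionFieldBar N)} {v : ℂ_[q]}, IsEvalPlace q N Q v →
      cEmb q (RED.pval Q f) = evalAt v g := by
    intro Q v hQ
    have hmem : f ∈ Q.toValuationSubring := (hQ.2 f).mpr (he ▸ regularAt_ofPS v hg)
    have h1 := GermMap.IsPlaceAt.valAt_eq_pval (isEvalPlace_iff.mp hQ) hmem
    rw [stdMap_apply, ← he, valAt_ofPS hQ.1 hg] at h1
    exact h1.symm
  rw [key hP, key isEvalPlace_inftyPlace, evalAt_zero]
  exact (norm_evalAt_sub_coeff_zero_le hP.1 hg).trans_lt hP.1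

/-- All points of the disc reduce to the reduction of `∞`. -/
theorem redPlace_evPlace {D : RED.ReductionDatum (padicPlace q)
      (IsLocalRing.residue (padicPlace q)) (modularFunctionFieldBar N)
      (modularFunctionFieldFullC (IsLocalRing.ResidueField (padicPlace q)) N)}
    {xb : modularFunctionFieldFullC (IsLocalRing.ResidueField (padicPlace q)) N} {n : ℕ}
    (h : RED.TwoCharts D (MF.Coeff.jElem ℚbar N) xb n) {u : ℂ_[q]} (hu : AlgPt q N u) :
    h.redPlace (evPlace q N u) = h.redPlace (inftyPlace q N) := by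
  haveI := isFunctionField_bar (N := N)
  have hP := hu.isEvalPlace
  obtain ⟨h0, hxb⟩ := h.redPlace_infinite (not_isIntegralPlace_jElem (q := q) isEvalPlace_inftyPlace)
  rw [h.redPlace_eq_iff_inv hxb]
  refine ⟨isIntegralPlace_jInv hP, h0.2.1, fun f hf g hfg a ha => ?_⟩
  have ha₀ := h.infinite.pval_mem (isIntegralPlace_jInv isEvalPlace_inftyPlace) hf
  rw [h0.2.2 f hf g hfg ⟨_, ha₀⟩ rfl, eq_comm, ← sub_eq_zero, ← map_sub, residue_eq_zero_iff_norm]
  rw [AddSubgroupClass.coe_sub, map_sub, ← ha]
  exact norm_cEmb_pval_sub_lt (intRing_le_intGerms h.infinite hf) hP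

end Fermat.Agent.Mazur.Immersion
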