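import Fermat.Agent.Mazur.Immersion.EvPlace
import Fermat.Agent.Mazur.Immersion.Over
import Fermat.Agent.RED.Specialization.SwapField

/-!
# The two expansions of level `N ℓ`
-/

set_option autoImplicit false

noncomputable section

namespace Fermat.Agent.Mazur.Immersion

open AlgebraicCurve ModularCurve

local notation "ℚbar" => AlgebraicClosure ℚ

variable {q : ℕ} [Fact q.Prime] {N : ℕ} [NeZero N] {ℓ : ℕ} [NeZero ℓ]

/-- An embedding of `ℚ̄` in `ℂ`. -/
def complexEmb : ℚbar →+* ℂ :=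
  haveI : Algebra.IsAlgebraic ℚ ℚbar := AlgebraicClosure.isAlgebraic ℚ
  (IsAlgClosed.lift : ℚbar →ₐ[ℚ] ℂ).toRingHom

theorem stdMap_heckeBetaBar (f : modularFunctionFieldBar N) :
    (stdMap q (N * ℓ)).φ (heckeBetaBar ℚbar N ℓ f) = qExpand ℂ_[q] ℓ ((stdMap q N).φ f) := by
  rw [stdMap_apply, stdMap_apply, coe_heckeBetaBar, germ_qExpand]

theorem stdMap_heckeAlphaBar (f : modularFunctionFieldBar N) :
    (stdMap q (N * ℓ)).φ (heckeAlphaBar ℚbar N ℓ f) = (stdMap q N).φ f := by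
  rw [stdMap_apply, stdMap_apply, coe_heckeAlphaBar]

omit [NeZero N] in
theorem isBdd_genSer {M : ℕ} (d : RED.Spec.DivIdx M) :
    IsBdd (germ q (RED.Spec.genSer ℚbar d)) := by
  haveI : NeZero d.1 := ⟨d.2.1.ne'⟩
  rw [RED.Spec.genSer, germ_qExpand, germ_jqModC]
  exact (isBdd_jqModC q).qExpand _

/-- The expansion of level `N ℓ` exchanging the degeneracy maps. -/
theorem exists_swapMap (hℓ : ℓ.Prime) (hℓN : ¬ ℓ ∣ N) :
    ∃ Φ : GermMap ℚbar (modularFunctionFieldBar (N * ℓ)) ℂ_[q],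
      (∀ f, Φ.φ (heckeAlphaBar ℚbar N ℓ f) = qExpand ℂ_[q] ℓ ((stdMap q N).φ f)) ∧
      (∀ f, Φ.φ (heckeBetaBar ℚbar N ℓ f) = (stdMap q N).φ f) := by
  obtain ⟨φ, hφα, hφβ⟩ := RED.Spec.exists_swap_embedding (N := N) complexEmb hℓ hℓN
  have hconst : ∀ c : ℚbar, ((germ q).comp φ.toRingHom) (algebraMap ℚbar _ c) =
      HahnSeries.single (0 : ℤ) (cEmb q c) := fun c => by
    rw [RingHom.comp_apply, show φ.toRingHom (algebraMap ℚbar _ c) =
      algebraMap ℚbar (LaurentSeries ℚbar) c from φ.commutes c, germ_algebraMap]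
  refine ⟨⟨(germ q).comp φ.toRingHom, cEmb q, hconst, fun f => ?_⟩, fun f => ?_, fun f => ?_⟩
  · refine bdd_of_adjoin (RED.Spec.modField_eq_adjoin_genSer (L := ℚbar) (N * ℓ))
      ((germ q).comp φ.toRingHom) (fun c h => ?_) (fun x hx h => ?_) f
    · have : (⟨_, h⟩ : modularFunctionFieldBar (N * ℓ)) = algebraMap ℚbar _ c := rfl
      rw [this]
      exact (congrArg IsBdd (hconst c)).mpr (isBdd_single q _)
    · obtain ⟨d, rfl⟩ := hx
      haveI : NeZero d.1 := ⟨d.2.1.ne'⟩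
      by_cases hdℓ : ℓ ∣ d.1
      · obtain ⟨d', hd'⟩ := hdℓ
        haveI : NeZero d' := ⟨fun h => d.2.1.ne' (by rw [hd', h, mul_zero])⟩
        have hdN : d' ∣ N := Nat.dvd_of_mul_dvd_mul_left (Nat.pos_of_ne_zero (NeZero.ne ℓ))
          (by have := d.2.2; rwa [hd', mul_comm N] at this)
        have hg : qExpand ℚbar d' (HK.Corr.jSer ℚbar) ∈ modularFunctionFieldBar N :=
          HK.Corr.qExpand_jSer_mem hdN
        have he : (⟨_, h⟩ : modularFunctionFieldBar (N * ℓ)) =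
            heckeBetaBar ℚbar N ℓ ⟨_, hg⟩ := by
          refine Subtype.ext ?_
          rw [coe_heckeBetaBar]
          show RED.Spec.genSer ℚbar d = qExpand ℚbar ℓ (qExpand ℚbar d' (HK.Corr.jSer ℚbar))
          rw [RED.Spec.genSer, RED.Spec.jSer_eq_jqModC, qExpand_qExpand]
          exact qExpand_congr hd' _
        rw [RingHom.comp_apply, show φ.toRingHom _ = φ _ from rfl, he, hφβ]
        exact mem_bddGerms q hg
      · have hdN : d.1 ∣ N :=
          (((Nat.Prime.coprime_iff_not_dvd hℓ).mpr hdℓ).symm).dvd_of_dvd_mul_right d.2.2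
        have hg : qExpand ℚbar d.1 (HK.Corr.jSer ℚbar) ∈ modularFunctionFieldBar N :=
          HK.Corr.qExpand_jSer_mem hdN
        have he : (⟨_, h⟩ : modularFunctionFieldBar (N * ℓ)) =
            heckeAlphaBar ℚbar N ℓ ⟨_, hg⟩ := by
          refine Subtype.ext ?_
          rw [coe_heckeAlphaBar]
          show RED.Spec.genSer ℚbar d = qExpand ℚbar d.1 (HK.Corr.jSer ℚbar)
          rw [RED.Spec.genSer, RED.Spec.jSer_eq_jqModC]
        rw [RingHom.comp_apply, show φ.toRingHom _ = φ _ from rfl, he, hφα, germ_qExpand]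
        exact (mem_bddGerms q hg).qExpand ℓ
  · show germ q (φ _) = _
    rw [hφα, germ_qExpand, stdMap_apply]
  · show germ q (φ _) = _
    rw [hφβ, stdMap_apply]

end Fermat.Agent.Mazur.Immersion
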