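import Fermat.Agent.Mazur.Immersion.Weights
import Fermat.Agent.Mazur.Immersion.RootSets
import Fermat.Agent.Mazur.Immersion.Hecke

/-!
# Hecke operators on the divisors attached to weights
-/

set_option autoImplicit false
set_option linter.unusedSectionVars false
set_option linter.style.haveILetI false

noncomputable section

namespace Fermat.Agent.Mazur.Immersion

open AlgebraicCurve ModularCurve

local notation "ℚbar" => AlgebraicClosure ℚ

variable {q : ℕ} [Fact q.Prime]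

/-- The roots of `X ^ d = s ^ a`. -/
def pts (s : ℂ_[q]) (p : ℕ × ℕ) : Multiset ℂ_[q] := Polynomial.nthRoots p.2 (s ^ p.1)

variable (N : ℕ) [NeZero N]

/-- The pair only involves parameters of points, whatever the base parameter. -/
def GoodPair (q : ℕ) [Fact q.Prime] (p : ℕ × ℕ) : Prop :=
  1 ≤ p.2 ∧ ∀ s : ℂ_[q], AlgPt q N s → ∀ v ∈ pts s p, AlgPt q N v

/-- The divisor of a weight at `s`. -/
def wDiv (s : ℂ_[q]) : Wt →ₗ[ℤ] Divisor ℚbar (modularFunctionFieldBar N) :=
  Finsupp.linearCombination ℤ fun p => ptsDiv N (pts s p)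

theorem wDiv_single (s : ℂ_[q]) (p : ℕ × ℕ) (c : ℤ) :
    wDiv N s (Finsupp.single p c) = c • ptsDiv N (pts s p) :=
  Finsupp.linearCombination_single ℤ c p

variable {N}

theorem goodPair_one : GoodPair N q (1, 1) := by
  refine ⟨le_rfl, fun s hs v hv => ?_⟩
  rw [pts, Polynomial.mem_nthRoots one_pos, pow_one, pow_one] at hv
  rwa [hv]

theorem ptsDiv_nsmul (k : ℕ) (S : Multiset ℂ_[q]) : ptsDiv N (k • S) = k • ptsDiv N S := by
  rw [ptsDiv, ptsDiv, Multiset.map_nsmul, Multiset.sum_nsmul]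

theorem ptsDiv_bind (S : Multiset ℂ_[q]) (f : ℂ_[q] → Multiset ℂ_[q]) :
    ptsDiv N (S.bind f) = (S.map fun u => ptsDiv N (f u)).sum := by
  induction S using Multiset.induction_on with
  | empty => simp [ptsDiv]
  | cons a T ih => rw [Multiset.cons_bind, ptsDiv_add, ih, Multiset.map_cons, Multiset.sum_cons]

theorem degree_ptsDiv (S : Multiset ℂ_[q]) :
    Divisor.degree (ptsDiv N S) = (Multiset.card S : ℤ) := by
  haveI := isFunctionField_bar (N := N)
  induction S using Multiset.induction_on with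
  | empty => simp [ptsDiv]
  | cons a T ih =>
    rw [← Multiset.singleton_add, ptsDiv_add, map_add, ih, ptsDiv, Multiset.map_singleton,
      Multiset.sum_singleton, Divisor.degree_single, FF.deg_eq_one, Multiset.card_add,
      Multiset.card_singleton]
    push_cast
    ring

variable {ℓ : ℕ} [NeZero ℓ]

theorem bind_stepPts (hℓ : ℓ.Prime) (s : ℂ_[q]) {p : ℕ × ℕ} (hp : 1 ≤ p.2) :
    (pts s p).bind (stepPts N ℓ) = pts s (p.1, ℓ * p.2) +
      if ℓ ∣ N then 0 else if ℓ ∣ p.2 then ℓ • pts s (p.1, p.2 / ℓ)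
        else pts s (ℓ * p.1, p.2) := by
  have hd : p.2 ≠ 0 := by omega
  unfold stepPts
  rw [Multiset.bind_add, pts, bind_nthRoots hd hℓ.ne_zero, mul_comm p.2 ℓ]
  congr 1
  by_cases hN : ℓ ∣ N
  · simp [hN]
  simp only [if_neg hN]
  rw [Multiset.bind_singleton]
  by_cases h : ℓ ∣ p.2
  · obtain ⟨e, he⟩ := h
    rw [if_pos ⟨e, he⟩, pts, he, Nat.mul_div_cancel_left _ hℓ.pos, mul_comm ℓ e,
      map_pow_nthRoots_mul (fun h0 => hd (by rw [he, h0, mul_zero])) hℓ.ne_zero]
  · rw [if_neg h, pts, map_pow_nthRoots_of_coprime hd hℓ.ne_zero ((hℓ.coprime_iff_not_dvd).mpr h),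
      ← pow_mul, mul_comm]

theorem goodPair_step (hℓ : ℓ.Prime) (hα : HeckeAlphaBarIntegral ℚbar N ℓ)
    (hβ : HeckeBetaBarIntegral ℚbar N ℓ) {p : ℕ × ℕ} (hp : GoodPair N q p) {r : ℕ × ℕ}
    (hr : r ∈ (stepPair N ℓ p).support) : GoodPair N q r := by
  classical
  refine ⟨one_le_snd_of_mem_stepPair N hℓ.ne_zero hp.1 hr, fun s hs v hv => ?_⟩
  have hall : ∀ x ∈ (pts s p).bind (stepPts N ℓ), AlgPt q N x := fun x hx => by
    obtain ⟨u, hu, hxu⟩ := Multiset.mem_bind.mp hx
    exact algPt_stepPts hℓ hα hβ (hp.2 s hs u hu) x hxu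
  rw [bind_stepPts hℓ s hp.1] at hall
  rw [stepPair] at hr
  rcases Finset.mem_union.mp (Finsupp.support_add hr) with h | h
  · rw [Finset.mem_singleton.mp (Finsupp.support_single_subset h)] at hv
    exact hall v (Multiset.mem_add.mpr (Or.inl hv))
  · split_ifs at h hall with h1 h2
    · simp at h
    · rw [Finset.mem_singleton.mp (Finsupp.support_single_subset h)] at hv
      exact hall v (Multiset.mem_add.mpr (Or.inr (Multiset.mem_nsmul.mpr ⟨hℓ.ne_zero, hv⟩)))
    · rw [Finset.mem_singleton.mp (Finsupp.support_single_subset h)] at hv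
      exact hall v (Multiset.mem_add.mpr (Or.inr hv))

variable [HasPrincipalDivisors ℚbar (modularFunctionFieldBar (N * ℓ))]

theorem heckeDivBar_ptsDiv (hℓ : ℓ.Prime) (hα : HeckeAlphaBarIntegral ℚbar N ℓ)
    (hβ : HeckeBetaBarIntegral ℚbar N ℓ) (S : Multiset ℂ_[q]) (hS : ∀ u ∈ S, AlgPt q N u) :
    heckeDivBar hα hβ (ptsDiv N S) = ptsDiv N (S.bind (stepPts N ℓ)) := by
  rw [ptsDiv_bind, ptsDiv, map_multiset_sum, Multiset.map_map]
  congr 1
  exact Multiset.map_congr rfl fun u hu => heckeDivBar_evPlace hℓ hα hβ (hS u hu)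

theorem heckeDivBar_wDiv (hℓ : ℓ.Prime) (hα : HeckeAlphaBarIntegral ℚbar N ℓ)
    (hβ : HeckeBetaBarIntegral ℚbar N ℓ) {w : Wt} (hw : ∀ p ∈ w.support, GoodPair N q p)
    {s : ℂ_[q]} (hs : AlgPt q N s) :
    heckeDivBar hα hβ (wDiv N s w) = wDiv N s (step N ℓ w) := by
  rw [← Finsupp.sum_single w]
  simp only [Finsupp.sum, map_sum]
  refine Finset.sum_congr rfl fun p hp => ?_
  obtain ⟨hp1, hp2⟩ := hw p hp
  rw [wDiv_single, map_zsmul, heckeDivBar_ptsDiv hℓ hα hβ _ (hp2 s hs), step_single, map_zsmul,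
    bind_stepPts hℓ s hp1, ptsDiv_add]
  congr 1
  rw [stepPair, map_add, wDiv_single, one_smul]
  congr 1
  split_ifs with h1 h2
  · simp [ptsDiv]
  · rw [wDiv_single, ptsDiv_nsmul, natCast_zsmul]
  · rw [wDiv_single, one_smul]

theorem goodPair_of_mem_step (hℓ : ℓ.Prime) (hα : HeckeAlphaBarIntegral ℚbar N ℓ)
    (hβ : HeckeBetaBarIntegral ℚbar N ℓ) {w : Wt} (hw : ∀ p ∈ w.support, GoodPair N q p) :
    ∀ r ∈ (step N ℓ w).support, GoodPair N q r := by
  classical
  intro r hr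
  rw [step, Finsupp.linearCombination_apply] at hr
  obtain ⟨p, hp, hrp⟩ := Finset.mem_biUnion.mp (Finsupp.support_sum hr)
  exact goodPair_step hℓ hα hβ (hw p hp) (Finsupp.support_smul hrp)

end Fermat.Agent.Mazur.Immersion
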