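import Mathlib

/-!
# Weights on pairs `(a, d)`

The pair `(a, d)` stands for the roots of `X ^ d = s ^ a`; `step N ℓ` is the effect of the `ℓ`-th
Hecke correspondence.
-/

set_option autoImplicit false

noncomputable section

namespace Fermat.Agent.Mazur.Immersion

/-- Formal combinations of pairs. -/
abbrev Wt : Type := (ℕ × ℕ) →₀ ℤ

variable (N : ℕ)

/-- The image of a pair under the `ℓ`-th correspondence. -/
def stepPair (ℓ : ℕ) (p : ℕ × ℕ) : Wt :=
  Finsupp.single (p.1, ℓ * p.2) 1 +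
    if ℓ ∣ N then 0
    else if ℓ ∣ p.2 then Finsupp.single (p.1, p.2 / ℓ) (ℓ : ℤ)
    else Finsupp.single (ℓ * p.1, p.2) 1

/-- The `ℓ`-th correspondence on weights. -/
def step (ℓ : ℕ) : Wt →ₗ[ℤ] Wt := Finsupp.linearCombination ℤ (stepPair N ℓ)

theorem step_single (ℓ : ℕ) (p : ℕ × ℕ) (c : ℤ) :
    step N ℓ (Finsupp.single p c) = c • stepPair N ℓ p :=
  Finsupp.linearCombination_single ℤ c p

theorem one_le_snd_of_mem_stepPair {ℓ : ℕ} (hℓ : ℓ ≠ 0) {p : ℕ × ℕ} (hp : 1 ≤ p.2)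
    {r : ℕ × ℕ} (hr : r ∈ (stepPair N ℓ p).support) : 1 ≤ r.2 := by
  classical
  rw [stepPair] at hr
  rcases Finset.mem_union.mp (Finsupp.support_add hr) with h | h
  · rw [Finset.mem_singleton.mp (Finsupp.support_single_subset h)]
    exact Nat.one_le_iff_ne_zero.mpr (Nat.mul_ne_zero hℓ (by omega))
  · split_ifs at h with h1 h2
    · simp at h
    · rw [Finset.mem_singleton.mp (Finsupp.support_single_subset h)]
      exact Nat.div_pos (Nat.le_of_dvd hp h2) (Nat.pos_of_ne_zero hℓ)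
    · rw [Finset.mem_singleton.mp (Finsupp.support_single_subset h)]
      exact hp

/-- The pairs `(a, d)` with `a d = n` and `a` prime to `N`. -/
def pairsOf (n : ℕ) : Finset (ℕ × ℕ) := n.divisorsAntidiagonal.filter fun p => Nat.Coprime p.1 N

/-- The weight of the `n`-th Hecke operator. -/
def wtOf (n : ℕ) : Wt := ∑ p ∈ pairsOf N n, Finsupp.single p 1

theorem wtOf_zero : wtOf N 0 = 0 := by simp [wtOf, pairsOf]

theorem wtOf_one : wtOf N 1 = Finsupp.single (1, 1) 1 := by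
  simp [wtOf, pairsOf, Nat.divisorsAntidiagonal_one, Finset.filter_singleton]

theorem mem_pairsOf {n : ℕ} {p : ℕ × ℕ} :
    p ∈ pairsOf N n ↔ p.1 * p.2 = n ∧ n ≠ 0 ∧ Nat.Coprime p.1 N := by
  rw [pairsOf, Finset.mem_filter, Nat.mem_divisorsAntidiagonal]
  tauto

theorem wtOf_apply_nonneg (n : ℕ) (p : ℕ × ℕ) : 0 ≤ wtOf N n p := by
  rw [wtOf, Finset.sum_apply']
  refine Finset.sum_nonneg fun r _ => ?_
  rw [Finsupp.single_apply]
  split_ifs <;> norm_num

/-- The recursion of the Hecke operators on weights. -/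
theorem step_wtOf {ℓ : ℕ} (hℓ : ℓ.Prime) {n : ℕ} (hn : n ≠ 0) :
    step N ℓ (wtOf N n) = wtOf N (ℓ * n) +
      if ℓ ∣ n ∧ ¬ ℓ ∣ N then (ℓ : ℤ) • wtOf N (n / ℓ) else 0 := by
  classical
  have hℓ0 := hℓ.ne_zero
  have hA : ∑ p ∈ pairsOf N n, Finsupp.single (p.1, ℓ * p.2) (1 : ℤ) =
      ∑ p ∈ (pairsOf N (ℓ * n)).filter (fun p => ℓ ∣ p.2), Finsupp.single p 1 := by
    refine Finset.sum_nbij' (fun p => (p.1, ℓ * p.2)) (fun p => (p.1, p.2 / ℓ)) ?_ ?_ ?_ ?_ ?_
    · intro p hp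
      rw [mem_pairsOf] at hp
      rw [Finset.mem_filter, mem_pairsOf]
      exact ⟨⟨by rw [← hp.1]; ring, Nat.mul_ne_zero hℓ0 hn, hp.2.2⟩, dvd_mul_right _ _⟩
    · intro p hp
      rw [Finset.mem_filter, mem_pairsOf] at hp
      obtain ⟨⟨hp1, -, hp3⟩, e, he⟩ := hp
      rw [mem_pairsOf]
      refine ⟨?_, hn, hp3⟩
      rw [he] at hp1
      rw [he, Nat.mul_div_cancel_left _ hℓ.pos]
      exact Nat.eq_of_mul_eq_mul_left hℓ.pos (by rw [← hp1]; ring)
    · intro p _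
      simp [Nat.mul_div_cancel_left _ hℓ.pos]
    · intro p hp
      rw [Finset.mem_filter] at hp
      simp [Nat.mul_div_cancel' hp.2]
    · intro p _; rfl
  have hrest : ∀ p, step N ℓ (Finsupp.single p 1) = stepPair N ℓ p := fun p => by
    rw [step_single, one_smul]
  rw [wtOf, map_sum, Finset.sum_congr rfl fun p _ => hrest p]
  unfold stepPair
  rw [Finset.sum_add_distrib, hA]
  by_cases hN : ℓ ∣ N
  · rw [if_neg (fun h => h.2 hN), add_zero, wtOf]
    simp only [if_pos hN, Finset.sum_const_zero, add_zero]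
    refine Finset.sum_congr (Finset.filter_true_of_mem fun p hp => ?_) fun _ _ => rfl
    rw [mem_pairsOf] at hp
    refine (hℓ.dvd_mul.mp ⟨n, hp.1⟩).resolve_left fun h => ?_
    exact Nat.not_coprime_of_dvd_of_dvd hℓ.one_lt h hN hp.2.2
  simp only [if_neg hN]
  rw [Finset.sum_ite]
  have hB : ∑ p ∈ (pairsOf N n).filter (fun p => ¬ ℓ ∣ p.2), Finsupp.single (ℓ * p.1, p.2) (1 : ℤ) =
      ∑ p ∈ (pairsOf N (ℓ * n)).filter (fun p => ¬ ℓ ∣ p.2), Finsupp.single p 1 := by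
    refine Finset.sum_nbij' (fun p => (ℓ * p.1, p.2)) (fun p => (p.1 / ℓ, p.2)) ?_ ?_ ?_ ?_ ?_
    · intro p hp
      rw [Finset.mem_filter, mem_pairsOf] at hp
      rw [Finset.mem_filter, mem_pairsOf]
      exact ⟨⟨by rw [← hp.1.1]; ring, Nat.mul_ne_zero hℓ0 hn,
        Nat.Coprime.mul_left ((hℓ.coprime_iff_not_dvd).mpr hN) hp.1.2.2⟩, hp.2⟩
    · intro p hp
      rw [Finset.mem_filter, mem_pairsOf] at hp
      obtain ⟨⟨hp1, -, hp3⟩, hd⟩ := hp
      obtain ⟨e, he⟩ := (hℓ.dvd_mul.mp ⟨n, hp1⟩).resolve_right hd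
      rw [Finset.mem_filter, mem_pairsOf]
      refine ⟨⟨?_, hn, ?_⟩, hd⟩
      · rw [he] at hp1
        rw [he, Nat.mul_div_cancel_left _ hℓ.pos]
        exact Nat.eq_of_mul_eq_mul_left hℓ.pos (by rw [← hp1]; ring)
      · rw [he] at hp3
        rw [he, Nat.mul_div_cancel_left _ hℓ.pos]
        exact Nat.Coprime.coprime_mul_left hp3
    · intro p _
      simp [Nat.mul_div_cancel_left _ hℓ.pos]
    · intro p hp
      rw [Finset.mem_filter, mem_pairsOf] at hp
      have := (hℓ.dvd_mul.mp ⟨n, hp.1.1⟩).resolve_right hp.2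
      simp [Nat.mul_div_cancel' this]
    · intro p _; rfl
  have hC : ∑ p ∈ (pairsOf N n).filter (fun p => ℓ ∣ p.2), Finsupp.single (p.1, p.2 / ℓ) (ℓ : ℤ) =
      if ℓ ∣ n ∧ ¬ ℓ ∣ N then (ℓ : ℤ) • wtOf N (n / ℓ) else 0 := by
    by_cases hdn : ℓ ∣ n
    · obtain ⟨m, rfl⟩ := hdn
      have hm : m ≠ 0 := fun h => hn (by rw [h, mul_zero])
      rw [if_pos ⟨dvd_mul_right _ _, hN⟩, Nat.mul_div_cancel_left _ hℓ.pos, wtOf, Finset.smul_sum]
      refine Finset.sum_nbij' (fun p => (p.1, p.2 / ℓ)) (fun p => (p.1, ℓ * p.2)) ?_ ?_ ?_ ?_ ?_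
      · intro p hp
        rw [Finset.mem_filter, mem_pairsOf] at hp
        obtain ⟨⟨hp1, -, hp3⟩, e, he⟩ := hp
        rw [mem_pairsOf]
        refine ⟨?_, hm, hp3⟩
        rw [he] at hp1
        rw [he, Nat.mul_div_cancel_left _ hℓ.pos]
        exact Nat.eq_of_mul_eq_mul_left hℓ.pos (by rw [← hp1]; ring)
      · intro p hp
        rw [mem_pairsOf] at hp
        rw [Finset.mem_filter, mem_pairsOf]
        exact ⟨⟨by rw [← hp.1]; ring, hn, hp.2.2⟩, dvd_mul_right _ _⟩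
      · intro p hp
        rw [Finset.mem_filter] at hp
        simp [Nat.mul_div_cancel' hp.2]
      · intro p _
        simp [Nat.mul_div_cancel_left _ hℓ.pos]
      · intro p _
        simp [Finsupp.smul_single]
    · rw [if_neg (fun h => hdn h.1)]
      refine Finset.sum_eq_zero fun p hp => ?_
      rw [Finset.mem_filter, mem_pairsOf] at hp
      exact absurd (hp.2.trans (Dvd.intro_left _ hp.1.1)) hdn
  rw [hB, hC, show wtOf N (ℓ * n) = _ from
    (Finset.sum_filter_add_sum_filter_not (pairsOf N (ℓ * n)) (fun p => ℓ ∣ p.2) _).symm]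
  abel

end Fermat.Agent.Mazur.Immersion
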